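import Fermat.Agent.MU.F4.Loc.Formation
import Fermat.Agent.F4.Formation
import Fermat.Agent.F4.Hull.Basic
import Fermat.Agent.MU.F4.Loc.Smooth.Level
import Fermat.Agent.MU.F4.Loc.FT
import Fermat.Agent.F4.Loc.InfRes
import Fermat.Agent.F4.Shapiro.ModCor
import Fermat.Agent.F4.Loc.KummerFin
import Fermat.Agent.MU.F4.Loc.Base
import Fermat.Agent.MU.F4.Loc.Smooth.H90
import Fermat.Agent.MU.F4.UC.Bridge
import Fermat.Agent.MU.F4.Datum
import Fermat.Agent.F4.Shapiro.R2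
import Fermat.Agent.MU.F4.BR.LevelsBridge
import Fermat.Agent.MU.F4.Dict.Formation
import Fermat.Agent.MU.F4.Loc.LocalGal
import Fermat.Agent.F4.Loc.Krasner
import Fermat.Agent.MU.F4.Loc.FTC
import Fermat.Agent.MU.F4.Loc.Datum.CycloLevel
import Fermat.Agent.MU.F4.BR.Smooth

section MergeWrap_F4_Loc_Datum_Units -- from F4/Loc/Datum/Units.lean

/-!
# F4 / Loc / Datum / Units : the module of smooth units of a level structure (DATUM, seat D-UNITS)

`Γ₀` a group acting on `Ω = PadicAlgCl q`, `𝓛` a level structure on `Γ₀`.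

* `smUnits q 𝓛 : Rep ℤ Γ₀` : the units of `Ω` fixed by some level of `𝓛` (written additively);
* `smUnitsJ q 𝓛 : smUnits q 𝓛 →+ Additive Ωˣ` : the inclusion;
* `locFormation_smUnits` : `(Γ₀, 𝓛, smUnits q 𝓛)` is a local formation;
* `locFormation_res` : for `U` open, `(↥U, 𝓛.sub U, (smUnits q 𝓛)|_U)` is a local formation.
-/

set_option autoImplicit false
set_option linter.unusedSectionVars false

noncomputable section

open CategoryTheory groupCohomology

namespace Fermat.Agent.F4.Loc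

section SmUnits

variable (q : ℕ) [Fact q.Prime] {Γ₀ : Type} [Group Γ₀]
  [MulSemiringAction Γ₀ (PadicAlgCl q)] [MulDistribMulAction Γ₀ (PadicAlgCl q)ˣ]
  (𝓛 : Levels Γ₀)

/-- The additive subgroup of the `𝓛`-smooth units. -/
def smUnitsSub : AddSubgroup (Additive (PadicAlgCl q)ˣ) where
  carrier := {u | ∃ V ∈ 𝓛.sets, IsFixedBy V (Additive.toMul u)}
  zero_mem' := by
    obtain ⟨V, hV⟩ := 𝓛.nonempty
    exact ⟨V, hV, fun h _ => smul_one h⟩
  add_mem' := by
    rintro a b ⟨V, hV, ha⟩ ⟨V', hV', hb⟩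
    obtain ⟨W, hW, hWle⟩ := 𝓛.directed V hV V' hV'
    refine ⟨W, hW, fun h hh => ?_⟩
    show h • (Additive.toMul a * Additive.toMul b) = Additive.toMul a * Additive.toMul b
    rw [smul_mul', ha h (hWle hh).1, hb h (hWle hh).2]
  neg_mem' := by
    rintro a ⟨V, hV, ha⟩
    refine ⟨V, hV, fun h hh => ?_⟩
    show h • (Additive.toMul a)⁻¹ = (Additive.toMul a)⁻¹
    rw [smul_inv', ha h hh]

lemma mem_smUnitsSub (u : Additive (PadicAlgCl q)ˣ) :
    u ∈ smUnitsSub q 𝓛 ↔ ∃ V ∈ 𝓛.sets, IsFixedBy V (Additive.toMul u) := Iff.rfl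

/-- The smooth units are stable under `Γ₀`. -/
lemma smul_mem_smUnitsSub (g : Γ₀) {u : Additive (PadicAlgCl q)ˣ} (hu : u ∈ smUnitsSub q 𝓛) :
    Additive.ofMul (g • Additive.toMul u) ∈ smUnitsSub q 𝓛 := by
  obtain ⟨V, hV, hfix⟩ := hu
  have hVn := 𝓛.normal V hV
  refine ⟨V, hV, fun h hh => ?_⟩
  show h • (g • Additive.toMul u) = g • Additive.toMul u
  have h1 : g⁻¹ * h * g ∈ V := by
    have := hVn.conj_mem h hh g⁻¹
    simpa using this
  have h2 : h • (g • Additive.toMul u) = g • ((g⁻¹ * h * g) • Additive.toMul u) := by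
    rw [← mul_smul, ← mul_smul]
    congr 1
    group
  rw [h2, hfix _ h1]

/-- The action of `g` on the smooth units. -/
def smUnitsAct (g : Γ₀) : ↥(smUnitsSub q 𝓛) →+ ↥(smUnitsSub q 𝓛) where
  toFun u := ⟨Additive.ofMul (g • Additive.toMul (u : Additive (PadicAlgCl q)ˣ)),
    smul_mem_smUnitsSub q 𝓛 g u.2⟩
  map_zero' := by
    apply Subtype.ext
    show Additive.ofMul (g • (1 : (PadicAlgCl q)ˣ)) = 0
    rw [smul_one]; rfl
  map_add' a b := by
    apply Subtype.ext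
    show Additive.ofMul (g • (Additive.toMul (a : Additive (PadicAlgCl q)ˣ) *
      Additive.toMul (b : Additive (PadicAlgCl q)ˣ))) = _
    rw [smul_mul']; rfl

/-- The representation of `Γ₀` on the smooth units. -/
def smUnitsRepr : Representation ℤ Γ₀ ↥(smUnitsSub q 𝓛) where
  toFun g := (smUnitsAct q 𝓛 g).toIntLinearMap
  map_one' := by
    refine LinearMap.ext fun u => Subtype.ext ?_
    show Additive.ofMul ((1 : Γ₀) • Additive.toMul (u : Additive (PadicAlgCl q)ˣ)) = _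
    rw [one_smul]; rfl
  map_mul' g h := by
    refine LinearMap.ext fun u => Subtype.ext ?_
    show Additive.ofMul ((g * h) • Additive.toMul (u : Additive (PadicAlgCl q)ˣ)) = _
    rw [mul_smul]; rfl

/-- The module of `𝓛`-smooth units of `Ω`, as a `ℤ[Γ₀]`-module. -/
abbrev smUnits : Rep.{0} ℤ Γ₀ := Rep.of (smUnitsRepr q 𝓛)

/-- The inclusion of the smooth units into the units of `Ω`. -/
def smUnitsJ : smUnits q 𝓛 →+ Additive (PadicAlgCl q)ˣ := (smUnitsSub q 𝓛).subtype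

lemma smUnitsJ_injective : Function.Injective (smUnitsJ q 𝓛) := Subtype.val_injective

lemma smUnitsJ_ρ (g : Γ₀) (c : smUnits q 𝓛) :
    smUnitsJ q 𝓛 ((smUnits q 𝓛).ρ g c) = Additive.ofMul (g • Additive.toMul (smUnitsJ q 𝓛 c)) := rfl

lemma smUnitsJ_range (u : (PadicAlgCl q)ˣ) :
    (∃ c : smUnits q 𝓛, smUnitsJ q 𝓛 c = Additive.ofMul u) ↔ ∃ V ∈ 𝓛.sets, IsFixedBy V u := by
  constructor
  · rintro ⟨c, hc⟩
    obtain ⟨V, hV, hfix⟩ := c.2
    refine ⟨V, hV, ?_⟩
    have : Additive.toMul (c : Additive (PadicAlgCl q)ˣ) = u := congrArg Additive.toMul hc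
    rwa [this] at hfix
  · rintro ⟨V, hV, hfix⟩
    exact ⟨⟨Additive.ofMul u, V, hV, hfix⟩, rfl⟩

/-- The element of `smUnits q 𝓛` attached to a unit fixed by a level. -/
def smUnitsMk (u : (PadicAlgCl q)ˣ) (hu : ∃ V ∈ 𝓛.sets, IsFixedBy V u) : smUnits q 𝓛 :=
  ⟨Additive.ofMul u, hu⟩

lemma smUnitsJ_mk (u : (PadicAlgCl q)ˣ) (hu : ∃ V ∈ 𝓛.sets, IsFixedBy V u) :
    smUnitsJ q 𝓛 (smUnitsMk q 𝓛 u hu) = Additive.ofMul u := rfl

/-- The smooth units are a smooth module. -/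
theorem smUnits_isSmooth : IsSmooth 𝓛 (smUnits q 𝓛) := by
  intro c
  obtain ⟨V, hV, hfix⟩ := c.2
  refine ⟨V, hV, fun g hg => Subtype.ext ?_⟩
  show Additive.ofMul (g • Additive.toMul (c : Additive (PadicAlgCl q)ˣ)) = _
  rw [hfix g hg]; rfl

/-- **The formation of the smooth units.** -/
def locFormation_smUnits (hΓ : IsLocalGal q Γ₀) (hopen : ∀ V ∈ 𝓛.sets, IsOpenSub q V) :
    LocFormation q 𝓛 (smUnits q 𝓛) where
  isLocalGal := hΓ
  isOpenSub := hopen
  j := smUnitsJ q 𝓛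
  j_inj := smUnitsJ_injective q 𝓛
  j_comm := smUnitsJ_ρ q 𝓛
  j_range := smUnitsJ_range q 𝓛

/-- A unit is fixed by a level of `𝓛.sub U` iff it is fixed by a level of `𝓛` (`U` open). -/
lemma exists_fixed_sub_iff {U : Subgroup Γ₀} (hU : 𝓛.IsOpen U) (u : (PadicAlgCl q)ˣ) :
    (∃ V ∈ (𝓛.sub U).sets, IsFixedBy V u) ↔ ∃ V ∈ 𝓛.sets, IsFixedBy V u := by
  constructor
  · rintro ⟨_, ⟨V, hV, rfl⟩, hfix⟩
    obtain ⟨V₀, hV₀, hV₀U⟩ := hU
    obtain ⟨W, hW, hWle⟩ := 𝓛.directed V hV V₀ hV₀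
    refine ⟨W, hW, fun h hh => ?_⟩
    exact hfix ⟨h, hV₀U (hWle hh).2⟩ (hWle hh).1
  · rintro ⟨V, hV, hfix⟩
    exact ⟨V.comap U.subtype, ⟨V, hV, rfl⟩, fun h hh => hfix (h : Γ₀) hh⟩

/-- **The formation over an open subgroup** `U`: `(↥U, 𝓛.sub U, (smUnits q 𝓛)|_U)`. -/
def locFormation_res (hΓ : IsLocalGal q Γ₀) (hopen : ∀ V ∈ 𝓛.sets, IsOpenSub q V)
    (U : Subgroup Γ₀) (hU : 𝓛.IsOpen U) :
    LocFormation q (𝓛.sub U) (Rep.res U.subtype (smUnits q 𝓛)) where
  isLocalGal := by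
    obtain ⟨V, hV, hVU⟩ := hU
    exact hΓ.subgroup U ((hopen V hV).of_le hΓ hVU)
  isOpenSub := by
    rintro _ ⟨V, hV, rfl⟩
    exact (hopen V hV).subgroupOf
  j := smUnitsJ q 𝓛
  j_inj := smUnitsJ_injective q 𝓛
  j_comm γ c := smUnitsJ_ρ q 𝓛 (γ : Γ₀) c
  j_range u := (smUnitsJ_range q 𝓛 u).trans (exists_fixed_sub_iff q 𝓛 hU u).symm

end SmUnits

end Fermat.Agent.F4.Loc

end
end MergeWrap_F4_Loc_Datum_Units

section MergeWrap_F4_Hull_Hull -- from F4/Hull/Hull.lean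

/-!
# F4 / Hull / Hull : the divisible hull of a `ℤ[G]`-module and the complex `𝔽_p ⊗ᴸ C`

For every `ℤ[G]`-module `C`:
* `hullI C = ℚ[C] / ker(ℤ[C] → C)` : a divisible `ℤ[G]`-module containing `C` (`hullι`), smooth if
  `C` is (`hullI_smooth`);
* `hullQ C = hullI C / C`;
* `hullK p C = [hullI C [p] → hullQ C [p]]` : the 2-term complex of `𝔽_p[G]`-modules computing
  `Ext^r(𝔽_p, C)`;
* `hullData p C : UCData p (hullK p C) C (hullI C) (hullQ C)` (input of the universal-coefficient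
  sequences of `F4/UC`);
* `hullEps` : the morphism `M[0] → hullK p C` attached to an equivariant map `M → C`, `M` an
  `𝔽_p[G]`-module (e.g. `μ_p → L^×`).
-/

set_option autoImplicit false

noncomputable section

open CategoryTheory

namespace Fermat.Agent.F4

variable {G : Type} [Group G]

/-! ### The free `ℚ`-module on `C` -/

section Free

variable (C : Rep.{0} ℤ G)

/-- The sum map `ℤ[C] → C`. -/
def hullSum : (C →₀ ℤ) →+ C := Finsupp.liftAddHom fun c => zmultiplesHom C c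

@[simp] lemma hullSum_single (c : C) (n : ℤ) : hullSum C (Finsupp.single c n) = n • c := by
  simp [hullSum]

/-- The inclusion `ℤ[C] → ℚ[C]`. -/
def hullCast : (C →₀ ℤ) →+ (C →₀ ℚ) := Finsupp.mapRange.addMonoidHom (Int.castAddHom ℚ)

@[simp] lemma hullCast_single (c : C) (n : ℤ) :
    hullCast C (Finsupp.single c n) = Finsupp.single c (n : ℚ) := by
  simp [hullCast]

lemma hullCast_injective : Function.Injective (hullCast C) := by
  intro f f' h
  ext c
  have := DFunLike.congr_fun h c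
  simpa [hullCast] using this

/-- The action of `g` on `ℚ[C]`. -/
def hullFreeAct (g : G) : (C →₀ ℚ) →+ (C →₀ ℚ) := Finsupp.mapDomain.addMonoidHom (C.ρ g)

@[simp] lemma hullFreeAct_single (g : G) (c : C) (a : ℚ) :
    hullFreeAct C g (Finsupp.single c a) = Finsupp.single (C.ρ g c) a := by
  simp [hullFreeAct]

/-- The representation of `G` on `ℚ[C]`. -/
def hullFreeRepr : Representation ℤ G (C →₀ ℚ) where
  toFun g := (hullFreeAct C g).toIntLinearMap
  map_one' := by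
    refine LinearMap.ext fun f => ?_
    show Finsupp.mapDomain (C.ρ 1) f = f
    rw [map_one]
    exact Finsupp.mapDomain_id
  map_mul' g h := by
    refine LinearMap.ext fun f => ?_
    show Finsupp.mapDomain (C.ρ (g * h)) f = Finsupp.mapDomain (C.ρ g) (Finsupp.mapDomain (C.ρ h) f)
    rw [map_mul, ← Finsupp.mapDomain_comp]
    rfl

/-- `ℚ[C]` as a representation. -/
abbrev hullFree : Rep.{0} ℤ G := Rep.of (hullFreeRepr C)

lemma hullFree_ρ_apply (g : G) (f : C →₀ ℚ) :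
    (hullFree C).ρ g f = Finsupp.mapDomain (C.ρ g) f := rfl

/-- The relations: the image in `ℚ[C]` of the kernel of `ℤ[C] → C`. -/
def hullRel : AddSubgroup (hullFree C) := (hullSum C).ker.map (hullCast C)

lemma hullSum_mapDomain (g : G) (r : C →₀ ℤ) :
    hullSum C (Finsupp.mapDomain (C.ρ g) r) = C.ρ g (hullSum C r) := by
  induction r using Finsupp.induction_linear with
  | zero => simp
  | add f f' hf hf' => rw [Finsupp.mapDomain_add, map_add, map_add, map_add, hf, hf']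
  | single c n => rw [Finsupp.mapDomain_single, hullSum_single, hullSum_single, map_zsmul]

lemma hullCast_mapDomain (g : G) (r : C →₀ ℤ) :
    hullCast C (Finsupp.mapDomain (C.ρ g) r) = Finsupp.mapDomain (C.ρ g) (hullCast C r) := by
  induction r using Finsupp.induction_linear with
  | zero => simp
  | add f f' hf hf' => rw [Finsupp.mapDomain_add, map_add, map_add, Finsupp.mapDomain_add, hf, hf']
  | single c n => rw [Finsupp.mapDomain_single, hullCast_single, hullCast_single,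
      Finsupp.mapDomain_single]

lemma hullRel_stable (g : G) (x : hullFree C) (hx : x ∈ hullRel C) :
    (hullFree C).ρ g x ∈ hullRel C := by
  obtain ⟨r, hr, rfl⟩ := hx
  refine ⟨Finsupp.mapDomain (C.ρ g) r, ?_, ?_⟩
  · show hullSum C (Finsupp.mapDomain (C.ρ g) r) = 0
    rw [hullSum_mapDomain, show hullSum C r = 0 from hr, map_zero]
  · rw [hullCast_mapDomain]
    rfl

end Free

/-! ### The hull -/

section Hull

variable (C : Rep.{0} ℤ G)

/-- The divisible hull `ℚ[C] / ker(ℤ[C] → C)` of `C`. -/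
abbrev hullI : Rep.{0} ℤ G := quotRep (hullFree C) (hullRel C) (hullRel_stable C)

/-- The class of an element of `ℚ[C]` in the hull. -/
def hullMk : (C →₀ ℚ) →+ hullI C := quotMk (hullFree C) (hullRel C) (hullRel_stable C)

lemma hullMk_surjective : Function.Surjective (hullMk C) :=
  quotMk_surjective (hullFree C) (hullRel C) (hullRel_stable C)

lemma hullMk_eq_zero_iff (f : C →₀ ℚ) : hullMk C f = 0 ↔ f ∈ hullRel C :=
  quotMk_eq_zero_iff (hullFree C) (hullRel C) (hullRel_stable C) f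

lemma hullMk_comm (g : G) (f : C →₀ ℚ) :
    hullMk C (Finsupp.mapDomain (C.ρ g) f) = (hullI C).ρ g (hullMk C f) := rfl

/-- The inclusion of `C` in its hull. -/
def hullι : C →+ hullI C :=
  AddMonoidHom.mk' (fun c => hullMk C (Finsupp.single c 1)) (by
    intro a b
    rw [← sub_eq_zero, ← map_add, ← map_sub, hullMk_eq_zero_iff]
    refine ⟨Finsupp.single (a + b) 1 - (Finsupp.single a 1 + Finsupp.single b 1), ?_, ?_⟩
    · show hullSum C _ = 0
      simp
    · simp)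

lemma hullι_apply (c : C) : hullι C c = hullMk C (Finsupp.single c 1) := rfl

lemma hullι_injective : Function.Injective (hullι C) := by
  rw [injective_iff_map_eq_zero]
  intro c hc
  rw [hullι_apply, hullMk_eq_zero_iff] at hc
  obtain ⟨r, hr, hrc⟩ := hc
  have h1 : hullCast C r = hullCast C (Finsupp.single c 1) := by
    rw [hrc, hullCast_single]
    simp
  have h2 := hullCast_injective C h1
  have h3 : hullSum C r = 0 := hr
  rw [h2, hullSum_single, one_smul] at h3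
  exact h3

lemma hullι_comm (g : G) (c : C) : hullι C (C.ρ g c) = (hullI C).ρ g (hullι C c) := by
  rw [hullι_apply, hullι_apply, ← hullMk_comm, Finsupp.mapDomain_single]

/-- The hull is divisible. -/
lemma hullI_div (n : ℕ) (hn : n ≠ 0) (x : hullI C) : ∃ y : hullI C, (n : ℤ) • y = x := by
  obtain ⟨f, rfl⟩ := hullMk_surjective C x
  refine ⟨hullMk C ((n : ℚ)⁻¹ • f), ?_⟩
  rw [← map_zsmul]
  congr 1
  ext c
  simp only [Finsupp.smul_apply, smul_eq_mul, zsmul_eq_mul, Int.cast_natCast]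
  have : (n : ℚ) ≠ 0 := Nat.cast_ne_zero.2 hn
  field_simp

/-- The hull of a smooth module is smooth. -/
theorem hullI_smooth (𝓤 : Levels G) (hC : IsSmooth 𝓤 C) : IsSmooth 𝓤 (hullI C) := by
  classical
  intro x
  obtain ⟨f, rfl⟩ := hullMk_surjective C x
  choose! W hW hWfix using hC
  obtain ⟨W₀, hW₀, hW₀le⟩ := 𝓤.exists_le_finset f.support W (fun c _ => hW c)
  refine ⟨W₀, hW₀, fun g hg => ?_⟩
  rw [← hullMk_comm]
  congr 1
  have h1 : Finsupp.mapDomain (C.ρ g) f = Finsupp.mapDomain id f :=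
    Finsupp.mapDomain_congr fun c hc => hWfix c g (hW₀le c hc hg)
  rw [h1, Finsupp.mapDomain_id]

/-- The image of `C` in its hull. -/
def hullRange : AddSubgroup (hullI C) := (hullι C).range

lemma hullRange_stable (g : G) (x : hullI C) (hx : x ∈ hullRange C) :
    (hullI C).ρ g x ∈ hullRange C := by
  obtain ⟨c, rfl⟩ := hx
  exact ⟨C.ρ g c, hullι_comm C g c⟩

/-- The quotient `hullI C / C`. -/
abbrev hullQ : Rep.{0} ℤ G := quotRep (hullI C) (hullRange C) (hullRange_stable C)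

/-- The projection `hullI C → hullQ C`. -/
def hullπ : hullI C →+ hullQ C := quotMk (hullI C) (hullRange C) (hullRange_stable C)

lemma hullπ_surjective : Function.Surjective (hullπ C) :=
  quotMk_surjective (hullI C) (hullRange C) (hullRange_stable C)

lemma hullπ_eq_zero_iff (x : hullI C) : hullπ C x = 0 ↔ ∃ c : C, hullι C c = x :=
  quotMk_eq_zero_iff (hullI C) (hullRange C) (hullRange_stable C) x

lemma hullπ_comm (g : G) (x : hullI C) : hullπ C ((hullI C).ρ g x) = (hullQ C).ρ g (hullπ C x) :=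
  rfl

end Hull

/-! ### The complex and the universal-coefficient datum -/

section Complex

variable (p : ℕ) (C : Rep.{0} ℤ G)

/-- The complex `[hullI C [p] → hullQ C [p]]`, a model of `𝔽_p ⊗ᴸ C [-1]`. -/
def hullK : Cx (ZMod p) G where
  K0 := torsRep p (hullI C)
  K1 := torsRep p (hullQ C)
  d := torsMap p (hullπ C)
  comm g x := torsMap_comm p (hullπ C) (hullπ_comm C) g x

/-- The universal-coefficient datum of the hull. -/
def hullData [Fact p.Prime] : UCData p (hullK p C) C (hullI C) (hullQ C) where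
  ι := hullι C
  π := hullπ C
  i0 := torsIncl p (hullI C)
  i1 := torsIncl p (hullQ C)
  ι_inj := hullι_injective C
  π_surj := hullπ_surjective C
  exact := hullπ_eq_zero_iff C
  ι_comm := hullι_comm C
  π_comm := hullπ_comm C
  i0_comm := torsIncl_comm p (hullI C)
  i1_comm := torsIncl_comm p (hullQ C)
  i0_inj := torsIncl_injective p (hullI C)
  i1_inj := torsIncl_injective p (hullQ C)
  i0_range := torsIncl_range p (hullI C)
  i1_range := torsIncl_range p (hullQ C)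
  comm _ := rfl
  div := hullI_div C p (Fact.out : p.Prime).ne_zero

/-- The complex of the hull of a smooth module is smooth. -/
theorem hullK_smooth [Fact p.Prime] (𝓤 : Levels G) (hC : IsSmooth 𝓤 C) :
    (hullK p C).Smooth 𝓤 :=
  (hullData p C).smoothK (hullI_smooth C 𝓤 hC)

variable {p C}

/-- The morphism `M[0] → hullK p C` attached to an equivariant additive map `φ : M → C`, for an
`𝔽_p[G]`-module `M`. -/
def hullEps (M : Rep.{0} (ZMod p) G) (φ : M →+ C)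
    (hφ : ∀ (g : G) (m : M), φ (M.ρ g m) = C.ρ g (φ m)) : CxHom (Cx.deg0 M) (hullK p C) where
  f0 := torsLift p M (hullI C) ((hullι C).comp φ)
  f1 := 0
  comm0 g m := by
    apply torsIncl_injective
    exact (congrArg (hullι C) (hφ g m)).trans (hullι_comm C g (φ m))
  comm1 _ _ := by simp
  commd m := by
    apply torsIncl_injective
    show (0 : hullQ C) = hullπ C (hullι C (φ m))
    exact ((hullπ_eq_zero_iff C _).2 ⟨φ m, rfl⟩).symm

lemma hullEps_f0 (M : Rep.{0} (ZMod p) G) (φ : M →+ C)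
    (hφ : ∀ (g : G) (m : M), φ (M.ρ g m) = C.ρ g (φ m)) (m : M) :
    torsIncl p (hullI C) ((hullEps M φ hφ).f0 m) = hullι C (φ m) := rfl

lemma hullEps_f0_injective (M : Rep.{0} (ZMod p) G) (φ : M →+ C)
    (hφ : ∀ (g : G) (m : M), φ (M.ρ g m) = C.ρ g (φ m)) (hinj : Function.Injective φ) :
    Function.Injective (hullEps M φ hφ).f0 := by
  intro m m' h
  have h' : hullι C (φ m) = hullι C (φ m') := congrArg (torsIncl p (hullI C)) h
  exact hinj (hullι_injective C h')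

/-- **Existence of the universal-coefficient datum**: every smooth `ℤ[G]`-module `C` has a
smooth 2-term complex `K` of `𝔽_p[G]`-modules with `HH^r(K) = Ext^r(𝔽_p, C)`. -/
theorem exists_ucData (p : ℕ) [Fact p.Prime] (𝓤 : Levels G) (C : Rep.{0} ℤ G)
    (hC : IsSmooth 𝓤 C) :
    ∃ (K : Cx (ZMod p) G) (I Q : Rep.{0} ℤ G) (_ : UCData p K C I Q),
      K.Smooth 𝓤 ∧ IsSmooth 𝓤 I :=
  ⟨hullK p C, hullI C, hullQ C, hullData p C, hullK_smooth p C 𝓤 hC, hullI_smooth C 𝓤 hC⟩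

end Complex

end Fermat.Agent.F4
end
end MergeWrap_F4_Hull_Hull

section MergeWrap_F4_Loc_Smooth_MA -- from F4/Loc/Smooth/MA.lean

/-!
# F4 / Loc / Smooth / MA : the MA bridge for a local formation (seat S-MA, helper90)

`F : LocFormation q 𝓛 C`.  An `𝓛`-smooth 2-cocycle `w` of `C` whose image `toMul2 w` in `Ωˣ` is
the coboundary of a cochain `s` which is smooth for the full topology is an `𝓛`-smooth
coboundary of `C`:

`toMul2 w` is `V`-inflated for a level `V` (S-LVL); `s` is right-invariant under an open normal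
`W`; with `W' = W ⊓ V`, Hilbert 90 for `W' ≤ V` (FTA) and the injectivity of inflation
(`infl_injective`) give a `V`-inflated `s'` with `toMul2 w = mulD1 s'`; such an `s'` is `toMul1`
of an `𝓛`-smooth cochain of `C` (`j_range`, `j_inj`).
-/

set_option autoImplicit false
set_option linter.unusedSectionVars false
set_option linter.style.haveILetI false

open CategoryTheory groupCohomology

namespace Fermat.Agent.F4.Loc

section Generic

variable {q : ℕ} [Fact q.Prime]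
variable {Γ : Type} [Group Γ] [MulSemiringAction Γ (PadicAlgCl q)]
  [MulDistribMulAction Γ (PadicAlgCl q)ˣ]

/-- Descent of a smooth trivialisation: a 2-cochain inflated from an open normal subgroup `V`
which is the coboundary of a smooth cochain is the coboundary of a `V`-inflated cochain. -/
theorem ma_exists_isInfl1 (hΓ : IsLocalGal q Γ) {V : Subgroup Γ} [V.Normal] (hV : IsOpenSub q V)
    {c : Γ × Γ → (PadicAlgCl q)ˣ} (hc : IsInfl2 V c) (hsm : IsSmCob2 c) :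
    ∃ s' : Γ → (PadicAlgCl q)ˣ, IsInfl1 V s' ∧ c = mulD1 s' := by
  obtain ⟨s, ⟨W, hWn, hWo, hWs⟩, hcs⟩ := hsm
  have : W.Normal := hWn
  have hn : (W ⊓ V).Normal := inferInstance
  have hH := h1Triv_of_open hΓ V (W ⊓ V) (hWo.inf hV) inf_le_right
  exact infl_injective V (W ⊓ V) inf_le_right hH c hc s (fun g v hv => hWs g v hv.1) hcs

end Generic

namespace LocFormation

variable {q : ℕ} [Fact q.Prime] {Γ₀ : Type} [Group Γ₀]
  [MulSemiringAction Γ₀ (PadicAlgCl q)] [MulDistribMulAction Γ₀ (PadicAlgCl q)ˣ]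
  {𝓛 : Levels Γ₀} {C : Rep.{0} ℤ Γ₀}

/-- **S-MA.**  The MA bridge for a local formation. -/
theorem maBridge (F : LocFormation q 𝓛 C) : MABridge F := by
  intro w hw hsm
  have hlc : IsLC₂ 𝓛 w := hw.2
  obtain ⟨V, hV, hinfl⟩ := F.exists_level_isInfl2 hlc
  have hVn : V.Normal := 𝓛.normal V hV
  obtain ⟨s', hs', hws'⟩ := ma_exists_isInfl1 F.isLocalGal (F.isOpenSub V hV) hinfl hsm
  exact F.mem_B2_of_toMul2_eq_mulD1 hV hs' hws'

end LocFormation

end Fermat.Agent.F4.Loc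
end MergeWrap_F4_Loc_Smooth_MA

section MergeWrap_F4_Loc_Smooth_Res -- from F4/Loc/Smooth/Res.lean

/-!
# F4 / Loc / Smooth / Res : restriction of a local formation to an open subgroup (seat S-RES)

`F : LocFormation q 𝓛 C`, `U` a subgroup of `Γ₀` which is open for `𝓛` (contains a level).

* `F.res U hU : LocFormation q (𝓛.sub U) (Rep.res U.subtype C)` (same `j`);
* `res_jm`, `res_toMul1`, `res_toMul2` : `toMul` commutes with restriction (`resC1`, `resC2`), by `rfl`;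
* `isOpenSub_of_isOpen` : a subgroup which is open for `𝓛` is `IsOpenSub`;
* `exists_fixed_sub_iff'` : fixed by a level of `𝓛.sub U` iff fixed by a level of `𝓛`;
* `isLC₁_res`, `isLC₂_res`, `res_mem_Z2`, `res_mem_B2` : restriction of `𝓛`-smooth cochains.
-/

set_option autoImplicit false
set_option linter.unusedSectionVars false
set_option linter.unusedVariables false

open CategoryTheory groupCohomology

namespace Fermat.Agent.F4.Loc

namespace LocFormation

variable {q : ℕ} [Fact q.Prime] {Γ₀ : Type} [Group Γ₀]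
  [MulSemiringAction Γ₀ (PadicAlgCl q)] [MulDistribMulAction Γ₀ (PadicAlgCl q)ˣ]
  {𝓛 : Levels Γ₀} {C : Rep.{0} ℤ Γ₀} (F : LocFormation q 𝓛 C)

include F in
/-- A subgroup which is open for the level structure is open (`IsOpenSub`). -/
theorem isOpenSub_of_isOpen {U : Subgroup Γ₀} (hU : 𝓛.IsOpen U) : IsOpenSub q U := by
  obtain ⟨V, hV, hVU⟩ := hU
  exact (F.isOpenSub V hV).of_le F.isLocalGal hVU

/-- A unit is fixed by a level of `𝓛.sub U` iff it is fixed by a level of `𝓛` (`U` open). -/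
theorem exists_fixed_sub_iff' {U : Subgroup Γ₀} (hU : 𝓛.IsOpen U) (u : (PadicAlgCl q)ˣ) :
    (∃ V ∈ (𝓛.sub U).sets, IsFixedBy V u) ↔ ∃ V ∈ 𝓛.sets, IsFixedBy V u := by
  constructor
  · rintro ⟨_, ⟨V, hV, rfl⟩, hfix⟩
    obtain ⟨V₀, hV₀, hV₀U⟩ := hU
    obtain ⟨W, hW, hWle⟩ := 𝓛.directed V hV V₀ hV₀
    refine ⟨W, hW, fun h hh => ?_⟩
    exact hfix ⟨h, hV₀U (hWle hh).2⟩ (hWle hh).1
  · rintro ⟨V, hV, hfix⟩
    exact ⟨V.comap U.subtype, ⟨V, hV, rfl⟩, fun h hh => hfix (h : Γ₀) hh⟩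

/-- **S-RES.**  The formation over an open subgroup `U`: `(↥U, 𝓛.sub U, C|_U)`. -/
noncomputable def res (U : Subgroup Γ₀) (hU : 𝓛.IsOpen U) :
    LocFormation q (𝓛.sub U) (Rep.res U.subtype C) where
  isLocalGal := F.isLocalGal.subgroup U (F.isOpenSub_of_isOpen hU)
  isOpenSub := by
    rintro _ ⟨V, hV, rfl⟩
    exact (F.isOpenSub V hV).subgroupOf
  j := F.j
  j_inj := F.j_inj
  j_comm γ c := F.j_comm (γ : Γ₀) c
  j_range u := (F.j_range u).trans (exists_fixed_sub_iff' hU u).symm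

variable (U : Subgroup Γ₀) (hU : 𝓛.IsOpen U)

@[simp] theorem res_j : (F.res U hU).j = F.j := rfl

theorem res_jm (c : C) : (F.res U hU).jm c = F.jm c := rfl

/-- `toMul1` commutes with restriction. -/
theorem res_toMul1 (c : Γ₀ → C) :
    (F.res U hU).toMul1 (fun u : U => c u) = resC1 U (F.toMul1 c) := rfl

/-- `toMul2` commutes with restriction. -/
theorem res_toMul2 (w : Γ₀ × Γ₀ → C) :
    (F.res U hU).toMul2 (fun x : U × U => w (x.1, x.2)) = resC2 U (F.toMul2 w) := rfl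

omit [Fact q.Prime] [MulSemiringAction Γ₀ (PadicAlgCl q)]
  [MulDistribMulAction Γ₀ (PadicAlgCl q)ˣ] in
/-- Restriction of a level-constant 1-cochain. -/
theorem isLC₁_res {X : Type*} {c : Γ₀ → X} (hc : IsLC₁ 𝓛 c) :
    IsLC₁ (𝓛.sub U) (fun u : U => c u) :=
  IsLC₁.comp_hom 𝓛 U.subtype hc

omit [Fact q.Prime] [MulSemiringAction Γ₀ (PadicAlgCl q)]
  [MulDistribMulAction Γ₀ (PadicAlgCl q)ˣ] in
/-- Restriction of a level-constant 2-cochain. -/
theorem isLC₂_res {X : Type*} {w : Γ₀ × Γ₀ → X} (hw : IsLC₂ 𝓛 w) :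
    IsLC₂ (𝓛.sub U) (fun x : U × U => w (x.1, x.2)) :=
  IsLC₂.comp_hom 𝓛 U.subtype hw

omit [Fact q.Prime] [MulSemiringAction Γ₀ (PadicAlgCl q)]
  [MulDistribMulAction Γ₀ (PadicAlgCl q)ˣ] in
/-- Restriction of a smooth 2-cocycle. -/
theorem res_mem_Z2 {w : Γ₀ × Γ₀ → C} (hw : w ∈ Z2 𝓛 C) :
    (fun x : U × U => w (x.1, x.2)) ∈ Z2 (𝓛.sub U) (Rep.res U.subtype C) :=
  (Z2res 𝓛 C U.subtype ⟨w, hw⟩).2

omit [Fact q.Prime] [MulSemiringAction Γ₀ (PadicAlgCl q)]
  [MulDistribMulAction Γ₀ (PadicAlgCl q)ˣ] in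
/-- Restriction of a smooth 1-cocycle. -/
theorem res_mem_Z1 {c : Γ₀ → C} (hc : c ∈ Z1 𝓛 C) :
    (fun u : U => c u) ∈ Z1 (𝓛.sub U) (Rep.res U.subtype C) :=
  (Z1res 𝓛 C U.subtype ⟨c, hc⟩).2

omit [Fact q.Prime] [MulSemiringAction Γ₀ (PadicAlgCl q)]
  [MulDistribMulAction Γ₀ (PadicAlgCl q)ˣ] in
/-- Restriction of a smooth 2-coboundary. -/
theorem res_mem_B2 {w : Γ₀ × Γ₀ → C} (hw : w ∈ B2 𝓛 C) :
    (fun x : U × U => w (x.1, x.2)) ∈ B2 (𝓛.sub U) (Rep.res U.subtype C) := by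
  obtain ⟨s, hs, rfl⟩ := hw
  refine ⟨fun u : U => s u, isLC₁_res U hs, ?_⟩
  funext x
  show (d₁₂ (Rep.res U.subtype C)).hom (fun u : U => s u) x = (d₁₂ C).hom s (x.1, x.2)
  rw [d₁₂_hom_apply, d₁₂_hom_apply]
  rfl

end LocFormation

end Fermat.Agent.F4.Loc
end MergeWrap_F4_Loc_Smooth_Res

section MergeWrap_F4_Loc_ORD -- from F4/Loc/ORD.lean

/-!
# F4 / Loc / ORD : at most `p^a` classes of inflated 2-cocycles (seat ORD of the LOC layer)

`ord_card_infl_classes_le` : for `H ⊴ Γ` open with `Γ/H` of order `p^a`, the `H`-inflated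
2-cocycles fall into at most `p^a` classes modulo smooth coboundaries.  Induction on `a`
(`ord_base`, `ord_step`), using `infl_res_exact`, `exists_cycCocycle_mul_mulD1`,
`cycCocycle_eq_mulD1_of_norm` and the FT inputs `h1Triv_of_open`, `exists_not_norm`,
`norm_index_le`.
-/

set_option autoImplicit false
set_option linter.unusedSectionVars false
set_option linter.style.haveILetI false

open scoped NNReal
open groupCohomology

namespace Fermat.Agent.F4.Loc


section GroupTheory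

variable {G : Type*} [Group G]

/-- a finite group of order `p^(a+1)` has a normal subgroup of index `p` -/
lemma ord_exists_normal_index_prime {p : ℕ} [Fact p.Prime] (a : ℕ) [Finite G]
    (hcard : Nat.card G = p ^ (a + 1)) : ∃ K : Subgroup G, K.Normal ∧ K.index = p := by
  have hp : p.Prime := Fact.out
  obtain ⟨K, hK⟩ := Sylow.exists_subgroup_card_pow_prime p (n := a) (G := G)
    (by rw [hcard]; exact pow_dvd_pow p (Nat.le_succ a))
  have hidx : K.index = p := by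
    have h1 := K.card_mul_index
    rw [hK, hcard, pow_succ] at h1
    exact Nat.eq_of_mul_eq_mul_left (pow_pos hp.pos a) h1
  refine ⟨K, ?_, hidx⟩
  apply Subgroup.normal_of_index_eq_minFac_card
  rw [hidx, hcard, hp.pow_minFac (Nat.succ_ne_zero a)]

/-- a normal subgroup of index `p^(a+1)` is contained in a normal subgroup of index `p` -/
lemma ord_exists_normal_ge {p : ℕ} [Fact p.Prime] (a : ℕ) (H : Subgroup G) [H.Normal]
    (hidx : H.index = p ^ (a + 1)) : ∃ K : Subgroup G, K.Normal ∧ H ≤ K ∧ K.index = p := by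
  have hp : p.Prime := Fact.out
  haveI : H.FiniteIndex := ⟨by rw [hidx]; exact pow_ne_zero _ hp.ne_zero⟩
  haveI : Finite (G ⧸ H) := Subgroup.finite_quotient_of_finiteIndex
  have hcard : Nat.card (G ⧸ H) = p ^ (a + 1) := by rw [← Subgroup.index_eq_card, hidx]
  obtain ⟨K, hKn, hK⟩ := ord_exists_normal_index_prime a hcard
  refine ⟨K.comap (QuotientGroup.mk' H), hKn.comap _, ?_, ?_⟩
  · intro h hh
    rw [Subgroup.mem_comap]
    have : (QuotientGroup.mk' H) h = 1 := by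
      rw [QuotientGroup.mk'_apply, QuotientGroup.eq_one_iff]; exact hh
    rw [this]; exact K.one_mem
  · rw [Subgroup.index_comap_of_surjective _ (QuotientGroup.mk'_surjective H), hK]

/-- a normal subgroup of prime index is the kernel of a surjective character to `ℤ/p` -/
lemma ord_exists_char {p : ℕ} [Fact p.Prime] (K : Subgroup G) [K.Normal] (hidx : K.index = p) :
    ∃ χ : G →* Multiplicative (ZMod p), Function.Surjective χ ∧ χ.ker = K := by
  have hp : p.Prime := Fact.out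
  have hcard : Nat.card (G ⧸ K) = p := by rw [← Subgroup.index_eq_card, hidx]
  have hcard' : Nat.card (Multiplicative (ZMod p)) = p := by
    rw [Nat.card_eq_fintype_card]
    exact (Fintype.card_multiplicative _).trans (ZMod.card p)
  let e : (G ⧸ K) ≃* Multiplicative (ZMod p) := mulEquivOfPrimeCardEq hcard hcard'
  refine ⟨e.toMonoidHom.comp (QuotientGroup.mk' K), ?_, ?_⟩
  · exact e.surjective.comp (QuotientGroup.mk'_surjective K)
  · ext g
    rw [MonoidHom.mem_ker, MonoidHom.comp_apply]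
    show e (QuotientGroup.mk' K g) = 1 ↔ g ∈ K
    rw [MulEquiv.map_eq_one_iff, QuotientGroup.mk'_apply, QuotientGroup.eq_one_iff]

end GroupTheory


section Abstract

variable {Γ M : Type*} [Group Γ] [CommGroup M] [MulDistribMulAction Γ M]

lemma ord_mulD1_one : mulD1 (1 : Γ → M) = 1 := by
  funext ⟨g, h⟩
  simp [mulD1_apply]

lemma ord_mulD1_inv (s : Γ → M) : mulD1 s⁻¹ = (mulD1 s)⁻¹ := by
  have h := mulD1_mul s s⁻¹
  rw [mul_inv_cancel, ord_mulD1_one] at h
  exact eq_inv_of_mul_eq_one_right h.symm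

lemma ord_mulD1_div (s s' : Γ → M) : mulD1 (s / s') = mulD1 s / mulD1 s' := by
  rw [div_eq_mul_inv, mulD1_mul, ord_mulD1_inv, div_eq_mul_inv]

lemma ord_isMulCocycle₂_inv {c : Γ × Γ → M} (hc : IsMulCocycle₂ c) : IsMulCocycle₂ c⁻¹ := by
  intro g h j
  simp only [Pi.inv_apply, smul_inv']
  rw [← mul_inv_rev, ← mul_inv_rev, mul_comm (c (g, h)), hc g h j, mul_comm]

lemma ord_isMulCocycle₂_div {c c' : Γ × Γ → M} (hc : IsMulCocycle₂ c) (hc' : IsMulCocycle₂ c') :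
    IsMulCocycle₂ (c / c') := by
  rw [div_eq_mul_inv]
  exact isMulCocycle₂_mul hc (ord_isMulCocycle₂_inv hc')

lemma ord_isInfl2_inv {V : Subgroup Γ} {c : Γ × Γ → M} (hc : IsInfl2 V c) : IsInfl2 V c⁻¹ := by
  refine ⟨fun g g' v v' hv hv' => ?_, fun g g' h hh => ?_⟩
  · simp only [Pi.inv_apply, hc.1 g g' v v' hv hv']
  · simp only [Pi.inv_apply, smul_inv', hc.2 g g' h hh]

lemma ord_isInfl2_div {V : Subgroup Γ} {c c' : Γ × Γ → M} (hc : IsInfl2 V c)
    (hc' : IsInfl2 V c') : IsInfl2 V (c / c') := by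
  rw [div_eq_mul_inv]
  exact hc.mul (ord_isInfl2_inv hc')

lemma ord_isMulCocycle₂_res (K : Subgroup Γ) {c : Γ × Γ → M} (hc : IsMulCocycle₂ c) :
    IsMulCocycle₂ (resC2 K c) := by
  intro g h j
  exact hc g h j

lemma ord_isInfl2_res (K H : Subgroup Γ) {c : Γ × Γ → M} (hc : IsInfl2 H c) :
    IsInfl2 (H.subgroupOf K) (resC2 K c) := by
  refine ⟨fun g g' v v' hv hv' => ?_, fun g g' h hh => ?_⟩
  · exact hc.1 g g' v v' (Subgroup.mem_subgroupOf.1 hv) (Subgroup.mem_subgroupOf.1 hv')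
  · exact hc.2 g g' h (Subgroup.mem_subgroupOf.1 hh)

lemma ord_resC2_div (K : Subgroup Γ) (c c' : Γ × Γ → M) :
    resC2 K (c / c') = resC2 K c / resC2 K c' := rfl

lemma ord_cycCocycle_mul {n : ℕ} (χ : Γ →* Multiplicative (ZMod n)) (x y : M) :
    cycCocycle χ (x * y) = cycCocycle χ x * cycCocycle χ y := by
  funext ⟨g, h⟩
  rw [Pi.mul_apply]
  unfold cycCocycle
  exact mul_pow _ _ _

/-- a cocycle inflated from the whole group is the coboundary of a constant cochain -/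
lemma ord_const_of_isInfl2_top {c : Γ × Γ → M} (hc : IsInfl2 (⊤ : Subgroup Γ) c) :
    c = mulD1 (fun _ => c (1, 1)) := by
  funext ⟨g, h⟩
  have h1 : c (g, h) = c (1, 1) := by
    have := hc.1 1 1 g h (Subgroup.mem_top g) (Subgroup.mem_top h)
    rwa [one_mul, one_mul] at this
  have h2 : g • c (1, 1) = c (1, 1) := hc.2 1 1 g (Subgroup.mem_top g)
  rw [mulD1_apply, h1, h2, div_self', one_mul]

end Abstract


variable {q : ℕ} [Fact q.Prime]

section Smooth

variable {Γ : Type} [Group Γ] [MulSemiringAction Γ (PadicAlgCl q)]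
  [MulDistribMulAction Γ (PadicAlgCl q)ˣ]

lemma ord_isSmCob2_of_isConst1 {V : Subgroup Γ} (hVn : V.Normal) (hV : IsOpenSub q V)
    {s : Γ → (PadicAlgCl q)ˣ} (hs : IsConst1 V s) : IsSmCob2 (mulD1 s) :=
  ⟨s, ⟨V, hVn, hV, hs⟩, rfl⟩

lemma ord_isSmCob2_div {c c' : Γ × Γ → (PadicAlgCl q)ˣ} (hc : IsSmCob2 c) (hc' : IsSmCob2 c') :
    IsSmCob2 (c / c') := by
  obtain ⟨s, ⟨W, hWn, hW, hs⟩, rfl⟩ := hc
  obtain ⟨s', ⟨W', hWn', hW', hs'⟩, rfl⟩ := hc'
  refine ⟨s / s', ⟨W ⊓ W', ?_, hW.inf hW', fun γ w hw => ?_⟩, (ord_mulD1_div s s').symm⟩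
  · haveI := hWn; haveI := hWn'; infer_instance
  · simp only [Pi.div_apply, hs γ w hw.1, hs' γ w hw.2]

end Smooth



/-- the statement of ORD for a group `Γ`, a subgroup `H` and a bound `B` -/
def OrdStmt (q : ℕ) [Fact q.Prime] (Γ : Type) [Group Γ] [MulSemiringAction Γ (PadicAlgCl q)]
    [MulDistribMulAction Γ (PadicAlgCl q)ˣ] (H : Subgroup Γ) (B : ℕ) : Prop :=
  ∃ R : Finset (Γ × Γ → (PadicAlgCl q)ˣ), R.card ≤ B ∧
    ∀ c : Γ × Γ → (PadicAlgCl q)ˣ, IsMulCocycle₂ c → IsInfl2 H c →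
      ∃ r ∈ R, IsSmCob2 (c / r)

section Step

variable {Γ : Type} [Group Γ] [MulSemiringAction Γ (PadicAlgCl q)]
  [MulDistribMulAction Γ (PadicAlgCl q)ˣ]

/-- base case: `H = ⊤` -/
lemma ord_base (H : Subgroup Γ) (hidx : H.index = 1) : OrdStmt q Γ H 1 := by
  classical
  have hH : H = ⊤ := Subgroup.index_eq_one.1 hidx
  subst hH
  refine ⟨{1}, by simp, fun c _ hinf => ⟨1, Finset.mem_singleton_self _, ?_⟩⟩
  rw [div_one, ord_const_of_isInfl2_top hinf]
  exact ord_isSmCob2_of_isConst1 inferInstance isOpenSub_top (fun _ _ _ => rfl)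

/-- inductive step, given the statement for the subgroup `Γ₁` of index `p` -/
lemma ord_step (hΓ : IsLocalGal q Γ) {p : ℕ} [Fact p.Prime] (B : ℕ)
    (H : Subgroup Γ) [H.Normal] (hH : IsOpenSub q H)
    (Γ₁ : Subgroup Γ) [Γ₁.Normal] (hHΓ₁ : H ≤ Γ₁) (hidx : Γ₁.index = p)
    (ih : OrdStmt q ↥Γ₁ (H.subgroupOf Γ₁) B) : OrdStmt q Γ H (B * p) := by
  classical
  have hp : p.Prime := Fact.out
  haveI : NeZero p := ⟨hp.ne_zero⟩
  have hΓ₁open : IsOpenSub q Γ₁ := hH.of_le hΓ hHΓ₁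
  obtain ⟨χ, hχ, hker⟩ := ord_exists_char Γ₁ hidx
  obtain ⟨σ, hσ⟩ := hχ (Multiplicative.ofAdd 1)
  have hkeropen : IsOpenSub q χ.ker := hker ▸ hΓ₁open
  obtain ⟨a₀, ha₀, hna₀⟩ := exists_not_norm hΓ χ hχ hkeropen σ hσ
  obtain ⟨R₁, hR₁card, hR₁⟩ := ih
  -- the lifts
  let P : (↥Γ₁ × ↥Γ₁ → (PadicAlgCl q)ˣ) → (Γ × Γ → (PadicAlgCl q)ˣ) → Prop :=
    fun r c => IsMulCocycle₂ c ∧ IsInfl2 H c ∧ IsSmCob2 (resC2 Γ₁ c / r)
  let lift : (↥Γ₁ × ↥Γ₁ → (PadicAlgCl q)ˣ) → (Γ × Γ → (PadicAlgCl q)ˣ) :=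
    fun r => if h : ∃ c, P r c then h.choose else 1
  have hlift : ∀ r, (∃ c, P r c) → P r (lift r) := by
    intro r h
    simp only [lift, dif_pos h]
    exact h.choose_spec
  refine ⟨(R₁ ×ˢ Finset.range p).image (fun x => lift x.1 * cycCocycle χ (a₀ ^ x.2)), ?_, ?_⟩
  · refine Finset.card_image_le.trans ?_
    rw [Finset.card_product, Finset.card_range]
    exact Nat.mul_le_mul_right p hR₁card
  intro c hc hinf
  obtain ⟨r, hrR, hr⟩ := hR₁ (resC2 Γ₁ c) (ord_isMulCocycle₂_res Γ₁ hc) (ord_isInfl2_res Γ₁ H hinf)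
  obtain ⟨hcr, hinfr, hrr⟩ := hlift r ⟨c, hc, hinf, hr⟩
  set cr := lift r with hcrdef
  -- the difference
  set d : Γ × Γ → (PadicAlgCl q)ˣ := c / cr with hd
  have hdc : IsMulCocycle₂ d := ord_isMulCocycle₂_div hc hcr
  have hdinf : IsInfl2 H d := ord_isInfl2_div hinf hinfr
  have hdres : IsSmCob2 (resC2 Γ₁ d) := by
    have : resC2 Γ₁ d = (resC2 Γ₁ c / r) / (resC2 Γ₁ cr / r) := by
      rw [hd, ord_resC2_div, div_div_div_cancel_right]
    rw [this]
    exact ord_isSmCob2_div hr hrr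
  obtain ⟨t, ⟨W₁, hW₁n, hW₁, ht⟩, hdt⟩ := hdres
  -- the level
  obtain ⟨W', hW'n, hW', hW'le⟩ := (hΓ₁open.map_subtype hW₁).exists_normal_le hΓ
  set V : Subgroup Γ := W' ⊓ H with hV
  haveI hVn : V.Normal := by haveI := hW'n; infer_instance
  have hVopen : IsOpenSub q V := hW'.inf hH
  have hVH : V ≤ H := inf_le_right
  have hVΓ₁ : V ≤ Γ₁ := hVH.trans hHΓ₁
  have htV : ∀ (h v : ↥Γ₁), (v : Γ) ∈ V → t (h * v) = t h := by
    intro h v hv
    obtain ⟨w, hw, hwv⟩ := hW'le hv.1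
    have : w = v := Subtype.ext hwv
    exact ht h v (this ▸ hw)
  have hdV : IsConst2 V d := fun g g' v v' hv hv' => hdinf.1 g g' v v' (hVH hv) (hVH hv')
  have hct : ∀ h h' : ↥Γ₁, d (h, h') = (h : Γ) • t h' / t (h * h') * t h := by
    intro h h'
    have := congrFun hdt (h, h')
    exact this
  obtain ⟨s, hsV, hsinf⟩ := infl_res_exact Γ₁ V hVΓ₁ (h1Triv_of_open hΓ Γ₁ V hVopen hVΓ₁)
    d hdc hdV t htV hct
  have hd'c : IsMulCocycle₂ (d * mulD1 s) := isMulCocycle₂_mul hdc (isMulCocycle₂_mulD1 s)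
  have hsinf' : IsInfl2 χ.ker (d * mulD1 s) := by rw [hker]; exact hsinf
  obtain ⟨b, s', hb, hs', hds⟩ := exists_cycCocycle_mul_mulD1 χ σ hσ (d * mulD1 s) hd'c hsinf'
  obtain ⟨k, m, hk, hm, hbk⟩ := norm_index_le hΓ χ hχ hkeropen σ hσ a₀ ha₀ hna₀ b
    (fun g _ => hb g)
  obtain ⟨s'', hs'', hcyc⟩ := cycCocycle_eq_mulD1_of_norm χ σ hσ m hm
  refine ⟨cr * cycCocycle χ (a₀ ^ k), ?_, ?_⟩
  · exact Finset.mem_image.2 ⟨(r, k), Finset.mem_product.2 ⟨hrR, Finset.mem_range.2 hk⟩, rfl⟩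
  · have hconst : ∀ {u : Γ → (PadicAlgCl q)ˣ}, IsInfl1 χ.ker u → IsConst1 V u := by
      intro u hu g v hv
      exact hu.1 g v (hker ▸ hVΓ₁ hv)
    have hS : IsConst1 V (s'' * s' / s) := by
      intro g v hv
      simp only [Pi.div_apply, Pi.mul_apply, hconst hs'' g v hv, hconst hs' g v hv, hsV g v hv]
    have key : c / (cr * cycCocycle χ (a₀ ^ k)) = mulD1 (s'' * s' / s) := by
      rw [ord_mulD1_div, mulD1_mul, ← hcyc]
      have e1 : d = cycCocycle χ b * mulD1 s' / mulD1 s := by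
        rw [← hds, mul_div_cancel_right]
      have e2 : c = cr * d := by rw [hd, mul_div_cancel]
      rw [e2, e1, hbk, ord_cycCocycle_mul]
      rw [mul_div_mul_left_eq_div]
      rw [div_eq_iff_eq_mul]
      rw [div_mul_eq_mul_div]
      congr 1
      ac_rfl
    rw [key]
    exact ord_isSmCob2_of_isConst1 hVn hVopen hS

end Step



theorem ord_main {p : ℕ} [Fact p.Prime] (a : ℕ) :
    ∀ (Γ : Type) [Group Γ] [MulSemiringAction Γ (PadicAlgCl q)]
      [MulDistribMulAction Γ (PadicAlgCl q)ˣ],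
      IsLocalGal q Γ → ∀ (H : Subgroup Γ) [H.Normal], IsOpenSub q H → H.index = p ^ a →
        OrdStmt q Γ H (p ^ a) := by
  induction a with
  | zero =>
    intro Γ _ _ _ hΓ H _ hH hidx
    rw [pow_zero] at hidx ⊢
    exact ord_base H hidx
  | succ a ih =>
    intro Γ _ _ _ hΓ H _ hH hidx
    obtain ⟨Γ₁, hΓ₁n, hHΓ₁, hΓ₁idx⟩ := ord_exists_normal_ge a H hidx
    haveI := hΓ₁n
    have hp : p.Prime := Fact.out
    have hΓ₁open : IsOpenSub q Γ₁ := hH.of_le hΓ hHΓ₁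
    have hΓ₁ : IsLocalGal q ↥Γ₁ := hΓ.subgroup Γ₁ hΓ₁open
    have hsub_idx : (H.subgroupOf Γ₁).index = p ^ a := by
      have h1 := Subgroup.relIndex_mul_index hHΓ₁
      rw [hΓ₁idx, hidx, pow_succ] at h1
      exact Nat.eq_of_mul_eq_mul_right hp.pos h1
    have h2 := ih ↥Γ₁ hΓ₁ (H.subgroupOf Γ₁) hH.subgroupOf hsub_idx
    rw [pow_succ]
    exact ord_step hΓ (p ^ a) H hH Γ₁ hHΓ₁ hΓ₁idx h2

variable {Γ : Type} [Group Γ] [MulSemiringAction Γ (PadicAlgCl q)]
  [MulDistribMulAction Γ (PadicAlgCl q)ˣ]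

/-- **ORD.**  At most `p^a` classes of `H`-inflated 2-cocycles when `Γ/H` has order `p^a`. -/
theorem ord_card_infl_classes_le (hΓ : IsLocalGal q Γ) {p : ℕ} [Fact p.Prime] (a : ℕ)
    (H : Subgroup Γ) [H.Normal] (hH : IsOpenSub q H) (hidx : H.index = p ^ a) :
    ∃ R : Finset (Γ × Γ → (PadicAlgCl q)ˣ), R.card ≤ p ^ a ∧
      ∀ c : Γ × Γ → (PadicAlgCl q)ˣ, IsMulCocycle₂ c → IsInfl2 H c →
        ∃ r ∈ R, IsSmCob2 (c / r) :=
  ord_main a Γ hΓ H hH hidx

end Fermat.Agent.F4.Loc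
end MergeWrap_F4_Loc_ORD

section MergeWrap_F4_Loc_ABS -- from F4/Loc/ABS.lean

/-!
# F4 / Loc / ABS : `H²(Γ/H, (Ω^H)ˣ)[p]` has order at most `p`  (seat ABS, helper89)

`Γ` a local Galois group acting on `Ω = PadicAlgCl q`, `H ⊴ Γ` open with `Γ/H` of order
`n = p^a`.  Main result `abs_dependent_of_pGroup`: given the bound ORD (at most `n` classes of
`H`-inflated 2-cocycles modulo smooth coboundaries), any two `H`-inflated 2-cocycles whose `p`-th
powers are smooth coboundaries are dependent modulo smooth coboundaries.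

Route: `(χ, σ)` unramified of degree `n` (FTC), `π` a uniformizer of `E = Ω^Γ`,
`c_π = cycCocycle χ π`.
1. `res_H c_π` is the cyclic cocycle of the induced character `χ' : H → ℤ/k`, and `π` is a norm
   for it (`absorb` + independence of the norm of the generator), so `res_H c_π = ∂ t`;
2. `infl_res_exact`: `c' = c_π * ∂ s` is `H`-inflated, `s` smooth;
3. `c'^m` is a smooth coboundary iff `n ∣ m` (`val_eq`, F3);
4. by ORD and counting, every `H`-inflated cocycle is `~ c'^j`;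
5. arithmetic.
-/

set_option autoImplicit false
set_option linter.unusedSectionVars false

open scoped NNReal
open groupCohomology

namespace Fermat.Agent.F4.Loc

/-! ### generalities on cochains -/

section Gen

variable {Γ M : Type*} [Group Γ] [CommGroup M] [MulDistribMulAction Γ M]

theorem abs_mulD1_one : mulD1 (1 : Γ → M) = 1 := by
  funext ⟨g, h⟩
  simp [mulD1_apply]

theorem abs_mulD1_inv (s : Γ → M) : mulD1 s⁻¹ = (mulD1 s)⁻¹ := by
  have h := mulD1_mul s s⁻¹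
  rw [mul_inv_cancel, abs_mulD1_one] at h
  exact eq_inv_of_mul_eq_one_right h.symm

theorem abs_mulD1_pow (s : Γ → M) (j : ℕ) : mulD1 (s ^ j) = mulD1 s ^ j := by
  induction j with
  | zero => simp [abs_mulD1_one]
  | succ j ih => rw [pow_succ, pow_succ, mulD1_mul, ih]

theorem abs_isMulCocycle₂_one : IsMulCocycle₂ (1 : Γ × Γ → M) := by
  intro g h j
  simp

theorem abs_isMulCocycle₂_pow {c : Γ × Γ → M} (hc : IsMulCocycle₂ c) (j : ℕ) :
    IsMulCocycle₂ (c ^ j) := by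
  induction j with
  | zero => rw [pow_zero]; exact abs_isMulCocycle₂_one
  | succ j ih => rw [pow_succ]; exact isMulCocycle₂_mul ih hc

theorem abs_isInfl2_one (H : Subgroup Γ) : IsInfl2 H (1 : Γ × Γ → M) :=
  ⟨fun _ _ _ _ _ _ => rfl, fun _ _ _ _ => by simp⟩

theorem abs_isInfl2_pow {H : Subgroup Γ} {c : Γ × Γ → M} (hc : IsInfl2 H c) (j : ℕ) :
    IsInfl2 H (c ^ j) := by
  induction j with
  | zero => rw [pow_zero]; exact abs_isInfl2_one H
  | succ j ih => rw [pow_succ]; exact ih.mul hc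

theorem abs_cycCocycle_pow {n : ℕ} (χ : Γ →* Multiplicative (ZMod n)) (a : M) (j : ℕ) :
    cycCocycle χ (a ^ j) = cycCocycle χ a ^ j := by
  funext ⟨g, h⟩
  simp only [cycCocycle, Pi.pow_apply]
  rw [← pow_mul, ← pow_mul, mul_comm]

theorem abs_cycNorm_of_fixed (n : ℕ) (σ : Γ) (a : M) (ha : ∀ g : Γ, g • a = a) :
    cycNorm n σ a = a ^ n := by
  unfold cycNorm
  rw [Finset.prod_congr rfl (fun i _ => ha (σ ^ i)), Finset.prod_const, Finset.card_range]

end Gen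

/-! ### smooth coboundaries form a group -/

section Smooth

variable {q : ℕ} [Fact q.Prime]
variable {Γ : Type} [Group Γ] [MulSemiringAction Γ (PadicAlgCl q)]
  [MulDistribMulAction Γ (PadicAlgCl q)ˣ]

theorem abs_smoothC1_one : SmoothC1 q (1 : Γ → (PadicAlgCl q)ˣ) :=
  ⟨⊤, inferInstance, isOpenSub_top, fun _ _ _ => rfl⟩

theorem abs_smoothC1_mul {s s' : Γ → (PadicAlgCl q)ˣ} (hs : SmoothC1 q s) (hs' : SmoothC1 q s') :
    SmoothC1 q (s * s') := by
  obtain ⟨W, hWn, hWo, hW⟩ := hs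
  obtain ⟨W', hWn', hWo', hW'⟩ := hs'
  refine ⟨W ⊓ W', Subgroup.normal_inf_normal W W', hWo.inf hWo', fun γ w hw => ?_⟩
  simp only [Pi.mul_apply]
  rw [hW γ w hw.1, hW' γ w hw.2]

theorem abs_smoothC1_inv {s : Γ → (PadicAlgCl q)ˣ} (hs : SmoothC1 q s) : SmoothC1 q s⁻¹ := by
  obtain ⟨W, hWn, hWo, hW⟩ := hs
  refine ⟨W, hWn, hWo, fun γ w hw => ?_⟩
  simp only [Pi.inv_apply]
  rw [hW γ w hw]

theorem abs_smoothC1_pow {s : Γ → (PadicAlgCl q)ˣ} (hs : SmoothC1 q s) (j : ℕ) :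
    SmoothC1 q (s ^ j) := by
  obtain ⟨W, hWn, hWo, hW⟩ := hs
  refine ⟨W, hWn, hWo, fun γ w hw => ?_⟩
  simp only [Pi.pow_apply]
  rw [hW γ w hw]

theorem abs_isSmCob2_one : IsSmCob2 (1 : Γ × Γ → (PadicAlgCl q)ˣ) :=
  ⟨1, abs_smoothC1_one, abs_mulD1_one.symm⟩

theorem abs_isSmCob2_mul {c c' : Γ × Γ → (PadicAlgCl q)ˣ} (hc : IsSmCob2 c) (hc' : IsSmCob2 c') :
    IsSmCob2 (c * c') := by
  obtain ⟨s, hs, rfl⟩ := hc
  obtain ⟨s', hs', rfl⟩ := hc'
  exact ⟨s * s', abs_smoothC1_mul hs hs', (mulD1_mul s s').symm⟩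

theorem abs_isSmCob2_inv {c : Γ × Γ → (PadicAlgCl q)ˣ} (hc : IsSmCob2 c) : IsSmCob2 c⁻¹ := by
  obtain ⟨s, hs, rfl⟩ := hc
  exact ⟨s⁻¹, abs_smoothC1_inv hs, (abs_mulD1_inv s).symm⟩

theorem abs_isSmCob2_pow {c : Γ × Γ → (PadicAlgCl q)ˣ} (hc : IsSmCob2 c) (j : ℕ) :
    IsSmCob2 (c ^ j) := by
  obtain ⟨s, hs, rfl⟩ := hc
  exact ⟨s ^ j, abs_smoothC1_pow hs j, (abs_mulD1_pow s j).symm⟩

theorem abs_isSmCob2_div {c c' : Γ × Γ → (PadicAlgCl q)ˣ} (hc : IsSmCob2 c) (hc' : IsSmCob2 c') :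
    IsSmCob2 (c / c') := by
  rw [div_eq_mul_inv]
  exact abs_isSmCob2_mul hc (abs_isSmCob2_inv hc')

end Smooth

/-! ### cyclic cocycles and norms (the facts of seat F3, in the form used here) -/

section F3

variable {q : ℕ} [Fact q.Prime]
variable {Γ : Type} [Group Γ] [MulSemiringAction Γ (PadicAlgCl q)]
  [MulDistribMulAction Γ (PadicAlgCl q)ˣ]

/-- If the cyclic cocycle of `a` is a smooth coboundary, `a` is a norm. -/
theorem abs_norm_of_isSmCob2 (hΓ : IsLocalGal q Γ) {n : ℕ} [NeZero n]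
    (χ : Γ →* Multiplicative (ZMod n)) (hker : IsOpenSub q χ.ker)
    (σ : Γ) (hσ : χ σ = Multiplicative.ofAdd 1)
    (a : (PadicAlgCl q)ˣ) (ha : IsFixedBy (⊤ : Subgroup Γ) a)
    (h : IsSmCob2 (cycCocycle χ a)) :
    ∃ m : (PadicAlgCl q)ˣ, IsFixedBy χ.ker m ∧ a = cycNorm n σ m := by
  obtain ⟨s, ⟨W, hWn, hWo, hW⟩, hcs⟩ := h
  have := hWn
  have : (W ⊓ χ.ker).Normal := Subgroup.normal_inf_normal W χ.ker
  have ha' : ∀ g : Γ, g • a = a := fun g => ha g (Subgroup.mem_top g)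
  have h1 : H1Triv χ.ker (W ⊓ χ.ker) (PadicAlgCl q)ˣ :=
    h1Triv_of_open hΓ χ.ker (W ⊓ χ.ker) (hWo.inf hker) inf_le_right
  obtain ⟨s', hs', hcs'⟩ := infl_injective χ.ker (W ⊓ χ.ker) inf_le_right h1 (cycCocycle χ a)
    (cycCocycle_isInfl2 (χ := χ) a ha') s (fun g v hv => hW g v hv.1) hcs
  exact norm_of_cycCocycle_eq_mulD1 (χ := χ) σ hσ a ha' s' hs' hcs'

/-- The cyclic cocycle of a norm is a smooth coboundary. -/
theorem abs_isSmCob2_of_norm {n : ℕ} [NeZero n]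
    (χ : Γ →* Multiplicative (ZMod n)) (hker : IsOpenSub q χ.ker)
    (σ : Γ) (hσ : χ σ = Multiplicative.ofAdd 1)
    (m : (PadicAlgCl q)ˣ) (hm : IsFixedBy χ.ker m) :
    IsSmCob2 (cycCocycle χ (cycNorm n σ m)) := by
  obtain ⟨s, hs, h⟩ := cycCocycle_eq_mulD1_of_norm (χ := χ) σ hσ m hm
  exact ⟨s, ⟨χ.ker, inferInstance, hker, hs.1⟩, h⟩

/-- The valuation of a norm. -/
theorem abs_val_cycNorm (hΓ : IsLocalGal q Γ) (n : ℕ) (σ : Γ) (m : (PadicAlgCl q)ˣ) :
    padicVal q ((cycNorm n σ m : (PadicAlgCl q)ˣ) : PadicAlgCl q) =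
      padicVal q (m : PadicAlgCl q) ^ n := by
  unfold cycNorm
  rw [Units.coe_prod, map_prod,
    Finset.prod_congr rfl (fun i _ => by rw [hΓ.1, hΓ.val_smul]), Finset.prod_const,
    Finset.card_range]

theorem abs_isFixedBy_coe (hΓ : IsLocalGal q Γ) {H : Subgroup Γ} {y : (PadicAlgCl q)ˣ}
    (hy : IsFixedBy H y) : IsFixedBy H (y : PadicAlgCl q) := by
  intro h hh
  rw [← hΓ.1, hy h hh]

theorem abs_isFixedBy_mk0 (hΓ : IsLocalGal q Γ) {H : Subgroup Γ} {π : PadicAlgCl q} (hπ0 : π ≠ 0)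
    (hπ : IsFixedBy H π) : IsFixedBy H (Units.mk0 π hπ0) := by
  intro h hh
  apply Units.ext
  rw [hΓ.1]
  exact hπ h hh

/-- If a power `π ^ j` of a uniformizer of `E` is a norm from the unramified extension of degree
`n`, then `n ∣ j`. -/
theorem abs_dvd_of_unif_pow_norm (hΓ : IsLocalGal q Γ) {n : ℕ}
    (χ : Γ →* Multiplicative (ZMod n)) (σ : Γ) (hχ : IsUnramChar q χ σ)
    (π : PadicAlgCl q) (hπ0 : π ≠ 0) (hπ1 : padicVal q π < 1)
    (hπ : ∀ x : PadicAlgCl q, x ≠ 0 → IsFixedBy (⊤ : Subgroup Γ) x →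
        ∃ k : ℤ, padicVal q x = padicVal q π ^ k)
    (j : ℕ) (m : (PadicAlgCl q)ˣ) (hm : IsFixedBy χ.ker m)
    (h : (Units.mk0 π hπ0) ^ j = cycNorm n σ m) : n ∣ j := by
  obtain ⟨y, hy, hval⟩ := hχ.val_eq m hm
  obtain ⟨k, hk⟩ := hπ y (Units.ne_zero y) (abs_isFixedBy_coe hΓ hy)
  have h1 : padicVal q π ^ j = padicVal q π ^ (k * n) := by
    have h2 := abs_val_cycNorm hΓ n σ m
    rw [← h, hval, hk] at h2
    rw [Units.val_pow_eq_pow_val, Units.val_mk0, map_pow] at h2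
    rw [h2, zpow_mul, zpow_natCast]
  have h0 : 0 < padicVal q π := zero_lt_iff.2 ((padicVal q).ne_zero_iff.2 hπ0)
  have h3 : (j : ℤ) = k * n := by
    have h4 : padicVal q π ^ (j : ℤ) = padicVal q π ^ (k * n) := by
      rw [zpow_natCast]; exact h1
    exact zpow_right_injective₀ h0 (ne_of_lt hπ1) h4
  exact Int.natCast_dvd_natCast.1 ⟨k, by rw [h3, mul_comm]⟩

end F3

/-! ### the induced character on a subgroup -/

section Res

variable {Γ M : Type*} [Group Γ] [CommGroup M] [MulDistribMulAction Γ M]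

/-- The norm does not depend on the generator. -/
theorem abs_cycNorm_eq_of_orderOf {k : ℕ} [NeZero k] {χ : Γ →* Multiplicative (ZMod k)}
    {σ τ : Γ} (hσ : χ σ = Multiplicative.ofAdd 1) (hτ : orderOf (χ τ) = k)
    {m : M} (hm : ∀ h ∈ χ.ker, h • m = m) : cycNorm k τ m = cycNorm k σ m := by
  classical
  unfold cycNorm
  have h1 : ∀ i ∈ Finset.range k, τ ^ i • m = σ ^ cycExp χ (τ ^ i) • m :=
    fun i _ => cyc_smul_eq hσ hm (τ ^ i)
  rw [Finset.prod_congr rfl h1]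
  have hinj : Set.InjOn (fun i => cycExp χ (τ ^ i)) (Finset.range k : Set ℕ) := by
    intro i hi j hj hij
    have h2 : χ τ ^ i = χ τ ^ j := by
      have h3 : Multiplicative.toAdd (χ (τ ^ i)) = Multiplicative.toAdd (χ (τ ^ j)) :=
        ZMod.val_injective k hij
      rw [← map_pow, ← map_pow]
      exact Multiplicative.toAdd.injective h3
    have h3 := pow_eq_pow_iff_modEq.1 h2
    rw [hτ] at h3
    exact Nat.ModEq.eq_of_lt_of_lt h3 (Finset.mem_range.1 hi) (Finset.mem_range.1 hj)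
  have himg : (Finset.range k).image (fun i => cycExp χ (τ ^ i)) = Finset.range k := by
    apply Finset.eq_of_subset_of_card_le
    · intro x hx
      obtain ⟨i, _, rfl⟩ := Finset.mem_image.1 hx
      exact Finset.mem_range.2 (cycExp_lt χ _)
    · rw [Finset.card_image_of_injOn hinj]
  rw [← Finset.prod_image (f := fun j => σ ^ j • m) hinj, himg]

/-- An element of order `k` of `ℤ/k` is a generator. -/
theorem abs_exists_zpow_eq {k : ℕ} [NeZero k] (x : Multiplicative (ZMod k)) (hx : orderOf x = k)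
    (y : Multiplicative (ZMod k)) : ∃ v : ℤ, x ^ v = y := by
  have h1 : Subgroup.zpowers x = ⊤ := by
    apply Subgroup.eq_top_of_card_eq
    rw [Nat.card_zpowers, hx, Nat.card_eq_fintype_card, Fintype.card_multiplicative, ZMod.card]
  have h2 : y ∈ Subgroup.zpowers x := by rw [h1]; exact Subgroup.mem_top y
  exact Subgroup.mem_zpowers_iff.1 h2

/-- The character induced on a subgroup `H` whose image under `χ` has exponent `k`:
division by `n / k`. -/
theorem abs_exists_resChar {n : ℕ} [NeZero n] (χ : Γ →* Multiplicative (ZMod n))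
    (H : Subgroup Γ) (k : ℕ) [NeZero k] (hkn : k ∣ n) (hk : ∀ h ∈ H, χ h ^ k = 1) :
    ∃ χ' : ↥H →* Multiplicative (ZMod k),
      (∀ h h' : H, carry (Multiplicative.toAdd (χ' h)) (Multiplicative.toAdd (χ' h')) =
        carry (Multiplicative.toAdd (χ (h : Γ))) (Multiplicative.toAdd (χ (h' : Γ)))) ∧
      (∀ h : H, χ' h = 1 ↔ χ (h : Γ) = 1) := by
  have hk0 : 0 < k := Nat.pos_of_ne_zero (NeZero.ne k)
  obtain ⟨d, rfl⟩ := hkn
  have hd0 : 0 < d := by
    rcases Nat.eq_zero_or_pos d with h | h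
    · exact absurd (by rw [h, mul_zero]) (NeZero.ne (k * d))
    · exact h
  -- the exponent
  have hdvd : ∀ h : H, d ∣ (Multiplicative.toAdd (χ (h : Γ))).val := by
    intro h
    have h1 := hk h h.2
    have h2 : ((k : ℕ) : ZMod (k * d)) * Multiplicative.toAdd (χ (h : Γ)) = 0 := by
      have h3 := congrArg Multiplicative.toAdd h1
      rw [toAdd_pow, toAdd_one, nsmul_eq_mul] at h3
      exact h3
    have h4 : ((k * (Multiplicative.toAdd (χ (h : Γ))).val : ℕ) : ZMod (k * d)) = 0 := by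
      rw [Nat.cast_mul, ZMod.natCast_zmod_val]
      exact h2
    have h5 : k * d ∣ k * (Multiplicative.toAdd (χ (h : Γ))).val :=
      (ZMod.natCast_eq_zero_iff _ _).1 h4
    exact Nat.dvd_of_mul_dvd_mul_left hk0 h5
  set e : H → ℕ := fun h => (Multiplicative.toAdd (χ (h : Γ))).val / d with he
  have hde : ∀ h : H, d * e h = (Multiplicative.toAdd (χ (h : Γ))).val :=
    fun h => Nat.mul_div_cancel' (hdvd h)
  have hek : ∀ h : H, e h < k := by
    intro h
    have h1 : (Multiplicative.toAdd (χ (h : Γ))).val < k * d := ZMod.val_lt _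
    rw [← hde h, mul_comm k d] at h1
    exact Nat.lt_of_mul_lt_mul_left h1
  have hcarry : ∀ h h' : H, (e h + e h') / k =
      carry (Multiplicative.toAdd (χ (h : Γ))) (Multiplicative.toAdd (χ (h' : Γ))) := by
    intro h h'
    unfold carry
    rw [← hde h, ← hde h', ← mul_add, mul_comm k d, Nat.mul_div_mul_left _ _ hd0]
  have hmul : ∀ h h' : H, e (h * h') + k * ((e h + e h') / k) = e h + e h' := by
    intro h h'
    have h1 := carry_val_add (Multiplicative.toAdd (χ (h : Γ))) (Multiplicative.toAdd (χ (h' : Γ)))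
    rw [← toAdd_mul, ← map_mul, ← hcarry h h', ← hde h, ← hde h'] at h1
    have h2 : (Multiplicative.toAdd (χ ((h : Γ) * (h' : Γ)))).val = d * e (h * h') := by
      rw [hde]; rfl
    rw [h2] at h1
    have h3 : d * (e (h * h') + k * ((e h + e h') / k)) = d * (e h + e h') := by
      rw [mul_add, mul_add, ← h1]; ring
    exact Nat.eq_of_mul_eq_mul_left hd0 h3
  refine ⟨MonoidHom.mk' (fun h => Multiplicative.ofAdd ((e h : ℕ) : ZMod k)) ?_, ?_, ?_⟩
  · intro h h'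
    rw [← ofAdd_add, ← Nat.cast_add, ← hmul h h', Nat.cast_add, Nat.cast_mul, ZMod.natCast_self,
      zero_mul, add_zero]
  · intro h h'
    show carry ((e h : ℕ) : ZMod k) ((e h' : ℕ) : ZMod k) = _
    unfold carry
    rw [ZMod.val_natCast_of_lt (hek h), ZMod.val_natCast_of_lt (hek h')]
    exact hcarry h h'
  · intro h
    show Multiplicative.ofAdd ((e h : ℕ) : ZMod k) = 1 ↔ _
    rw [← ofAdd_zero, Multiplicative.ofAdd.apply_eq_iff_eq]
    constructor
    · intro h1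
      have h2 : e h = 0 := by
        have := congrArg ZMod.val h1
        rwa [ZMod.val_natCast_of_lt (hek h), ZMod.val_zero] at this
      have h3 := hde h
      rw [h2, mul_zero] at h3
      have h4 : Multiplicative.toAdd (χ (h : Γ)) = 0 := (ZMod.val_eq_zero _).1 h3.symm
      exact Multiplicative.toAdd.injective h4
    · intro h1
      have h2 : e h = 0 := by
        simp only [he, h1, toAdd_one, ZMod.val_zero, Nat.zero_div]
      rw [h2, Nat.cast_zero]

end Res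

/-! ### steps 1 and 2: an `H`-inflated representative of the unramified cyclic cocycle -/

section Step12

variable {q : ℕ} [Fact q.Prime]
variable {Γ : Type} [Group Γ] [MulSemiringAction Γ (PadicAlgCl q)]
  [MulDistribMulAction Γ (PadicAlgCl q)ˣ]

/-- The cyclic cocycle of `a ∈ E^×` for an unramified character of degree `n` is cohomologous
(through a smooth cochain) to an `H`-inflated cocycle, for `H ⊴ Γ` open of index `n`. -/
theorem abs_exists_infl (hΓ : IsLocalGal q Γ) {n : ℕ} [NeZero n]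
    (χ : Γ →* Multiplicative (ZMod n)) (σ : Γ) (hχ : IsUnramChar q χ σ)
    (H : Subgroup Γ) [H.Normal] (hH : IsOpenSub q H) (hidx : H.index = n)
    (a : (PadicAlgCl q)ˣ) (ha : IsFixedBy (⊤ : Subgroup Γ) a) :
    ∃ s : Γ → (PadicAlgCl q)ˣ, SmoothC1 q s ∧ IsInfl2 H (cycCocycle χ a * mulD1 s) := by
  obtain ⟨τ, k, hτH, hk0, hgen, hord, habs⟩ := hχ.absorb H inferInstance hH hidx
  obtain ⟨m, hm, hma⟩ := habs a ha
  have : NeZero k := ⟨hk0.ne'⟩
  have hkn : k ∣ n := by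
    rw [← hord]
    apply orderOf_dvd_of_pow_eq_one
    apply Multiplicative.toAdd.injective
    rw [toAdd_pow, toAdd_one, nsmul_eq_mul, ZMod.natCast_self, zero_mul]
  have hk : ∀ h ∈ H, χ h ^ k = 1 := by
    intro h hh
    obtain ⟨i, hi⟩ := hgen h hh
    rw [hi, ← pow_mul, mul_comm, pow_mul, ← hord, pow_orderOf_eq_one, one_pow]
  obtain ⟨χ', hcar, hker'⟩ := abs_exists_resChar χ H k hkn hk
  set τH : H := ⟨τ, hτH⟩ with hτHdef
  have hordH : orderOf (χ' τH) = k := by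
    refine Eq.trans (orderOf_eq_orderOf_iff.2 fun j => ?_) hord
    rw [← map_pow, ← map_pow, hker' (τH ^ j)]
    rfl
  obtain ⟨v, hv⟩ := abs_exists_zpow_eq (χ' τH) hordH (Multiplicative.ofAdd 1)
  have hσH : χ' (τH ^ v) = Multiplicative.ofAdd 1 := by rw [map_zpow]; exact hv
  have hmH : ∀ h ∈ χ'.ker, h • m = m := by
    intro h hh
    have h1 : χ (h : Γ) = 1 := (hker' h).1 (MonoidHom.mem_ker.1 hh)
    exact hm (h : Γ) ⟨h.2, MonoidHom.mem_ker.2 h1⟩
  have hnorm : cycNorm k (τH ^ v) m = a := by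
    rw [← abs_cycNorm_eq_of_orderOf hσH hordH hmH, ← hma]
    unfold cycNorm
    exact Finset.prod_congr rfl fun i _ => rfl
  obtain ⟨t, ht, hct⟩ := cycCocycle_eq_mulD1_of_norm (χ := χ') (τH ^ v) hσH m hmH
  rw [hnorm] at hct
  have hVn : (H ⊓ χ.ker).Normal := Subgroup.normal_inf_normal H χ.ker
  have hVo : IsOpenSub q (H ⊓ χ.ker) := hH.inf hχ.ker_open
  have ha' : ∀ g : Γ, g • a = a := fun g => ha g (Subgroup.mem_top g)
  have h1 : H1Triv H (H ⊓ χ.ker) (PadicAlgCl q)ˣ :=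
    h1Triv_of_open hΓ H (H ⊓ χ.ker) hVo inf_le_left
  obtain ⟨s, hs, hinf⟩ := infl_res_exact H (H ⊓ χ.ker) inf_le_left h1 (cycCocycle χ a)
    (cycCocycle_isMulCocycle₂ (χ := χ) a ha')
    (fun g g' v v' hv hv' => (cycCocycle_isInfl2 (χ := χ) a ha').1 g g' v v' hv.2 hv'.2) t
    (fun h v hv => ht.1 h v (by
      rw [MonoidHom.mem_ker, hker' v]
      exact MonoidHom.mem_ker.1 hv.2))
    (fun h h' => by
      have h2 := congrFun hct (h, h')
      rw [mulD1_apply, cycCocycle_apply, hcar] at h2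
      exact h2)
  exact ⟨s, ⟨H ⊓ χ.ker, hVn, hVo, hs⟩, hinf⟩

end Step12

/-! ### the main theorem -/

section Main

theorem abs_arith {p : ℕ} (hp : p.Prime) (a j₁ j₂ : ℕ) (h₁ : p ^ a ∣ p * j₁)
    (h₂ : p ^ a ∣ p * j₂) :
    ∃ x y : ℕ, (¬ p ∣ x ∨ ¬ p ∣ y) ∧ p ^ a ∣ j₁ * x + j₂ * y := by
  cases a with
  | zero => exact ⟨1, 0, Or.inl (Nat.Prime.not_dvd_one hp), by simp⟩
  | succ a' =>
    have e₁ : p ^ a' ∣ j₁ := by
      rw [pow_succ'] at h₁
      exact Nat.dvd_of_mul_dvd_mul_left hp.pos h₁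
    have e₂ : p ^ a' ∣ j₂ := by
      rw [pow_succ'] at h₂
      exact Nat.dvd_of_mul_dvd_mul_left hp.pos h₂
    obtain ⟨u₁, rfl⟩ := e₁
    obtain ⟨u₂, rfl⟩ := e₂
    by_cases hu : p ∣ u₁
    · obtain ⟨w, rfl⟩ := hu
      exact ⟨1, 0, Or.inl (Nat.Prime.not_dvd_one hp), ⟨w, by ring⟩⟩
    · refine ⟨u₂, (p - 1) * u₁, Or.inr ?_, ?_⟩
      · intro h
        rcases (Nat.Prime.dvd_mul hp).1 h with h | h
        · have h3 := hp.two_le
          have h4 := Nat.le_of_dvd (by omega) h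
          omega
        · exact hu h
      · refine ⟨u₁ * u₂, ?_⟩
        have h3 : p - 1 + 1 = p := Nat.sub_add_cancel hp.one_le
        calc p ^ a' * u₁ * u₂ + p ^ a' * u₂ * ((p - 1) * u₁)
            = p ^ a' * (p - 1 + 1) * (u₁ * u₂) := by ring
          _ = p ^ (a' + 1) * (u₁ * u₂) := by rw [h3, pow_succ]

variable {q : ℕ} [Fact q.Prime]
variable {Γ : Type} [Group Γ] [MulSemiringAction Γ (PadicAlgCl q)]
  [MulDistribMulAction Γ (PadicAlgCl q)ˣ]

/-- **ABS**, with the bound ORD as a hypothesis: `H²(Γ/H, (Ω^H)^×)[p]` has order at most `p` when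
`Γ/H` is a `p`-group. -/
theorem abs_dependent_of_pGroup (hΓ : IsLocalGal q Γ) {p : ℕ} [Fact p.Prime] (a : ℕ)
    (H : Subgroup Γ) [H.Normal] (hH : IsOpenSub q H) (hidx : H.index = p ^ a)
    (hORD : ∃ R : Finset (Γ × Γ → (PadicAlgCl q)ˣ), R.card ≤ p ^ a ∧
      ∀ c : Γ × Γ → (PadicAlgCl q)ˣ, IsMulCocycle₂ c → IsInfl2 H c →
        ∃ r ∈ R, IsSmCob2 (c / r))
    (c₁ c₂ : Γ × Γ → (PadicAlgCl q)ˣ) (h₁ : IsMulCocycle₂ c₁) (h₂ : IsMulCocycle₂ c₂)
    (hi₁ : IsInfl2 H c₁) (hi₂ : IsInfl2 H c₂)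
    (hp₁ : IsSmCob2 (c₁ ^ p)) (hp₂ : IsSmCob2 (c₂ ^ p)) :
    ∃ x y : ℕ, (¬ p ∣ x ∨ ¬ p ∣ y) ∧ IsSmCob2 (c₁ ^ x * c₂ ^ y) := by
  classical
  have hpp : p.Prime := Fact.out
  have : NeZero (p ^ a) := ⟨pow_ne_zero _ hpp.ne_zero⟩
  obtain ⟨χ, σ, hχ⟩ := exists_unram_char hΓ (p ^ a)
  obtain ⟨π, hπ0, hπfix, hπ1, hπ⟩ := hΓ.exists_unif
  have hπu : IsFixedBy (⊤ : Subgroup Γ) (Units.mk0 π hπ0) := abs_isFixedBy_mk0 hΓ hπ0 hπfix
  have hπu' : ∀ g : Γ, g • Units.mk0 π hπ0 = Units.mk0 π hπ0 :=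
    fun g => hπu g (Subgroup.mem_top g)
  obtain ⟨s, hs, hinf⟩ := abs_exists_infl hΓ χ σ hχ H hH hidx (Units.mk0 π hπ0) hπu
  set c' : Γ × Γ → (PadicAlgCl q)ˣ := cycCocycle χ (Units.mk0 π hπ0) * mulD1 s with hc'def
  have hc' : IsMulCocycle₂ c' :=
    isMulCocycle₂_mul (cycCocycle_isMulCocycle₂ (χ := χ) _ hπu') (isMulCocycle₂_mulD1 s)
  have hpow : ∀ m : ℕ, c' ^ m = cycCocycle χ (Units.mk0 π hπ0 ^ m) * mulD1 (s ^ m) := by
    intro m
    rw [hc'def, mul_pow, abs_cycCocycle_pow, abs_mulD1_pow]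
  have hfixpow : ∀ m : ℕ, IsFixedBy (⊤ : Subgroup Γ) (Units.mk0 π hπ0 ^ m) := by
    intro m g hg
    rw [smul_pow', hπu g hg]
  -- `c'^m` is a smooth coboundary iff `n ∣ m`
  have key1 : ∀ m : ℕ, IsSmCob2 (c' ^ m) → p ^ a ∣ m := by
    intro m hm
    have e2 : IsSmCob2 (cycCocycle χ (Units.mk0 π hπ0 ^ m)) := by
      have e3 : cycCocycle χ (Units.mk0 π hπ0 ^ m) = c' ^ m / mulD1 (s ^ m) := by
        rw [hpow m, mul_div_cancel_right]
      rw [e3]
      exact abs_isSmCob2_div hm ⟨s ^ m, abs_smoothC1_pow hs m, rfl⟩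
    obtain ⟨m', hm', hnorm⟩ := abs_norm_of_isSmCob2 hΓ χ hχ.ker_open σ hχ.frob _ (hfixpow m) e2
    exact abs_dvd_of_unif_pow_norm hΓ χ σ hχ π hπ0 hπ1 hπ m m' hm' hnorm
  have key2 : ∀ m : ℕ, p ^ a ∣ m → IsSmCob2 (c' ^ m) := by
    rintro m ⟨t, rfl⟩
    have e1 : Units.mk0 π hπ0 ^ (p ^ a * t) = cycNorm (p ^ a) σ (Units.mk0 π hπ0 ^ t) := by
      rw [abs_cycNorm_of_fixed (p ^ a) σ _ (fun g => hfixpow t g (Subgroup.mem_top g)),
        ← pow_mul, mul_comm]
    rw [hpow, e1]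
    exact abs_isSmCob2_mul
      (abs_isSmCob2_of_norm χ hχ.ker_open σ hχ.frob _ (fun g _ => hfixpow t g (Subgroup.mem_top g)))
      ⟨_, abs_smoothC1_pow hs _, rfl⟩
  -- counting
  obtain ⟨R, hRcard, hR⟩ := hORD
  have hcl : ∀ j : ℕ, ∃ r ∈ R, IsSmCob2 (c' ^ j / r) :=
    fun j => hR (c' ^ j) (abs_isMulCocycle₂_pow hc' j) (abs_isInfl2_pow hinf j)
  choose f hfR hf using hcl
  have hinj0 : ∀ i j : ℕ, i ≤ j → j < p ^ a → f i = f j → i = j := by
    intro i j hij hj hfij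
    have e1 : c' ^ (j - i) = (c' ^ j / f j) / (c' ^ i / f i) := by
      rw [hfij, div_div_div_cancel_right, eq_div_iff_mul_eq', ← pow_add, Nat.sub_add_cancel hij]
    have e2 : p ^ a ∣ j - i := by
      apply key1
      rw [e1]
      exact abs_isSmCob2_div (hf j) (hf i)
    have e3 : j - i = 0 := Nat.eq_zero_of_dvd_of_lt e2 (by omega)
    omega
  have hinj : Set.InjOn f (Finset.range (p ^ a) : Set ℕ) := by
    intro i hi j hj hij
    rcases le_total i j with h | h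
    · exact hinj0 i j h (Finset.mem_range.1 hj) hij
    · exact (hinj0 j i h (Finset.mem_range.1 hi) hij.symm).symm
  have himg : (Finset.range (p ^ a)).image f = R := by
    apply Finset.eq_of_subset_of_card_le
    · intro x hx
      obtain ⟨i, _, rfl⟩ := Finset.mem_image.1 hx
      exact hfR i
    · rw [Finset.card_image_of_injOn hinj, Finset.card_range]
      exact hRcard
  have hall : ∀ c : Γ × Γ → (PadicAlgCl q)ˣ, IsMulCocycle₂ c → IsInfl2 H c →
      ∃ j : ℕ, IsSmCob2 (c / c' ^ j) := by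
    intro c hc hci
    obtain ⟨r, hr, hcr⟩ := hR c hc hci
    rw [← himg] at hr
    obtain ⟨j, _, rfl⟩ := Finset.mem_image.1 hr
    refine ⟨j, ?_⟩
    have e1 : c / c' ^ j = (c / f j) / (c' ^ j / f j) := by rw [div_div_div_cancel_right]
    rw [e1]
    exact abs_isSmCob2_div hcr (hf j)
  obtain ⟨j₁, hj₁⟩ := hall c₁ h₁ hi₁
  obtain ⟨j₂, hj₂⟩ := hall c₂ h₂ hi₂
  have htors : ∀ (c : Γ × Γ → (PadicAlgCl q)ˣ) (j : ℕ), IsSmCob2 (c / c' ^ j) →
      IsSmCob2 (c ^ p) → p ^ a ∣ p * j := by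
    intro c j hj hcp
    apply key1
    have e1 : c' ^ (p * j) = c ^ p / (c / c' ^ j) ^ p := by
      rw [div_pow, div_div_cancel, ← pow_mul, mul_comm]
    rw [e1]
    exact abs_isSmCob2_div hcp (abs_isSmCob2_pow hj p)
  obtain ⟨x, y, hxy, hdvd⟩ := abs_arith hpp a j₁ j₂ (htors c₁ j₁ hj₁ hp₁) (htors c₂ j₂ hj₂ hp₂)
  refine ⟨x, y, hxy, ?_⟩
  have e1 : c₁ ^ x * c₂ ^ y =
      (c₁ / c' ^ j₁) ^ x * (c₂ / c' ^ j₂) ^ y * c' ^ (j₁ * x + j₂ * y) := by
    rw [div_pow, div_pow, pow_add, ← pow_mul, ← pow_mul]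
    exact (by intros; abel :
      ∀ A B C D : Additive (Γ × Γ → (PadicAlgCl q)ˣ), A + B = (A - C) + (B - D) + (C + D)) _ _ _ _
  rw [e1]
  exact abs_isSmCob2_mul (abs_isSmCob2_mul (abs_isSmCob2_pow hj₁ x) (abs_isSmCob2_pow hj₂ y))
    (key2 _ hdvd)

end Main

end Fermat.Agent.F4.Loc
end MergeWrap_F4_Loc_ABS

section MergeWrap_F4_Loc_CO -- from F4/Loc/CO.lean

/-!
# F4 / Loc / CO : the local Brauer group on cocycles  (STUBS — seats F3, ORD, ABS)

`Γ` a local Galois group acting on `Ω = PadicAlgCl q`; cochains with values in `Ωˣ`.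
Inputs: `InfRes.lean`, `Cyclic.lean` (pure algebra) and `FT.lean` (FTA, FTB, FTC).

F3   `not_isSmCob2_cycCocycle` : if `a ∈ E^×` is not a norm from the cyclic layer of `χ`, the
     cyclic cocycle `c_{χ,a}` is not a smooth coboundary.
     Proof: `c = ∂s`, `s` smooth ⇒ (`infl_injective`, `H = ker χ`, FTA) `c = ∂s'`, `s'` inflated
     ⇒ (`norm_of_cycCocycle_eq_mulD1`) `a` is a norm.
     `isSmCob2_cycCocycle_of_norm` : the converse.
ORD  `card_infl_classes_le` : for `H ⊴ Γ` open with `Γ/H` a `p`-group of order `p^a`, the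
     `H`-inflated 2-cocycles fall into at most `p^a` classes modulo smooth coboundaries.
     Proof: induction on `a`; `Γ₁ ⊴ Γ` of index `p` containing `H`, `χ : Γ ↠ ℤ/p` with kernel
     `Γ₁`; restriction to `Γ₁` has at most `p^(a-1)` classes (induction, `IsLocalGal.subgroup`);
     two cocycles with the same restriction class differ by a cocycle which is trivial on `Γ₁`,
     hence (`infl_res_exact` + `exists_cycCocycle_mul_mulD1`) by some `c_{χ,b}`, and there are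
     at most `p` of those modulo coboundaries (`norm_index_le` + `cycCocycle_eq_mulD1_of_norm`).
ABS  `dependent_of_pGroup` : for such `H ⊴ Γ`, any two `H`-inflated 2-cocycles whose `p`-th
     powers are smooth coboundaries are linearly dependent modulo smooth coboundaries.
     Proof: `n = p^a`, `(χ, σ)` unramified of degree `n` (FTC), `π` a uniformizer of `E`,
     `c_π = c_{χ,π}`.  (1) `c_π` restricted to `H` is `c_{χ',π}` for the induced character of
     `H`, a coboundary by `absorb`; (2) by `infl_res_exact`, `c_π ~ c'`, `c'` `H`-inflated;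
     (3) the classes of `c'^j`, `0 ≤ j < n`, are distinct (`val_eq`: `π^j` is not a norm);
     (4) by ORD every `H`-inflated cocycle is `~ c'^j`; (5) `p`-torsion classes are multiples of
     `c'^(n/p)`.
-/

set_option autoImplicit false

open scoped NNReal
open groupCohomology

namespace Fermat.Agent.F4.Loc

variable {q : ℕ} [Fact q.Prime]
variable {Γ : Type} [Group Γ] [MulSemiringAction Γ (PadicAlgCl q)]
  [MulDistribMulAction Γ (PadicAlgCl q)ˣ]

/-- **F3.**  The cyclic cocycle of a non-norm is not a smooth coboundary. -/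
theorem not_isSmCob2_cycCocycle (hΓ : IsLocalGal q Γ) {n : ℕ} [NeZero n]
    (χ : Γ →* Multiplicative (ZMod n)) (hχ : Function.Surjective χ) (hker : IsOpenSub q χ.ker)
    (σ : Γ) (hσ : χ σ = Multiplicative.ofAdd 1)
    (a : (PadicAlgCl q)ˣ) (ha : IsFixedBy (⊤ : Subgroup Γ) a)
    (hna : ∀ m : (PadicAlgCl q)ˣ, IsFixedBy χ.ker m → cycNorm n σ m ≠ a) :
    ¬ IsSmCob2 (cycCocycle χ a) := by
  rintro ⟨s, ⟨W, hWn, hWo, hWs⟩, hcs⟩
  have _ := hχ
  have ha' : ∀ g : Γ, g • a = a := fun g => ha g (Subgroup.mem_top g)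
  have : W.Normal := hWn
  -- the level `V = W ⊓ ker χ`
  have hVo : IsOpenSub q (W ⊓ χ.ker) := hWo.inf hker
  have hVH : W ⊓ χ.ker ≤ χ.ker := inf_le_right
  have h1 : H1Triv χ.ker (W ⊓ χ.ker) (PadicAlgCl q)ˣ :=
    h1Triv_of_open hΓ χ.ker (W ⊓ χ.ker) hVo hVH
  have hsV : IsConst1 (W ⊓ χ.ker) s := fun g v hv => hWs g v hv.1
  obtain ⟨s', hs', hcs'⟩ := infl_injective χ.ker (W ⊓ χ.ker) hVH h1 (cycCocycle χ a)
    (cycCocycle_isInfl2 (χ := χ) a ha') s hsV hcs
  obtain ⟨m, hm, ham⟩ := norm_of_cycCocycle_eq_mulD1 (χ := χ) σ hσ a ha' s' hs' hcs'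
  exact hna m hm ham.symm

/-- The cyclic cocycle of a norm is a smooth coboundary. -/
theorem isSmCob2_cycCocycle_of_norm (hΓ : IsLocalGal q Γ) {n : ℕ} [NeZero n]
    (χ : Γ →* Multiplicative (ZMod n)) (hχ : Function.Surjective χ) (hker : IsOpenSub q χ.ker)
    (σ : Γ) (hσ : χ σ = Multiplicative.ofAdd 1)
    (m : (PadicAlgCl q)ˣ) (hm : IsFixedBy χ.ker m) :
    IsSmCob2 (cycCocycle χ (cycNorm n σ m)) := by
  have _ := hΓ
  have _ := hχ
  obtain ⟨s, hs, hcs⟩ := cycCocycle_eq_mulD1_of_norm (χ := χ) σ hσ m hm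
  exact ⟨s, ⟨χ.ker, inferInstance, hker, fun g w hw => hs.1 g w hw⟩, hcs⟩

/-- Existence of a class of order `p`: for a surjective character `χ : Γ ↠ ℤ/p` with open
kernel there is a 2-cocycle, inflated from `ker χ`, which is not a smooth coboundary and whose
`p`-th power is one. -/
theorem exists_nontrivial_class (hΓ : IsLocalGal q Γ) {p : ℕ} [Fact p.Prime]
    (χ : Γ →* Multiplicative (ZMod p)) (hχ : Function.Surjective χ) (hker : IsOpenSub q χ.ker) :
    ∃ c : Γ × Γ → (PadicAlgCl q)ˣ, IsMulCocycle₂ c ∧ IsInfl2 χ.ker c ∧ ¬ IsSmCob2 c ∧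
      IsSmCob2 (c ^ p) := by
  have : NeZero p := ⟨(Fact.out : p.Prime).ne_zero⟩
  obtain ⟨σ, hσ⟩ := hχ (Multiplicative.ofAdd 1)
  obtain ⟨a, ha, hna⟩ := exists_not_norm hΓ χ hχ hker σ hσ
  have ha' : ∀ g : Γ, g • a = a := fun g => ha g (Subgroup.mem_top g)
  refine ⟨cycCocycle χ a, cycCocycle_isMulCocycle₂ (χ := χ) a ha',
    cycCocycle_isInfl2 (χ := χ) a ha', not_isSmCob2_cycCocycle hΓ χ hχ hker σ hσ a ha hna, ?_⟩
  -- `c ^ p` is the cyclic cocycle of `a ^ p = N(a)`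
  have hnorm : cycNorm p σ a = a ^ p := by
    unfold cycNorm
    simp [ha']
  have hpow : cycCocycle χ a ^ p = cycCocycle χ (cycNorm p σ a) := by
    funext ⟨g, h⟩
    rw [hnorm, Pi.pow_apply, cycCocycle_apply, cycCocycle_apply, ← pow_mul, ← pow_mul, mul_comm]
  rw [hpow]
  exact isSmCob2_cycCocycle_of_norm hΓ χ hχ hker σ hσ a (fun h _ => ha' h)

/-- **ORD.**  At most `p^a` classes of `H`-inflated 2-cocycles when `Γ/H` has order `p^a`. -/
theorem card_infl_classes_le (hΓ : IsLocalGal q Γ) {p : ℕ} [Fact p.Prime] (a : ℕ)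
    (H : Subgroup Γ) [H.Normal] (hH : IsOpenSub q H) (hidx : H.index = p ^ a) :
    ∃ R : Finset (Γ × Γ → (PadicAlgCl q)ˣ), R.card ≤ p ^ a ∧
      ∀ c : Γ × Γ → (PadicAlgCl q)ˣ, IsMulCocycle₂ c → IsInfl2 H c →
        ∃ r ∈ R, IsSmCob2 (c / r) :=
  ord_card_infl_classes_le hΓ a H hH hidx

/-- **ABS.**  `H²(Γ/H, (Ω^H)^×)[p]` has order at most `p` when `Γ/H` is a `p`-group: two
`p`-torsion classes are dependent. -/
theorem dependent_of_pGroup (hΓ : IsLocalGal q Γ) {p : ℕ} [Fact p.Prime] (a : ℕ)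
    (H : Subgroup Γ) [H.Normal] (hH : IsOpenSub q H) (hidx : H.index = p ^ a)
    (c₁ c₂ : Γ × Γ → (PadicAlgCl q)ˣ) (h₁ : IsMulCocycle₂ c₁) (h₂ : IsMulCocycle₂ c₂)
    (hi₁ : IsInfl2 H c₁) (hi₂ : IsInfl2 H c₂)
    (hp₁ : IsSmCob2 (c₁ ^ p)) (hp₂ : IsSmCob2 (c₂ ^ p)) :
    ∃ x y : ℕ, (¬ p ∣ x ∨ ¬ p ∣ y) ∧ IsSmCob2 (c₁ ^ x * c₂ ^ y) :=
  abs_dependent_of_pGroup hΓ a H hH hidx (card_infl_classes_le hΓ a H hH hidx) c₁ c₂ h₁ h₂
    hi₁ hi₂ hp₁ hp₂

end Fermat.Agent.F4.Loc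
end MergeWrap_F4_Loc_CO

section MergeWrap_F4_Loc_Smooth_F1 -- from F4/Loc/Smooth/F1.lean

/-!
# F4 / Loc / Smooth / F1 : `F1sm` for a local formation  (seat S-F1, helper89)

`F : LocFormation q 𝓛 C`.  Any two smooth 2-cocycles of `C` whose classes are killed by `p` are
dependent modulo smooth coboundaries (`UC.F1sm p 𝓛 C`).

Proof.  `V ∈ 𝓛` a level of `w₁, w₂`; `U` the preimage of a Sylow `p`-subgroup of `Γ₀ ⧸ V`.
* over `U`: `dependent_of_pGroup` (seat ABS) for the local Galois group `↥U` and its open normal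
  subgroup `V ∩ U` of `p`-power index, and the bridge `MA` for the formation over `U`, give
  `x, y` with `(x w₁ + y w₂)|_U ∈ B²`;
* `cor ∘ res = [Γ₀ : U]` (helper48's C3) gives `[Γ₀ : U] • (x w₁ + y w₂) ∈ B²`;
* `p • (x w₁ + y w₂) ∈ B²` and `p ∤ [Γ₀ : U]`.
-/

set_option autoImplicit false
set_option linter.unusedSectionVars false

open CategoryTheory groupCohomology

namespace Fermat.Agent.F4.Loc

/-! ### the dictionary additive cochains of `C` ↔ multiplicative cochains -/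

section Dict

variable {q : ℕ} [Fact q.Prime] {Γ₀ : Type} [Group Γ₀]
  [MulSemiringAction Γ₀ (PadicAlgCl q)] [MulDistribMulAction Γ₀ (PadicAlgCl q)ˣ]
  {𝓛 : Levels Γ₀} {C : Rep.{0} ℤ Γ₀} (F : LocFormation q 𝓛 C)

theorem f1_toMul2_apply (w : Γ₀ × Γ₀ → C) (x : Γ₀ × Γ₀) :
    F.toMul2 w x = Additive.toMul (F.j (w x)) := rfl

theorem f1_toMul1_apply (s : Γ₀ → C) (g : Γ₀) :
    F.toMul1 s g = Additive.toMul (F.j (s g)) := rfl

theorem f1_toMul2_add (w w' : Γ₀ × Γ₀ → C) : F.toMul2 (w + w') = F.toMul2 w * F.toMul2 w' := by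
  funext x
  simp only [f1_toMul2_apply, Pi.add_apply, Pi.mul_apply, map_add, toMul_add]

theorem f1_toMul2_nsmul (x : ℕ) (w : Γ₀ × Γ₀ → C) :
    F.toMul2 (fun p => (x : ℤ) • w p) = F.toMul2 w ^ x := by
  funext y
  simp only [f1_toMul2_apply, Pi.pow_apply, natCast_zsmul, map_nsmul, toMul_nsmul]

theorem f1_toMul2_δ1 (s : Γ₀ → C) : F.toMul2 (δ1 C s) = mulD1 (F.toMul1 s) := by
  funext ⟨g, h⟩
  simp only [f1_toMul2_apply, f1_toMul1_apply, δ1_apply, mulD1_apply, map_add, map_sub,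
    toMul_add, toMul_sub, F.j_comm, toMul_ofMul]

theorem f1_isMulCocycle₂ {w : Γ₀ × Γ₀ → C} (hw : w ∈ cocycles₂ C) :
    IsMulCocycle₂ (F.toMul2 w) := by
  intro g h j
  have h1 := (mem_cocycles₂_iff w).1 hw g h j
  have h2 := congrArg (fun c => Additive.toMul (F.j c)) h1
  simp only [map_add, toMul_add, F.j_comm, toMul_ofMul] at h2
  exact h2

theorem f1_smoothC1 {s : Γ₀ → C} (hs : IsLC₁ 𝓛 s) : SmoothC1 q (F.toMul1 s) := by
  obtain ⟨W, hW, h⟩ := hs
  exact ⟨W, 𝓛.normal W hW, F.isOpenSub W hW, fun γ w hw => by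
    rw [f1_toMul1_apply, f1_toMul1_apply, h γ w hw]⟩

theorem f1_isSmCob2_of_mem_B2 {w : Γ₀ × Γ₀ → C} (hw : w ∈ B2 𝓛 C) : IsSmCob2 (F.toMul2 w) := by
  obtain ⟨s, hs, rfl⟩ := hw
  exact ⟨F.toMul1 s, f1_smoothC1 F hs, f1_toMul2_δ1 F s⟩

end Dict

/-! ### the `p`-group case -/

section PGroup

variable {q : ℕ} [Fact q.Prime] {Γ₀ : Type} [Group Γ₀]
  [MulSemiringAction Γ₀ (PadicAlgCl q)] [MulDistribMulAction Γ₀ (PadicAlgCl q)ˣ]
  {𝓛 : Levels Γ₀} {C : Rep.{0} ℤ Γ₀} (F : LocFormation q 𝓛 C)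

/-- `F1sm` for cocycles of a level `V` of `p`-power index. -/
theorem f1_pGroup (hMA : MABridge F) (p : ℕ) [Fact p.Prime] (a : ℕ)
    (V : Subgroup Γ₀) (hV : V ∈ 𝓛.sets) (hidx : V.index = p ^ a)
    (w₁ w₂ : Γ₀ × Γ₀ → C) (hw₁ : w₁ ∈ Z2 𝓛 C) (hw₂ : w₂ ∈ Z2 𝓛 C)
    (hc₁ : ∀ g g' s s', s ∈ V → s' ∈ V → w₁ (g * s, g' * s') = w₁ (g, g'))
    (hc₂ : ∀ g g' s s', s ∈ V → s' ∈ V → w₂ (g * s, g' * s') = w₂ (g, g'))
    (hp₁ : (fun x => (p : ℤ) • w₁ x) ∈ B2 𝓛 C) (hp₂ : (fun x => (p : ℤ) • w₂ x) ∈ B2 𝓛 C) :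
    ∃ x y : ℕ, (¬ p ∣ x ∨ ¬ p ∣ y) ∧
      (fun z => (x : ℤ) • w₁ z + (y : ℤ) • w₂ z) ∈ B2 𝓛 C := by
  have hVn : V.Normal := 𝓛.normal V hV
  have hco₁ := f1_isMulCocycle₂ F hw₁.1
  have hco₂ := f1_isMulCocycle₂ F hw₂.1
  have hi₁ : IsInfl2 V (F.toMul2 w₁) := isInfl2_of_isConst2 hco₁ (fun g g' v v' hv hv' => by
    rw [f1_toMul2_apply, f1_toMul2_apply, hc₁ g g' v v' hv hv'])
  have hi₂ : IsInfl2 V (F.toMul2 w₂) := isInfl2_of_isConst2 hco₂ (fun g g' v v' hv hv' => by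
    rw [f1_toMul2_apply, f1_toMul2_apply, hc₂ g g' v v' hv hv'])
  have hs₁ : IsSmCob2 (F.toMul2 w₁ ^ p) := by
    rw [← f1_toMul2_nsmul]
    exact f1_isSmCob2_of_mem_B2 F hp₁
  have hs₂ : IsSmCob2 (F.toMul2 w₂ ^ p) := by
    rw [← f1_toMul2_nsmul]
    exact f1_isSmCob2_of_mem_B2 F hp₂
  obtain ⟨x, y, hxy, h⟩ := dependent_of_pGroup F.isLocalGal a V (F.isOpenSub V hV) hidx _ _
    hco₁ hco₂ hi₁ hi₂ hs₁ hs₂
  refine ⟨x, y, hxy, hMA _ ?_ ?_⟩
  · exact add_mem (zsmul_mem hw₁ (x : ℤ)) (zsmul_mem hw₂ (y : ℤ))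
  · have e : F.toMul2 (fun z => (x : ℤ) • w₁ z + (y : ℤ) • w₂ z) =
        F.toMul2 w₁ ^ x * F.toMul2 w₂ ^ y := by
      rw [← f1_toMul2_nsmul, ← f1_toMul2_nsmul, ← f1_toMul2_add]
      rfl
    rw [e]
    exact h

end PGroup

/-! ### group theory: the preimage of a Sylow subgroup; restriction of coboundaries -/

section Sylow

variable {G : Type} [Group G]

/-- The preimage `U` of a Sylow `p`-subgroup of `G ⧸ V`: `p ∤ [G : U]`, `[U : V] = p ^ a`. -/
theorem f1_exists_sylow_preimage (p : ℕ) [Fact p.Prime] (V : Subgroup G) [V.Normal]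
    [V.FiniteIndex] :
    ∃ (U : Subgroup G) (a : ℕ), V ≤ U ∧ ¬ p ∣ U.index ∧ (V.subgroupOf U).index = p ^ a := by
  have : Finite (G ⧸ V) := Subgroup.finite_quotient_of_finiteIndex
  obtain ⟨P₀⟩ : Nonempty (Sylow p (G ⧸ V)) := inferInstance
  set U : Subgroup G := (P₀ : Subgroup (G ⧸ V)).comap (QuotientGroup.mk' V) with hUdef
  have hVU : V ≤ U := by
    intro v hv
    show QuotientGroup.mk' V v ∈ (P₀ : Subgroup (G ⧸ V))
    rw [QuotientGroup.mk'_apply, (QuotientGroup.eq_one_iff v).mpr hv]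
    exact one_mem _
  have hidx : U.index = (P₀ : Subgroup (G ⧸ V)).index :=
    Subgroup.index_comap_of_surjective _ (QuotientGroup.mk'_surjective V)
  obtain ⟨a, ha⟩ := P₀.2.exists_card_eq
  refine ⟨U, a, hVU, ?_, ?_⟩
  · rw [hidx]
    exact P₀.not_dvd_index
  · have h1 : V.relIndex U * U.index = V.index := Subgroup.relIndex_mul_index hVU
    have h2 : (P₀ : Subgroup (G ⧸ V)).index * Nat.card (P₀ : Subgroup (G ⧸ V)) =
        Nat.card (G ⧸ V) := Subgroup.index_mul_card _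
    have h3 : V.index = Nat.card (G ⧸ V) := Subgroup.index_eq_card V
    have h4 : U.index ≠ 0 := by
      rw [hidx]
      exact Subgroup.FiniteIndex.index_ne_zero
    have h5 : V.relIndex U * U.index = Nat.card (P₀ : Subgroup (G ⧸ V)) * U.index := by
      rw [h1, h3, ← h2, hidx, mul_comm]
    have h6 := Nat.eq_of_mul_eq_mul_right (Nat.pos_of_ne_zero h4) h5
    show V.relIndex U = p ^ a
    rw [h6]
    exact ha

variable (𝓤 : Levels G) (A : Rep.{0} ℤ G)

/-- The restriction of a smooth coboundary to a subgroup is a smooth coboundary. -/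
theorem f1_res_mem_B2 (U : Subgroup G) {w : G × G → A} (hw : w ∈ B2 𝓤 A) :
    (fun h : U × U => w (h.1, h.2)) ∈ B2 (𝓤.sub U) (Rep.res U.subtype A) := by
  obtain ⟨s, hs, rfl⟩ := hw
  refine ⟨fun h => s h, IsLC₁.comp_hom 𝓤 U.subtype hs, ?_⟩
  funext h
  simp [d₁₂_hom_apply]

end Sylow

/-! ### the main theorem -/

section Main

variable {q : ℕ} [Fact q.Prime] {Γ₀ : Type} [Group Γ₀]
  [MulSemiringAction Γ₀ (PadicAlgCl q)] [MulDistribMulAction Γ₀ (PadicAlgCl q)ˣ]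
  {𝓛 : Levels Γ₀} {C : Rep.{0} ℤ Γ₀}

/-- **F1sm**, from the bridge `MA` over the open subgroups and `cor ∘ res = index`. -/
theorem f1sm_of (p : ℕ) [Fact p.Prime]
    (hMA : ∀ U : Subgroup Γ₀, 𝓛.IsOpen U →
      ∃ F' : LocFormation q (𝓛.sub U) (Rep.res U.subtype C), MABridge F')
    (hcor : ∀ U : Subgroup Γ₀, 𝓛.IsOpen U → ∀ c : Γ₀ × Γ₀ → C, c ∈ Z2 𝓛 C →
      (fun h : U × U => c (h.1, h.2)) ∈ B2 (𝓛.sub U) (Rep.res U.subtype C) →
      (fun z => (U.index : ℤ) • c z) ∈ B2 𝓛 C) :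
    UC.F1sm p 𝓛 C := by
  intro w₁ w₂ hw₁ hw₂ hp₁ hp₂
  have hpp : p.Prime := Fact.out
  obtain ⟨V₁, hV₁, hc₁⟩ := hw₁.2
  obtain ⟨V₂, hV₂, hc₂⟩ := hw₂.2
  obtain ⟨V, hV, hVle⟩ := 𝓛.directed V₁ hV₁ V₂ hV₂
  have hVn := 𝓛.normal V hV
  have hVf := 𝓛.finiteIndex V hV
  obtain ⟨U, a, hVU, hpU, hidx⟩ := f1_exists_sylow_preimage p V
  have hU : 𝓛.IsOpen U := ⟨V, hV, hVU⟩
  obtain ⟨F', hMA'⟩ := hMA U hU
  obtain ⟨x, y, hxy, h⟩ := f1_pGroup F' hMA' p a (V.subgroupOf U) ⟨V, hV, rfl⟩ hidx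
    (fun h : U × U => w₁ (h.1, h.2)) (fun h : U × U => w₂ (h.1, h.2))
    (Z2res 𝓛 C U.subtype ⟨w₁, hw₁⟩).2 (Z2res 𝓛 C U.subtype ⟨w₂, hw₂⟩).2
    (fun g g' s s' hs hs' => hc₁ g g' s s' (hVle hs).1 (hVle hs').1)
    (fun g g' s s' hs hs' => hc₂ g g' s s' (hVle hs).2 (hVle hs').2)
    (f1_res_mem_B2 𝓛 C U hp₁) (f1_res_mem_B2 𝓛 C U hp₂)
  have hc : (fun z => (x : ℤ) • w₁ z + (y : ℤ) • w₂ z) ∈ Z2 𝓛 C :=
    add_mem (zsmul_mem hw₁ (x : ℤ)) (zsmul_mem hw₂ (y : ℤ))
  have h1 := hcor U hU _ hc h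
  have h2 : (fun z => (p : ℤ) • ((x : ℤ) • w₁ z + (y : ℤ) • w₂ z)) ∈ B2 𝓛 C := by
    have e : (fun z => (p : ℤ) • ((x : ℤ) • w₁ z + (y : ℤ) • w₂ z)) =
        (x : ℤ) • (fun z => (p : ℤ) • w₁ z) + (y : ℤ) • (fun z => (p : ℤ) • w₂ z) := by
      funext z
      simp only [Pi.add_apply, Pi.smul_apply, smul_add]
      rw [smul_comm (p : ℤ) (x : ℤ), smul_comm (p : ℤ) (y : ℤ)]
    rw [e]
    exact add_mem (zsmul_mem hp₁ (x : ℤ)) (zsmul_mem hp₂ (y : ℤ))
  have hcop : IsCoprime (p : ℤ) (U.index : ℤ) := by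
    rw [Int.isCoprime_iff_gcd_eq_one, Int.gcd_natCast_natCast]
    exact (Nat.Prime.coprime_iff_not_dvd hpp).2 hpU
  obtain ⟨u, v, huv⟩ := hcop
  refine ⟨x, y, ?_, ?_⟩
  · rcases hxy with h | h
    · exact Or.inl fun hd => h (Int.natCast_dvd_natCast.1 hd)
    · exact Or.inr fun hd => h (Int.natCast_dvd_natCast.1 hd)
  · have e : (fun z => (x : ℤ) • w₁ z + (y : ℤ) • w₂ z) =
        u • (fun z => (p : ℤ) • ((x : ℤ) • w₁ z + (y : ℤ) • w₂ z)) +
        v • (fun z => (U.index : ℤ) • ((x : ℤ) • w₁ z + (y : ℤ) • w₂ z)) := by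
      funext z
      simp only [Pi.add_apply, Pi.smul_apply]
      rw [← mul_smul, ← mul_smul, ← add_smul, huv, one_smul]
    rw [e]
    exact add_mem (zsmul_mem h2 u) (zsmul_mem h1 v)

/-- `cor ∘ res = index` (helper48's `card_smul_mem_B2_of_res`) in the form used above. -/
theorem f1_index_smul_mem_B2 (U : Subgroup Γ₀) (hU : 𝓛.IsOpen U) (c : Γ₀ × Γ₀ → C)
    (hc : c ∈ Z2 𝓛 C)
    (hres : (fun h : U × U => c (h.1, h.2)) ∈ B2 (𝓛.sub U) (Rep.res U.subtype C)) :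
    (fun z => (U.index : ℤ) • c z) ∈ B2 𝓛 C := by
  obtain ⟨V, hV, hVU⟩ := hU
  have hVf := 𝓛.finiteIndex V hV
  have hUf : U.FiniteIndex := Subgroup.finiteIndex_of_le hVU
  have : Finite (Γ₀ ⧸ U) := Subgroup.finite_quotient_of_finiteIndex
  let _ : Fintype (Γ₀ ⧸ U) := Fintype.ofFinite _
  have h1 := card_smul_mem_B2_of_res U C ⟨V, hV, hVU⟩ hc hres
  have e : (fun z => (U.index : ℤ) • c z) = Fintype.card (Γ₀ ⧸ U) • c := by
    funext z
    rw [Subgroup.index_eq_card, Nat.card_eq_fintype_card, natCast_zsmul]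
    rfl
  rw [e]
  exact h1

/-- **F1sm** for a local formation, given the bridge `MA` over the open subgroups. -/
theorem f1sm_of_maBridge (F : LocFormation q 𝓛 C) (p : ℕ) [Fact p.Prime]
    (hMA : ∀ (U : Subgroup Γ₀) (hU : 𝓛.IsOpen U), MABridge (F.res U hU)) :
    UC.F1sm p 𝓛 C :=
  f1sm_of p (fun U hU => ⟨F.res U hU, hMA U hU⟩) f1_index_smul_mem_B2

/-- **S-F1**: the formation-level statement `F1sm` for a local formation. -/
theorem LocFormation.f1sm (F : LocFormation q 𝓛 C) (p : ℕ) [Fact p.Prime] : UC.F1sm p 𝓛 C :=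
  f1sm_of_maBridge F p (fun U hU => (F.res U hU).maBridge)

end Main

end Fermat.Agent.F4.Loc
end MergeWrap_F4_Loc_Smooth_F1

section MergeWrap_F4_Loc_Smooth_F3 -- from F4/Loc/Smooth/F3.lean

/-!
# F4 / Loc / Smooth / F3 : the formation-level statement `F3sm` (seat S-F3)

`F : LocFormation q 𝓛 C`, `p` a prime.  For every nonzero `𝓛`-smooth character
`χ : Γ₀ → ZMod p` there is an invariant `x ∈ C^{Γ₀}` whose carry cochain `x ∪ δχ` is not an
`𝓛`-smooth coboundary.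

Proof: `χ` is a surjective monoid homomorphism `Γ₀ →* Multiplicative (ZMod p)` whose kernel
contains a level, hence is open; FTB (`exists_not_norm`) gives a unit `a` of the fixed field which
is not a norm from the cyclic layer of `χ`; `x := j⁻¹ a`; the image of the carry cochain of `x` is
the cyclic cocycle of `a`, which is not a smooth coboundary by F3 (`not_isSmCob2_cycCocycle`).
-/

set_option autoImplicit false

open CategoryTheory groupCohomology

namespace Fermat.Agent.F4.Loc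

namespace LocFormation

variable {q : ℕ} [Fact q.Prime] {Γ₀ : Type} [Group Γ₀]
  [MulSemiringAction Γ₀ (PadicAlgCl q)] [MulDistribMulAction Γ₀ (PadicAlgCl q)ˣ]
  {𝓛 : Levels Γ₀} {C : Rep.{0} ℤ Γ₀} (F : LocFormation q 𝓛 C)

/-- An additive character as a monoid homomorphism to `Multiplicative (ZMod p)`. -/
def f3smChar {p : ℕ} (χ : Γ₀ → ZMod p) (hχ : ∀ g h, χ (g * h) = χ g + χ h) :
    Γ₀ →* Multiplicative (ZMod p) where
  toFun g := Multiplicative.ofAdd (χ g)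
  map_one' := by
    have h := hχ 1 1
    rw [mul_one] at h
    have h0 : χ 1 = 0 := by
      have := congrArg (fun t => t - χ 1) h
      simpa using this.symm
    rw [h0]
    rfl
  map_mul' g h := by
    rw [hχ g h]
    rfl

theorem f3smChar_apply {p : ℕ} (χ : Γ₀ → ZMod p) (hχ : ∀ g h, χ (g * h) = χ g + χ h) (g : Γ₀) :
    Multiplicative.toAdd (f3smChar χ hχ g) = χ g := rfl

/-- A nonzero character to `ZMod p`, `p` prime, is surjective. -/
theorem f3smChar_surjective {p : ℕ} [Fact p.Prime] (χ : Γ₀ → ZMod p)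
    (hχ : ∀ g h, χ (g * h) = χ g + χ h) (hχ0 : χ ≠ 0) :
    Function.Surjective (f3smChar χ hχ) := by
  have hne : ∃ g, χ g ≠ 0 := by
    by_contra h
    exact hχ0 (funext fun g => not_not.1 fun hg => h ⟨g, hg⟩)
  obtain ⟨g, hg⟩ := hne
  intro y
  set n : ℕ := (Multiplicative.toAdd y * (χ g)⁻¹).val with hn
  refine ⟨g ^ n, ?_⟩
  apply Multiplicative.toAdd.injective
  rw [map_pow, toAdd_pow, f3smChar_apply, nsmul_eq_mul, hn, ZMod.natCast_zmod_val,
    inv_mul_cancel_right₀ hg]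

/-- The kernel of a level-constant character contains a level. -/
theorem f3sm_level_le_ker {p : ℕ} (χ : Γ₀ → ZMod p) (hχ : ∀ g h, χ (g * h) = χ g + χ h)
    (hLC : IsLC₁ 𝓛 χ) : ∃ V ∈ 𝓛.sets, V ≤ (f3smChar χ hχ).ker := by
  obtain ⟨V, hV, h⟩ := hLC
  refine ⟨V, hV, fun v hv => ?_⟩
  rw [MonoidHom.mem_ker]
  have h1 := h 1 v hv
  rw [one_mul] at h1
  have h2 : f3smChar χ hχ v = f3smChar χ hχ 1 := congrArg Multiplicative.ofAdd h1
  rw [h2, map_one]

/-- The image of the carry cochain of `x` is the cyclic cocycle of `jm x`. -/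
theorem f3sm_toMul2_carryCo {p : ℕ} [NeZero p] (χ : Γ₀ → ZMod p) (hχ : ∀ g h, χ (g * h) = χ g + χ h)
    (x : C) : F.toMul2 (UC.carryCo C χ x) = cycCocycle (f3smChar χ hχ) (F.jm x) := by
  funext ⟨g, h⟩
  rw [toMul2_apply, UC.carryCo_apply, jm_nsmul, cycCocycle_apply]
  rfl

include F in
/-- **S-F3**: the formation-level statement `F3sm` for a local formation. -/
theorem f3sm (p : ℕ) [Fact p.Prime] : UC.F3sm p 𝓛 C := by
  intro χ hχ hLC hχ0
  have : NeZero p := ⟨(Fact.out : p.Prime).ne_zero⟩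
  have hΓ := F.isLocalGal
  have hsurj := f3smChar_surjective χ hχ hχ0
  obtain ⟨V, hV, hVker⟩ := f3sm_level_le_ker (𝓛 := 𝓛) χ hχ hLC
  have hker : IsOpenSub q (f3smChar χ hχ).ker := (F.isOpenSub V hV).of_le hΓ hVker
  obtain ⟨σ, hσ⟩ := hsurj (Multiplicative.ofAdd 1)
  obtain ⟨a, ha, hna⟩ := exists_not_norm hΓ (f3smChar χ hχ) hsurj hker σ hσ
  obtain ⟨x, hx, hxa⟩ := F.exists_jm_eq_of_fixed (u := a) fun g => ha g (Subgroup.mem_top g)
  refine ⟨x, hx, fun hB => ?_⟩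
  have h1 := F.isSmCob2_toMul2_of_mem_B2 hB
  rw [F.f3sm_toMul2_carryCo χ hχ x, hxa] at h1
  exact not_isSmCob2_cycCocycle hΓ (f3smChar χ hχ) hsurj hker σ hσ a ha hna h1

end LocFormation

end Fermat.Agent.F4.Loc
end MergeWrap_F4_Loc_Smooth_F3

section MergeWrap_F4_Loc_Smooth_KFin -- from F4/Loc/Smooth/KFin.lean

/-!
# F4 / Loc / Smooth / KFin : finiteness of `Hom_sm(Γ, 𝔽_p)` for a local Galois group (seat kfin)

`Γ` a local Galois group (`IsLocalGal q Γ`), `p` any prime.  The smooth characters `Γ → ℤ/p` are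
finite in number (local Kummer theory):

* if `Γ` fixes a primitive `p`-th root of unity `ζ`: for a smooth character `χ`, `γ ↦ ζ ^ χ γ` is a
  smooth 1-cocycle, hence (Hilbert 90, FTA) `= γ • b / b`; `b ^ p ∈ E^×` and `χ ↦ b ^ p` is
  injective modulo `p`-th powers; `E^× / (E^×)^p` is finite (`finite_units_mod_pow`, KFIN);
* in general restrict to the stabiliser `Γ'` of `ζ`: `γ ^ (p - 1) ∈ Γ'` for all `γ`, so the
  restriction of characters is injective.

Main results: `kfin_finite` (finiteness of `smChars q Γ p`), `homFinite : HomFinite p 𝓛` for every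
level structure with open levels.
-/

set_option autoImplicit false
set_option linter.unusedSectionVars false

open scoped NNReal
open groupCohomology

namespace Fermat.Agent.F4.Loc

variable {q : ℕ} [Fact q.Prime]
variable {Γ : Type} [Group Γ] [MulSemiringAction Γ (PadicAlgCl q)]
  [MulDistribMulAction Γ (PadicAlgCl q)ˣ]

variable (q Γ) in
/-- The smooth additive characters `Γ → ℤ/p`. -/
def smChars (p : ℕ) : Set (Γ → ZMod p) :=
  {χ | (∀ g h : Γ, χ (g * h) = χ g + χ h) ∧ SmoothC1 q χ}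

omit [Fact q.Prime] [MulSemiringAction Γ (PadicAlgCl q)] [MulDistribMulAction Γ (PadicAlgCl q)ˣ] in
lemma kfin_map_one {p : ℕ} {χ : Γ → ZMod p} (h : ∀ g h : Γ, χ (g * h) = χ g + χ h) : χ 1 = 0 := by
  have := h 1 1
  rw [mul_one] at this
  exact left_eq_add.1 this

omit [Fact q.Prime] [MulSemiringAction Γ (PadicAlgCl q)] [MulDistribMulAction Γ (PadicAlgCl q)ˣ] in
lemma kfin_map_pow {p : ℕ} {χ : Γ → ZMod p} (h : ∀ g h : Γ, χ (g * h) = χ g + χ h) (γ : Γ)
    (n : ℕ) : χ (γ ^ n) = n • χ γ := by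
  induction n with
  | zero => rw [pow_zero, zero_smul, kfin_map_one h]
  | succ n ih => rw [pow_succ, h, ih, succ_nsmul]

/-- Kummer: a smooth character is `γ ↦ γ • b / b` composed with `ζ ^ ·`. -/
lemma kfin_exists_kummer (hΓ : IsLocalGal q Γ) {p : ℕ} [Fact p.Prime] (ζ : (PadicAlgCl q)ˣ)
    (hζfix : ∀ γ : Γ, γ • ζ = ζ) (hζp : ζ ^ p = 1) {χ : Γ → ZMod p} (hχ : χ ∈ smChars q Γ p) :
    ∃ b : (PadicAlgCl q)ˣ, ∀ γ : Γ, γ • b / b = ζ ^ (χ γ).val := by
  obtain ⟨hadd, W, hWn, hWo, hWs⟩ := hχ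
  have : W.Normal := hWn
  have hH := h1Triv_of_open hΓ ⊤ W hWo le_top
  obtain ⟨x, hx⟩ := hH (fun h => ζ ^ (χ (h : Γ)).val) (fun g h => by
      show ζ ^ (χ ((g : Γ) * (h : Γ))).val = (g : Γ) • ζ ^ (χ (h : Γ)).val * ζ ^ (χ (g : Γ)).val
      rw [smul_pow', hζfix, hadd, ZMod.val_add, ← pow_eq_pow_mod _ hζp, pow_add, mul_comm])
    (fun h v hv => by
      show ζ ^ (χ ((h : Γ) * (v : Γ))).val = ζ ^ (χ (h : Γ)).val
      rw [hWs _ _ hv])
  exact ⟨x, fun γ => hx ⟨γ, Subgroup.mem_top γ⟩⟩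

/-- Finiteness of the smooth characters when `Γ` fixes a primitive `p`-th root of unity. -/
lemma kfin_finite_of_fixed (hΓ : IsLocalGal q Γ) {p : ℕ} [Fact p.Prime] (ζ : PadicAlgCl q)
    (hζ : IsPrimitiveRoot ζ p) (hfix : ∀ γ : Γ, γ • ζ = ζ) : (smChars q Γ p).Finite := by
  classical
  have hp : p.Prime := Fact.out
  have : NeZero p := ⟨hp.ne_zero⟩
  have hcompat := hΓ.1
  obtain ⟨-, E, e, hfin, he⟩ := id hΓ
  have hfixE : ∀ x : PadicAlgCl q, (∀ γ : Γ, γ • x = x) ↔ x ∈ E := by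
    intro x
    constructor
    · intro hx
      rw [← InfiniteGalois.fixedField_fixingSubgroup E, IntermediateField.mem_fixedField_iff]
      intro σ hσ
      have h1 := hx (e.symm ⟨σ, hσ⟩)
      rw [he, e.apply_symm_apply] at h1
      exact h1
    · intro hx γ
      rw [he]
      exact (IntermediateField.mem_fixingSubgroup_iff _ _).mp (e γ).2 x hx
  have hζ0 : ζ ≠ 0 := hζ.ne_zero hp.ne_zero
  let ζu : (PadicAlgCl q)ˣ := Units.mk0 ζ hζ0
  have hζufix : ∀ γ : Γ, γ • ζu = ζu := fun γ => Units.ext (by rw [hcompat]; exact hfix γ)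
  have hζup : ζu ^ p = 1 := Units.ext (by
    rw [Units.val_pow_eq_pow_val]; exact hζ.pow_eq_one)
  have hex : ∀ χ : Γ → ZMod p, χ ∈ smChars q Γ p →
      ∃ b : (PadicAlgCl q)ˣ, ∀ γ : Γ, γ • b / b = ζu ^ (χ γ).val :=
    fun χ hχ => kfin_exists_kummer hΓ ζu hζufix hζup hχ
  choose! b hb using hex
  -- `b χ ^ p` lies in `E`
  have hbE : ∀ χ ∈ smChars q Γ p, ((b χ ^ p : (PadicAlgCl q)ˣ) : PadicAlgCl q) ∈ E := by
    intro χ hχ
    rw [← hfixE]
    intro γ
    rw [← hcompat, smul_pow']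
    have h1 : γ • b χ = b χ * ζu ^ (χ γ).val := by
      rw [← hb χ hχ γ]; simp
    rw [h1, mul_pow, ← pow_mul, mul_comm (χ γ).val p, pow_mul, hζup, one_pow, mul_one]
  have hfinQ : Finite ((↥E)ˣ ⧸ (powMonoidHom p : (↥E)ˣ →* (↥E)ˣ).range) :=
    finite_units_mod_pow (resVal E (padicVal q)) (padicVal_isLocalVal q E) p hp
  let A : ↥(smChars q Γ p) → (↥E)ˣ := fun χ =>
    Units.mk0 ⟨_, hbE χ.1 χ.2⟩ (fun h => by
      have h1 := congrArg Subtype.val h
      simp only [ZeroMemClass.coe_zero] at h1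
      exact (b χ.1 ^ p).ne_zero h1)
  have hA : ∀ χ : ↥(smChars q Γ p), (((A χ : (↥E)ˣ) : ↥E) : PadicAlgCl q)
      = ((b χ.1 ^ p : (PadicAlgCl q)ˣ) : PadicAlgCl q) := fun χ => rfl
  let f : ↥(smChars q Γ p) → (↥E)ˣ ⧸ (powMonoidHom p : (↥E)ˣ →* (↥E)ˣ).range :=
    fun χ => QuotientGroup.mk (A χ)
  have hinj : Function.Injective f := by
    intro χ χ' hff
    obtain ⟨y, hy⟩ := (QuotientGroup.eq.1 hff : (A χ)⁻¹ * A χ' ∈ _)
    simp only [powMonoidHom_apply] at hy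
    -- in `Ωˣ`
    have hy0 : (((y : ↥E) : PadicAlgCl q)) ≠ 0 := fun h => y.ne_zero (Subtype.ext h)
    let yu : (PadicAlgCl q)ˣ := Units.mk0 _ hy0
    have hyfix : ∀ γ : Γ, γ • yu = yu := fun γ =>
      Units.ext (by rw [hcompat]; exact (hfixE _).2 (y : ↥E).2 γ)
    have hyp : yu ^ p * b χ.1 ^ p = b χ'.1 ^ p := by
      apply Units.ext
      have h1 : (((y ^ p : (↥E)ˣ) : ↥E) : PadicAlgCl q)
          = ((((A χ)⁻¹ * A χ' : (↥E)ˣ) : ↥E) : PadicAlgCl q) := by rw [hy]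
      have h2 : (((A χ : (↥E)ˣ) : ↥E) : PadicAlgCl q) * (((y ^ p : (↥E)ˣ) : ↥E) : PadicAlgCl q)
          = (((A χ' : (↥E)ˣ) : ↥E) : PadicAlgCl q) := by
        rw [h1, ← MulMemClass.coe_mul, ← Units.val_mul, mul_inv_cancel_left]
      rw [hA, hA] at h2
      rw [Units.val_mul, ← h2, mul_comm]
      congr 1
    let η : (PadicAlgCl q)ˣ := b χ'.1 / (yu * b χ.1)
    have hηp : η ^ p = 1 := by
      show (b χ'.1 / (yu * b χ.1)) ^ p = 1
      rw [div_pow, mul_pow, hyp, div_self']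
    have hηfix : ∀ γ : Γ, γ • η = η := by
      intro γ
      have h1 : ((η : (PadicAlgCl q)ˣ) : PadicAlgCl q) ^ p = 1 := by
        rw [← Units.val_pow_eq_pow_val, hηp, Units.val_one]
      obtain ⟨i, -, hi⟩ := hζ.eq_pow_of_pow_eq_one h1
      apply Units.ext
      rw [hcompat, ← hi, smul_pow', hfix]
    have hbb : b χ'.1 = η * (yu * b χ.1) := by
      show b χ'.1 = b χ'.1 / (yu * b χ.1) * (yu * b χ.1)
      rw [div_mul_cancel]
    apply Subtype.ext
    funext γ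
    have h1 : ζu ^ (χ'.1 γ).val = ζu ^ (χ.1 γ).val := by
      rw [← hb χ'.1 χ'.2 γ, ← hb χ.1 χ.2 γ, hbb, smul_mul', smul_mul', hηfix, hyfix]
      rw [mul_div_mul_left_eq_div, mul_div_mul_left_eq_div]
    have h2 : ζ ^ (χ'.1 γ).val = ζ ^ (χ.1 γ).val := by
      have := congrArg (fun u : (PadicAlgCl q)ˣ => (u : PadicAlgCl q)) h1
      simpa [ζu] using this
    have h3 := hζ.pow_inj (ZMod.val_lt _) (ZMod.val_lt _) h2
    exact (ZMod.val_injective p h3).symm
  have : Finite ↥(smChars q Γ p) := Finite.of_injective f hinj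
  exact Set.toFinite _

omit [MulDistribMulAction Γ (PadicAlgCl q)ˣ] in
/-- `γ ^ (p - 1)` fixes the `p`-th roots of unity. -/
lemma kfin_pow_smul_root {p : ℕ} [Fact p.Prime] (ζ : PadicAlgCl q) (hζ : IsPrimitiveRoot ζ p)
    (γ : Γ) : γ ^ (p - 1) • ζ = ζ := by
  have hp : p.Prime := Fact.out
  have : NeZero p := ⟨hp.ne_zero⟩
  have h1 : (γ • ζ) ^ p = 1 := by rw [← smul_pow', hζ.pow_eq_one, smul_one]
  obtain ⟨i, -, hi⟩ := hζ.eq_pow_of_pow_eq_one h1
  have hpow : ∀ n : ℕ, γ ^ n • ζ = ζ ^ (i ^ n) := by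
    intro n
    induction n with
    | zero => simp
    | succ n ih => rw [pow_succ', mul_smul, ih, smul_pow', ← hi, ← pow_mul, ← pow_succ']
  have hi0 : (i : ZMod p) ≠ 0 := by
    intro h0
    have hdvd : p ∣ i := (ZMod.natCast_eq_zero_iff i p).1 h0
    obtain ⟨d, rfl⟩ := hdvd
    rw [pow_mul, hζ.pow_eq_one, one_pow] at hi
    have hζ1 : ζ = 1 := by
      have h2 : γ⁻¹ • γ • ζ = γ⁻¹ • (1 : PadicAlgCl q) := by rw [← hi]
      rwa [inv_smul_smul, smul_one] at h2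
    exact hζ.ne_one hp.one_lt hζ1
  have hfl : ((i ^ (p - 1) : ℕ) : ZMod p) = ((1 : ℕ) : ZMod p) := by
    push_cast
    exact ZMod.pow_card_sub_one_eq_one hi0
  have hmod : i ^ (p - 1) ≡ 1 [MOD p] := (ZMod.natCast_eq_natCast_iff _ _ _).1 hfl
  rw [hpow, pow_eq_pow_mod _ hζ.pow_eq_one, hmod, ← pow_eq_pow_mod _ hζ.pow_eq_one, pow_one]

/-- **Local Kummer finiteness**: a local Galois group has finitely many smooth characters
`Γ → ℤ/p`. -/
theorem kfin_finite (hΓ : IsLocalGal q Γ) (p : ℕ) [Fact p.Prime] : (smChars q Γ p).Finite := by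
  classical
  have hp : p.Prime := Fact.out
  have hne : NeZero (p : PadicAlgCl q) := ⟨Nat.cast_ne_zero.2 hp.ne_zero⟩
  obtain ⟨ζ, hζ⟩ := HasEnoughRootsOfUnity.exists_primitiveRoot (PadicAlgCl q) p
  let Γ' : Subgroup Γ := lgbStab {ζ}
  have hopen : IsOpenSub q Γ' := lgb_isOpenSub_stab {ζ}
  have hΓ' : IsLocalGal q ↥Γ' := hΓ.subgroup Γ' hopen
  have hfix : ∀ γ : ↥Γ', γ • ζ = ζ := fun γ =>
    (lgb_mem_stab.1 γ.2) ζ (Finset.mem_singleton_self ζ)
  have hfin' := kfin_finite_of_fixed hΓ' ζ hζ hfix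
  refine Set.Finite.of_injOn (f := fun χ => fun h : ↥Γ' => χ (h : Γ)) (t := smChars q ↥Γ' p)
    ?_ ?_ hfin'
  · rintro χ ⟨hadd, W, hWn, hWo, hWs⟩
    refine ⟨fun g h => hadd _ _, W.subgroupOf Γ', ?_, hWo.subgroupOf, fun g w hw => ?_⟩
    · have : W.Normal := hWn
      infer_instance
    · exact hWs _ _ (Subgroup.mem_subgroupOf.1 hw)
  · rintro χ ⟨hadd, -⟩ χ' ⟨hadd', -⟩ hres
    funext γ
    have hmem : γ ^ (p - 1) ∈ Γ' := by
      rw [lgb_mem_stab]
      intro x hx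
      rw [Finset.mem_singleton.1 hx]
      exact kfin_pow_smul_root ζ hζ γ
    have h1 := congrFun hres ⟨γ ^ (p - 1), hmem⟩
    simp only at h1
    rw [kfin_map_pow hadd, kfin_map_pow hadd'] at h1
    have hunit : ((p - 1 : ℕ) : ZMod p) ≠ 0 := by
      intro h0
      have hdvd : p ∣ p - 1 := (ZMod.natCast_eq_zero_iff _ p).1 h0
      have := Nat.le_of_dvd (Nat.sub_pos_of_lt hp.one_lt) hdvd
      have := hp.one_lt
      omega
    rw [nsmul_eq_mul, nsmul_eq_mul] at h1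
    have : Fact p.Prime := ⟨hp⟩
    exact mul_left_cancel₀ hunit h1

variable {Γ₀ : Type} [Group Γ₀] [MulSemiringAction Γ₀ (PadicAlgCl q)]
  [MulDistribMulAction Γ₀ (PadicAlgCl q)ˣ]

/-- **kfin**: `Hom_sm(Γ₀, 𝔽_p)` is finite for every level structure with open levels. -/
theorem homFinite (𝓛 : Levels Γ₀) (hΓ : IsLocalGal q Γ₀) (hopen : ∀ V ∈ 𝓛.sets, IsOpenSub q V)
    (p : ℕ) [Fact p.Prime] : HomFinite p 𝓛 := by
  classical
  have hfin := kfin_finite hΓ p
  have hsub : ((Z1 𝓛 (Rep.trivial (ZMod p) Γ₀ (ZMod p)) : Submodule (ZMod p) _) :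
      Set (Γ₀ → ZMod p)) ⊆ smChars q Γ₀ p := by
    rintro χ ⟨hc, U, hU, hχ⟩
    refine ⟨fun g h => ?_, U, 𝓛.normal U hU, hopen U hU, hχ⟩
    have := (mem_cocycles₁_iff (A := Rep.trivial (ZMod p) Γ₀ (ZMod p)) χ).1 hc g h
    rw [this, add_comm]
    rfl
  have : Finite ↥(Z1 𝓛 (Rep.trivial (ZMod p) Γ₀ (ZMod p))) :=
    Set.finite_coe_iff.2 (hfin.subset hsub)
  exact Module.Finite.of_finite

/-- `kfin` for a local formation. -/
theorem LocFormation.homFinite {𝓛 : Levels Γ₀} {C : Rep.{0} ℤ Γ₀} (F : LocFormation q 𝓛 C)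
    (p : ℕ) [Fact p.Prime] : HomFinite p 𝓛 :=
  Fermat.Agent.F4.Loc.homFinite 𝓛 F.isLocalGal F.isOpenSub p

end Fermat.Agent.F4.Loc
end MergeWrap_F4_Loc_Smooth_KFin

section MergeWrap_F4_Loc_Smooth_Main -- from F4/Loc/Smooth/Main.lean

/-!
# F4 / Loc / Smooth / Main : the deliverables of SMOOTH (third wave of LOC), integrated

For every local formation `F : LocFormation q 𝓛 C` and every prime `p`:

* `F.h90sm    : UC.H90sm 𝓛 C`          (Smooth/H90.lean, helper90)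
* `F.maBridge : MABridge F`             (Smooth/MA.lean, helper90)
* `F.f1sm p   : UC.F1sm p 𝓛 C`         (Smooth/F1.lean, helper89)
* `F.f3sm p   : UC.F3sm p 𝓛 C`         (Smooth/F3.lean, helper39)
* `F.homFinite p : HomFinite p 𝓛`      (Smooth/KFin.lean, helper3)

and the same over every open subgroup `U` (formation `F.res U hU`, Smooth/Res.lean), in the exact
shape consumed by `F4/UC/Bridge.lean` (`D.depHH2_res`, `D.cupNondegRight_res`):

* `F.h90sm_res U hU`, `F.f1sm_res p U hU`, `F.f3sm_res p U hU`, `F.homFinite_res p U hU`,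
  `F.h1p0_res p U hU`.
-/

set_option autoImplicit false
set_option linter.unusedSectionVars false

open CategoryTheory groupCohomology

namespace Fermat.Agent.F4.Loc

namespace LocFormation

variable {q : ℕ} [Fact q.Prime] {Γ₀ : Type} [Group Γ₀]
  [MulSemiringAction Γ₀ (PadicAlgCl q)] [MulDistribMulAction Γ₀ (PadicAlgCl q)ˣ]
  {𝓛 : Levels Γ₀} {C : Rep.{0} ℤ Γ₀}

/-- `H¹(C)[p] = 0` for a local formation. -/
theorem h1p0 (F : LocFormation q 𝓛 C) (p : ℕ) : UC.H1p0 p 𝓛 C :=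
  F.h90sm.h1p0

/-- Hilbert 90 over an open subgroup. -/
theorem h90sm_res (F : LocFormation q 𝓛 C) (U : Subgroup Γ₀) (hU : 𝓛.IsOpen U) :
    UC.H90sm (𝓛.sub U) (Rep.res U.subtype C) := (F.res U hU).h90sm

/-- `H¹[p] = 0` over an open subgroup. -/
theorem h1p0_res (F : LocFormation q 𝓛 C) (p : ℕ) (U : Subgroup Γ₀) (hU : 𝓛.IsOpen U) :
    UC.H1p0 p (𝓛.sub U) (Rep.res U.subtype C) := (F.res U hU).h1p0 p

/-- The MA bridge over an open subgroup. -/
theorem maBridge_res (F : LocFormation q 𝓛 C) (U : Subgroup Γ₀) (hU : 𝓛.IsOpen U) :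
    MABridge (F.res U hU) := (F.res U hU).maBridge

/-- `F1sm` over an open subgroup. -/
theorem f1sm_res (F : LocFormation q 𝓛 C) (p : ℕ) [Fact p.Prime] (U : Subgroup Γ₀) (hU : 𝓛.IsOpen U) :
    UC.F1sm p (𝓛.sub U) (Rep.res U.subtype C) := (F.res U hU).f1sm p

/-- `F3sm` over an open subgroup. -/
theorem f3sm_res (F : LocFormation q 𝓛 C) (p : ℕ) [Fact p.Prime] (U : Subgroup Γ₀) (hU : 𝓛.IsOpen U) :
    UC.F3sm p (𝓛.sub U) (Rep.res U.subtype C) := (F.res U hU).f3sm p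

/-- Finiteness of `Hom_sm(U, 𝔽_p)` over an open subgroup. -/
theorem homFinite_res (F : LocFormation q 𝓛 C) (p : ℕ) [Fact p.Prime] (U : Subgroup Γ₀) (hU : 𝓛.IsOpen U) :
    HomFinite p (𝓛.sub U) := (F.res U hU).homFinite p

end LocFormation

end Fermat.Agent.F4.Loc
end MergeWrap_F4_Loc_Smooth_Main

section MergeWrap_F4_Loc_Datum_Defs -- from F4/Loc/Datum/Defs.lean

/-!
# F4 / Loc / Datum / Defs : the concrete local objects at a prime `q` (DATUM, FIXED definitions)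

`G_q = primeLocalGaloisGroup q` acting on `Ω = PadicAlgCl q`; levels `locLevelsS S q`,
`locLevelsAll q` (`F4/Datum.lean`).

* `CS S q = LqS S q`, `CAll q = LqAll q` (`F4/Dict/Formation.lean`) : the `ℤ[G_q]`-modules of
  units of `Ω` fixed by an `S`-level, resp. by a level;
* `lqJ`, `locFormation_lq` : `(G_q, 𝓛, smUnits 𝓛 (locAct q))` is a local formation;
  (`LocFormation.res`, restriction to an open subgroup, is in `F4/Loc/Smooth/Res.lean`);
* `locK p S q = hullK p (CS S q)` : the complex `K_q` of the local datum, `locHullData` its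
  universal-coefficient datum;
* `zeroRep` : the zero `ℤ[G]`-module.
(SMOOTH's deliverables are in `F4/Loc/Smooth/Main.lean`; the glue to `F4/Shapiro/R2.lean` is
`F4/UC/Bridge.lean`, helper9.)
-/

set_option autoImplicit false
set_option linter.unusedSectionVars false

open CategoryTheory groupCohomology ExtCitation

noncomputable section

namespace Fermat.Agent.F4.Loc

/-- A prime as a `Fact`. -/
instance instFactNatPrimesCoe (q : Nat.Primes) : Fact (q : ℕ).Prime := ⟨q.2⟩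

/-- The local Galois group at `q` acts on `Ω`. -/
instance primeLocalMulSemiringAction (q : Nat.Primes) :
    MulSemiringAction (primeLocalGaloisGroup q) (PadicAlgCl (q : ℕ)) :=
  inferInstanceAs (MulSemiringAction (LG (q : ℕ)) (PadicAlgCl (q : ℕ)))

/-- The local Galois group at `q` acts on `Ωˣ`. -/
instance primeLocalMulDistribMulAction (q : Nat.Primes) :
    MulDistribMulAction (primeLocalGaloisGroup q) (PadicAlgCl (q : ℕ))ˣ :=
  inferInstanceAs (MulDistribMulAction (LG (q : ℕ)) (PadicAlgCl (q : ℕ))ˣ)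

lemma primeLocal_smul_def (q : Nat.Primes) (g : primeLocalGaloisGroup q)
    (x : PadicAlgCl (q : ℕ)) :
    g • x = (show PadicAlgCl (q : ℕ) ≃ₐ[ℚ_[(q : ℕ)]] PadicAlgCl (q : ℕ) from g) x := rfl

/-- The zero `ℤ[G]`-module. -/
abbrev zeroRep (G : Type) [Group G] : Rep.{0} ℤ G :=
  Rep.of (k := ℤ) (G := G) (X := PUnit.{1}) 1

section Concrete

variable (p : ℕ) [Fact p.Prime] (S : Finset Nat.Primes) (q : Nat.Primes)

/-- The units of `(ℚ_S)_q`: the units of `Ω` fixed by an `S`-level. -/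
abbrev CS : Rep.{0} ℤ (primeLocalGaloisGroup q) := LqS S q

/-- The units of `Ω` (fixed by some level). -/
abbrev CAll : Rep.{0} ℤ (primeLocalGaloisGroup q) := LqAll q

lemma CS_smooth : IsSmooth (locLevelsS S q) (CS S q) := smUnits_smooth

lemma CAll_smooth : IsSmooth (locLevelsAll q) (CAll q) := smUnits_smooth

/-- **The complex `K_q` of the local datum.** -/
abbrev locK : Cx (ZMod p) (primeLocalGaloisGroup q) := hullK p (CS S q)

/-- The universal-coefficient datum of `K_q`. -/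
def locHullData :
    UCData p (locK p S q) (CS S q) (hullI (CS S q)) (hullQ (CS S q)) :=
  hullData p (CS S q)

lemma hullI_CS_smooth : IsSmooth (locLevelsS S q) (hullI (CS S q)) :=
  hullI_smooth (CS S q) (locLevelsS S q) (CS_smooth S q)

lemma locK_smooth : (locK p S q).Smooth (locLevelsS S q) :=
  hullK_smooth p (CS S q) (locLevelsS S q) (CS_smooth S q)

/-- The `S`-levels are levels. -/
lemma locLevelsS_subset : (locLevelsS S q).sets ⊆ (locLevelsAll q).sets := by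
  rintro _ ⟨V, hV, rfl⟩
  exact ⟨V, levelsS_sets_subset S hV, rfl⟩

end Concrete

/-! ### The formation of the smooth units `smUnits 𝓛 (locAct q)` -/

section Lq

variable (q : Nat.Primes) (𝓛 : Levels (primeLocalGaloisGroup q))

lemma primeLocal_smul_units (g : primeLocalGaloisGroup q) (u : (PadicAlgCl (q : ℕ))ˣ) :
    ((g • u : (PadicAlgCl (q : ℕ))ˣ) : PadicAlgCl (q : ℕ)) = locAct q g (u : PadicAlgCl (q : ℕ)) :=
  (isLocalGal_LG (q := (q : ℕ))).1 g u

/-- The inclusion of `smUnits 𝓛 (locAct q)` into the units of `Ω`. -/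
def lqJ : ↥(Fermat.Agent.F4.smUnits 𝓛 (locAct q)) →+ Additive (PadicAlgCl (q : ℕ))ˣ where
  toFun x := Additive.ofMul (Fermat.Agent.F4.smUnits.val x)
  map_zero' := rfl
  map_add' _ _ := rfl

lemma lqJ_apply (x : ↥(Fermat.Agent.F4.smUnits 𝓛 (locAct q))) :
    lqJ q 𝓛 x = Additive.ofMul (Fermat.Agent.F4.smUnits.val x) := rfl

lemma lqJ_injective : Function.Injective (lqJ q 𝓛) := fun _ _ h =>
  Fermat.Agent.F4.smUnits.val_injective (Additive.ofMul.injective h)

lemma lqJ_ρ (g : primeLocalGaloisGroup q) (c : ↥(Fermat.Agent.F4.smUnits 𝓛 (locAct q))) :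
    lqJ q 𝓛 ((Fermat.Agent.F4.smUnits 𝓛 (locAct q)).ρ g c)
      = Additive.ofMul (g • Additive.toMul (lqJ q 𝓛 c)) := by
  apply congrArg Additive.ofMul
  apply Units.ext
  rw [primeLocal_smul_units]
  rfl

lemma mem_smUnitsSub_locAct_iff (u : (PadicAlgCl (q : ℕ))ˣ) :
    u ∈ Fermat.Agent.F4.smUnitsSub 𝓛 (locAct q) ↔ ∃ V ∈ 𝓛.sets, IsFixedBy V u := by
  constructor
  · rintro ⟨V, hV, h⟩
    exact ⟨V, hV, fun g hg => Units.ext ((primeLocal_smul_units q g u).trans (h g hg))⟩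
  · rintro ⟨V, hV, h⟩
    exact ⟨V, hV, fun g hg => (primeLocal_smul_units q g u).symm.trans (congrArg Units.val (h g hg))⟩

lemma lqJ_range (u : (PadicAlgCl (q : ℕ))ˣ) :
    (∃ c : ↥(Fermat.Agent.F4.smUnits 𝓛 (locAct q)), lqJ q 𝓛 c = Additive.ofMul u)
      ↔ ∃ V ∈ 𝓛.sets, IsFixedBy V u := by
  rw [← mem_smUnitsSub_locAct_iff]
  constructor
  · rintro ⟨c, hc⟩
    have : Fermat.Agent.F4.smUnits.val c = u := Additive.ofMul.injective hc
    rw [← this]
    exact Fermat.Agent.F4.smUnits.val_mem c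
  · intro hu
    exact ⟨Fermat.Agent.F4.smUnits.mk u hu, rfl⟩

/-- The element of `smUnits 𝓛 (locAct q)` attached to a unit fixed by a level. -/
def lqMk (u : (PadicAlgCl (q : ℕ))ˣ) (hu : ∃ V ∈ 𝓛.sets, IsFixedBy V u) :
    ↥(Fermat.Agent.F4.smUnits 𝓛 (locAct q)) :=
  Fermat.Agent.F4.smUnits.mk u ((mem_smUnitsSub_locAct_iff q 𝓛 u).2 hu)

lemma lqJ_mk (u : (PadicAlgCl (q : ℕ))ˣ) (hu : ∃ V ∈ 𝓛.sets, IsFixedBy V u) :
    lqJ q 𝓛 (lqMk q 𝓛 u hu) = Additive.ofMul u := rfl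

/-- **The formation of the smooth units.** -/
def locFormation_lq (hopen : ∀ V ∈ 𝓛.sets, IsOpenSub (q : ℕ) V) :
    LocFormation (q : ℕ) 𝓛 (Fermat.Agent.F4.smUnits 𝓛 (locAct q)) where
  isLocalGal := isLocalGal_LG (q := (q : ℕ))
  isOpenSub := hopen
  j := lqJ q 𝓛
  j_inj := lqJ_injective q 𝓛
  j_comm := lqJ_ρ q 𝓛
  j_range := lqJ_range q 𝓛

end Lq

end Fermat.Agent.F4.Loc

end
end MergeWrap_F4_Loc_Datum_Defs

section MergeWrap_F4_Loc_Datum_Open -- from F4/Loc/Datum/Open.lean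

/-!
# F4 / Loc / Datum / Open : the levels of the local Galois group are open (DATUM, helper26)

`Γ = LG q = Gal(PadicAlgCl q / ℚ_q)`, `r = localGaloisToGlobal q : Γ →* Gal(ℚ̄/ℚ)`,
`ι = padicEmbedding q`.

* `mem_comap_fixingSubgroup_iff` : `τ ∈ r⁻¹(Fix F) ↔ τ` fixes `ι(F)` pointwise;
* `isOpenSub_comap_fixingSubgroup` : `r⁻¹(Fix F)` is `IsOpenSub` for `F/ℚ` finite;
* `exists_level_fixing` (Krasner) : every `x ∈ Ω` is fixed by `r⁻¹(Fix F)` for some finite stable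
  `F/ℚ`;
* `IsOpenSub.exists_level_le` (Krasner) : every open subgroup of `Γ` contains some `r⁻¹(Fix F)`,
  `F/ℚ` finite and stable.
-/

set_option autoImplicit false
set_option linter.unusedSectionVars false

open scoped NNReal
open IntermediateField

namespace Fermat.Agent.F4.Loc

variable (q : ℕ) [Fact q.Prime]

/-- `r(τ)` fixes `x` iff `τ` fixes `ι x`. -/
theorem localGaloisToGlobal_apply_eq_iff (τ : LG q) (x : AlgebraicClosure ℚ) :
    localGaloisToGlobal q τ x = x ↔ τ (padicEmbedding q x) = padicEmbedding q x := by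
  rw [← padicEmbedding_localGaloisToGlobal]
  exact ⟨fun h => by rw [h], fun h => (padicEmbedding q).toRingHom.injective h⟩

/-- `τ ∈ r⁻¹(Fix F)` iff `τ` fixes `ι(F)` pointwise. -/
theorem mem_comap_fixingSubgroup_iff (F : IntermediateField ℚ (AlgebraicClosure ℚ)) (τ : LG q) :
    τ ∈ F.fixingSubgroup.comap (localGaloisToGlobal q) ↔
      ∀ x ∈ F, τ (padicEmbedding q x) = padicEmbedding q x := by
  rw [Subgroup.mem_comap, IntermediateField.mem_fixingSubgroup_iff]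
  exact forall₂_congr fun x _ => localGaloisToGlobal_apply_eq_iff q τ x

/-- The pullback of the fixing subgroup of a finite extension of `ℚ` is open. -/
theorem isOpenSub_comap_fixingSubgroup (F : IntermediateField ℚ (AlgebraicClosure ℚ))
    [FiniteDimensional ℚ F] :
    IsOpenSub q (F.fixingSubgroup.comap (localGaloisToGlobal q)) := by
  classical
  set b := Module.finBasis ℚ F with hb
  refine ⟨Finset.univ.image (fun i => padicEmbedding q ((b i : F) : AlgebraicClosure ℚ)),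
    fun τ => ?_⟩
  rw [mem_comap_fixingSubgroup_iff]
  constructor
  · intro h x hx
    obtain ⟨i, -, rfl⟩ := Finset.mem_image.1 hx
    exact h _ (b i).2
  · intro h x hx
    have hfix : ∀ i, localGaloisToGlobal q τ ((b i : F) : AlgebraicClosure ℚ)
        = ((b i : F) : AlgebraicClosure ℚ) := fun i =>
      (localGaloisToGlobal_apply_eq_iff q τ _).2
        (h _ (Finset.mem_image.2 ⟨i, Finset.mem_univ i, rfl⟩))
    rw [← localGaloisToGlobal_apply_eq_iff]
    have hx' : x = ∑ i, b.repr ⟨x, hx⟩ i • ((b i : F) : AlgebraicClosure ℚ) := by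
      have h0 : ((∑ i, b.repr ⟨x, hx⟩ i • b i : F) : AlgebraicClosure ℚ) = x :=
        congrArg Subtype.val (b.sum_repr ⟨x, hx⟩)
      rw [IntermediateField.coe_sum] at h0
      exact h0.symm
    rw [hx', map_sum]
    refine Finset.sum_congr rfl (fun i _ => ?_)
    rw [map_rat_smul, hfix]

/-- **Krasner**: every `x ∈ Ω` is fixed by `r⁻¹(Fix F)` for some finite stable `F/ℚ`. -/
theorem exists_level_fixing_field (E : IntermediateField ℚ_[q] (PadicAlgCl q))
    [FiniteDimensional ℚ_[q] E] :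
    ∃ F : IntermediateField ℚ (AlgebraicClosure ℚ), FiniteDimensional ℚ F ∧
      (∀ (σ : AlgebraicClosure ℚ ≃ₐ[ℚ] AlgebraicClosure ℚ) (x : AlgebraicClosure ℚ),
        x ∈ F → σ x ∈ F) ∧
      ∀ τ ∈ F.fixingSubgroup.comap (localGaloisToGlobal q), ∀ x ∈ E, τ x = x := by
  obtain ⟨F, hFfd, hFst, hEF⟩ := exists_numberField_level q E
  refine ⟨F, hFfd, hFst, fun τ hτ x hx => ?_⟩
  have h1 : τ ∈ (IntermediateField.adjoin ℚ_[q]
      (padicEmbedding q '' (F : Set (AlgebraicClosure ℚ)))).fixingSubgroup := by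
    rw [mem_fixingSubgroup_adjoin_iff]
    rintro _ ⟨y, hy, rfl⟩
    exact (mem_comap_fixingSubgroup_iff q F τ).1 hτ y hy
  exact (IntermediateField.mem_fixingSubgroup_iff _ _).1 h1 x (hEF hx)

theorem exists_level_fixing (x : PadicAlgCl q) :
    ∃ F : IntermediateField ℚ (AlgebraicClosure ℚ), FiniteDimensional ℚ F ∧
      (∀ (σ : AlgebraicClosure ℚ ≃ₐ[ℚ] AlgebraicClosure ℚ) (x : AlgebraicClosure ℚ),
        x ∈ F → σ x ∈ F) ∧
      ∀ τ ∈ F.fixingSubgroup.comap (localGaloisToGlobal q), τ x = x := by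
  have hfd : FiniteDimensional ℚ_[q] ℚ_[q]⟮x⟯ :=
    adjoin.finiteDimensional (Algebra.IsIntegral.isIntegral x)
  obtain ⟨F, hFfd, hFst, h⟩ := exists_level_fixing_field q ℚ_[q]⟮x⟯
  exact ⟨F, hFfd, hFst, fun τ hτ => h τ hτ x (mem_adjoin_simple_self ℚ_[q] x)⟩

/-- **Krasner**: every open subgroup of the local Galois group contains `r⁻¹(Fix F)` for some
finite stable `F/ℚ`. -/
theorem IsOpenSub.exists_level_le {H : Subgroup (LG q)} (hH : IsOpenSub q H) :
    ∃ F : IntermediateField ℚ (AlgebraicClosure ℚ), FiniteDimensional ℚ F ∧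
      (∀ (σ : AlgebraicClosure ℚ ≃ₐ[ℚ] AlgebraicClosure ℚ) (x : AlgebraicClosure ℚ),
        x ∈ F → σ x ∈ F) ∧
      F.fixingSubgroup.comap (localGaloisToGlobal q) ≤ H := by
  obtain ⟨T, hT⟩ := hH
  have hfd : FiniteDimensional ℚ_[q]
      (IntermediateField.adjoin ℚ_[q] (T : Set (PadicAlgCl q))) := by
    have : Finite (T : Set (PadicAlgCl q)) := (Finset.finite_toSet T).to_subtype
    exact IntermediateField.finiteDimensional_adjoin
      (fun x _ => Algebra.IsIntegral.isIntegral x)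
  obtain ⟨F, hFfd, hFst, h⟩ :=
    exists_level_fixing_field q (IntermediateField.adjoin ℚ_[q] (T : Set (PadicAlgCl q)))
  refine ⟨F, hFfd, hFst, fun τ hτ => (hT τ).2 (fun x hx => ?_)⟩
  exact h τ hτ x (IntermediateField.subset_adjoin ℚ_[q] _ (Finset.mem_coe.2 hx))

end Fermat.Agent.F4.Loc
end MergeWrap_F4_Loc_Datum_Open

section MergeWrap_F4_Loc_Datum_Levels -- from F4/Loc/Datum/Levels.lean

/-!
# F4 / Loc / Datum / Levels : the levels of `G_q` are open  (DATUM, seat D-LEV; sorry-free)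

`G_q = primeLocalGaloisGroup q`, `r = primeLocalToGlobal q : G_q → G_ℚ`,
`ι = padicEmbedding q : ℚ̄ → Ω` with `ι (r g x) = g (ι x)` (`padicEmbedding_localGaloisToGlobal`).

* D-LEV-1 `isLocalGal_primeLocal`.
* D-LEV-2 `isOpenSub_locLevelsAll` : `r⁻¹(fix F)` is the stabiliser of `ι(T)`, `T` a finite set of
  generators of `F` (`g ∈ r⁻¹(fix F) ↔ r g` fixes `T` `↔ g` fixes `ι T`, `ι` injective).
* D-LEV-3 `exists_locLevelsAll_le` (Krasner): every open subgroup `H` (stabiliser of a finite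
  `T ⊂ Ω`) contains a level: by `exists_numberField_level` (`F4/Loc/Krasner.lean`) the field
  `ℚ_q(T)` is contained in `ℚ_q(ι F)` for a finite Galois `F/ℚ` inside `ℚ̄`.
* D-LEV-4 `exists_locLevelsS_fixing_roots` : for `p ∈ S` the `p^k`-th roots of unity of `Ω` are
  fixed by an `S`-level (they are `ι` of the roots of unity of `ℚ̄`; `ℚ(μ_{p^k})` is unramified
  outside `p`: `br_smooth_mem_levelsS` + `Cyclo.padicChar_inertia`, cf. `isSmooth_Fp1`).
-/

set_option autoImplicit false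

open CategoryTheory groupCohomology ExtCitation

namespace Fermat.Agent.F4.Loc

variable (S : Finset Nat.Primes) (q : Nat.Primes)

/-- **D-LEV-1.** -/
theorem isLocalGal_primeLocal : IsLocalGal (q : ℕ) (primeLocalGaloisGroup q) :=
  isLocalGal_LG (q := (q : ℕ))

/-- **D-LEV-2.**  The levels of `G_q` are open. -/
theorem isOpenSub_locLevelsAll {V : Subgroup (primeLocalGaloisGroup q)}
    (hV : V ∈ (locLevelsAll q).sets) : IsOpenSub (q : ℕ) V := by
  obtain ⟨W, ⟨F, hF, -, rfl⟩, rfl⟩ := hV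
  have := hF
  exact isOpenSub_comap_fixingSubgroup (q : ℕ) F

/-- The `S`-levels of `G_q` are open. -/
theorem isOpenSub_locLevelsS {V : Subgroup (primeLocalGaloisGroup q)}
    (hV : V ∈ (locLevelsS S q).sets) : IsOpenSub (q : ℕ) V :=
  isOpenSub_locLevelsAll q (locLevelsS_subset S q hV)

/-- **D-LEV-3 (Krasner).**  Every open subgroup of `G_q` contains a level. -/
theorem exists_locLevelsAll_le {H : Subgroup (primeLocalGaloisGroup q)}
    (hH : IsOpenSub (q : ℕ) H) : ∃ V ∈ (locLevelsAll q).sets, V ≤ H := by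
  obtain ⟨F, hF, hst, hle⟩ := IsOpenSub.exists_level_le (q : ℕ) (H := H) hH
  exact ⟨_, ⟨F.fixingSubgroup, ⟨F, hF, hst, rfl⟩, rfl⟩, hle⟩

/-- Every unit of `Ω` is fixed by a level. -/
theorem exists_locLevelsAll_fixing (u : (PadicAlgCl (q : ℕ))ˣ) :
    ∃ V ∈ (locLevelsAll q).sets, IsFixedBy V u := by
  obtain ⟨W, -, hW, hfix⟩ := exists_open_fixing (isLocalGal_primeLocal q) (u : PadicAlgCl (q : ℕ))
  obtain ⟨V, hV, hVW⟩ := exists_locLevelsAll_le q hW
  refine ⟨V, hV, fun g hg => Units.ext ?_⟩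
  rw [(isLocalGal_primeLocal q).1]
  exact hfix g (hVW hg)

/-- **D-LEV-4.**  For `p ∈ S`, the `p^k`-th roots of unity are fixed by an `S`-level. -/
theorem exists_locLevelsS_fixing_roots (p : ℕ) [Fact p.Prime] (hpS : pPrime p ∈ S) (k : ℕ) :
    ∃ V ∈ (locLevelsS S q).sets, ∀ ζ : PadicAlgCl (q : ℕ), ζ ^ (p ^ k) = 1 → IsFixedBy V ζ := by
  have : NeZero (p ^ k) := ⟨pow_ne_zero _ (Fact.out : p.Prime).ne_zero⟩
  obtain ⟨V, hV, h⟩ := exists_locLevelS_fixing_roots p S hpS q k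
  exact ⟨V, hV, fun ζ hζ τ hτ => padicEmbedding_fixes_roots (q : ℕ) (p ^ k) τ (h τ hτ) hζ⟩

/-- The formation of the `S`-smooth units over `G_q`. -/
noncomputable def formationSTop :
    LocFormation (q : ℕ) (locLevelsS S q) (CS S q) :=
  locFormation_lq q (locLevelsS S q) (fun _ hV => isOpenSub_locLevelsS S q hV)

/-- The formation of all units over `G_q`. -/
noncomputable def formationAllTop :
    LocFormation (q : ℕ) (locLevelsAll q) (CAll q) :=
  locFormation_lq q (locLevelsAll q) (fun _ hV => isOpenSub_locLevelsAll q hV)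

/-- The formation of the `S`-smooth units over an open subgroup `U` of `G_q`. -/
noncomputable def formationS (U : Subgroup (primeLocalGaloisGroup q))
    (hU : (locLevelsS S q).IsOpen U) :
    LocFormation (q : ℕ) ((locLevelsS S q).sub U) (Rep.res U.subtype (CS S q)) :=
  (formationSTop S q).res U hU

/-- The formation of all units over an open subgroup `U` of `G_q`. -/
noncomputable def formationAll (U : Subgroup (primeLocalGaloisGroup q))
    (hU : (locLevelsAll q).IsOpen U) :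
    LocFormation (q : ℕ) ((locLevelsAll q).sub U) (Rep.res U.subtype (CAll q)) :=
  (formationAllTop q).res U hU

end Fermat.Agent.F4.Loc
end MergeWrap_F4_Loc_Datum_Levels
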