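import Fermat.Agent.MU.F4.Loc.Datum.Levels
import Fermat.Agent.MU.F4.UC.Bridge
import Fermat.Agent.MU.F4.Loc.LocalGal
import Fermat.Agent.MU.F4.Loc.Base
import Fermat.Agent.F4.Loc.KummerFin
import Fermat.Agent.MU.F4.Cf.RecipDefs

section MergeWrap_F4_Loc_Datum_Mu -- from F4/Loc/Datum/Mu.lean

/-!
# F4 / Loc / Datum / Mu : `μ_p` inside the units of `Ω`  (DATUM)

`φ : Fp1 p →+ EsRep S` a global root map (injective, equivariant; `IsRootMap` of `F4/Cf/Recip.lean`,
here with the properties as explicit hypotheses).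

* `inclSA S q : LqS S q →+ LqAll q` : the inclusion;
* `muS φ q : μ_p → LqS S q`, `m ↦ ι_q (φ m)`; `muA φ q = inclSA ∘ muS`;
* `muS_comm`, `muS_injective`, `muA_comm`, `muA_injective`, `muA_range`;
* `LqAll_div` : `LqAll q` is `p`-divisible;
* `locEps φ hφ q : CxHom (locMu p q) (locK p S q)`;
* `muData φ … : UCData p (locMu p q) (LqAll q) (LqAll q) 0`.
-/

set_option autoImplicit false
set_option linter.unusedSectionVars false

open CategoryTheory groupCohomology ExtCitation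

noncomputable section

namespace Fermat.Agent.F4.Loc

/-! ### The inclusion `LqS → LqAll` -/

section Incl

variable (S : Finset Nat.Primes) (q : Nat.Primes)

lemma smUnitsSub_S_le_All :
    Fermat.Agent.F4.smUnitsSub (locLevelsS S q) (locAct q)
      ≤ Fermat.Agent.F4.smUnitsSub (locLevelsAll q) (locAct q) := by
  rintro u ⟨V, hV, h⟩
  exact ⟨V, locLevelsS_subset S q hV, h⟩

/-- The inclusion `LqS S q → LqAll q`. -/
def inclSA : ↥(LqS S q) →+ ↥(LqAll q) where
  toFun x := Fermat.Agent.F4.smUnits.mk (Fermat.Agent.F4.smUnits.val x)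
    (smUnitsSub_S_le_All S q (Fermat.Agent.F4.smUnits.val_mem x))
  map_zero' := rfl
  map_add' _ _ := rfl

@[simp] lemma inclSA_val (x : ↥(LqS S q)) :
    Fermat.Agent.F4.smUnits.val (inclSA S q x) = Fermat.Agent.F4.smUnits.val x := rfl

lemma inclSA_injective : Function.Injective (inclSA S q) := fun x y h =>
  Fermat.Agent.F4.smUnits.val_injective
    ((inclSA_val S q x).symm.trans ((congrArg Fermat.Agent.F4.smUnits.val h).trans (inclSA_val S q y)))

lemma inclSA_comm (g : primeLocalGaloisGroup q) (x : ↥(LqS S q)) :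
    inclSA S q ((LqS S q).ρ g x) = (LqAll q).ρ g (inclSA S q x) := rfl

lemma lqJ_inclSA (x : ↥(LqS S q)) :
    lqJ q (locLevelsAll q) (inclSA S q x) = lqJ q (locLevelsS S q) x := rfl

end Incl

/-! ### `LqAll` is divisible -/

section Div

variable (q : Nat.Primes)

/-- Every unit of `Ω` is in `LqAll q`. -/
lemma mem_smUnitsSub_All (u : (PadicAlgCl (q : ℕ))ˣ) :
    u ∈ Fermat.Agent.F4.smUnitsSub (locLevelsAll q) (locAct q) :=
  (mem_smUnitsSub_locAct_iff q (locLevelsAll q) u).2 (exists_locLevelsAll_fixing q u)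

/-- The units of `Ω` are `n`-divisible. -/
theorem LqAll_div (n : ℕ) (hn : n ≠ 0) (x : ↥(LqAll q)) : ∃ y : ↥(LqAll q), (n : ℤ) • y = x := by
  have hpos : 0 < n := Nat.pos_of_ne_zero hn
  obtain ⟨v, hv⟩ := IsAlgClosed.exists_pow_nat_eq
    ((Fermat.Agent.F4.smUnits.val x : (PadicAlgCl (q : ℕ))ˣ) : PadicAlgCl (q : ℕ)) hpos
  have hv0 : v ≠ 0 := by
    rintro rfl
    rw [zero_pow hn] at hv
    exact (Fermat.Agent.F4.smUnits.val x).ne_zero hv.symm
  refine ⟨Fermat.Agent.F4.smUnits.mk (Units.mk0 v hv0) (mem_smUnitsSub_All q _), ?_⟩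
  apply Fermat.Agent.F4.smUnits.val_injective
  rw [Fermat.Agent.F4.smUnits.val_zsmul, Fermat.Agent.F4.smUnits.val_mk, zpow_natCast]
  apply Units.ext
  rw [Units.val_pow_eq_pow_val, Units.val_mk0, hv]

end Div

/-! ### The root map -/

section Root

variable {p : ℕ} [Fact p.Prime] {S : Finset Nat.Primes} (φ : Fp1 p →+ EsRep S) (q : Nat.Primes)

/-- `μ_p → LqS S q`, `m ↦ ι_q (φ m)`. -/
def muS : ↥(Rep.res (primeLocalToGlobal q) (Fp1 p)) →+ ↥(LqS S q) :=
  (locUnit S q).comp ((EsIncl S).comp φ)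

lemma muS_apply (m : ↥(Rep.res (primeLocalToGlobal q) (Fp1 p))) :
    muS φ q m = locUnit S q (EsIncl S (φ m)) := rfl

/-- `μ_p → LqAll q`. -/
def muA : ↥(Rep.res (primeLocalToGlobal q) (Fp1 p)) →+ ↥(LqAll q) :=
  (inclSA S q).comp (muS φ q)

lemma muA_apply (m : ↥(Rep.res (primeLocalToGlobal q) (Fp1 p))) :
    muA φ q m = inclSA S q (muS φ q m) := rfl

variable (hinj : Function.Injective φ)
  (hcomm : ∀ (g : GQ) (x : Fp1 p), φ ((Fp1 p).ρ g x) = (EsRep S).ρ g (φ x))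

include hcomm in
lemma muS_comm (g : primeLocalGaloisGroup q) (m : ↥(Rep.res (primeLocalToGlobal q) (Fp1 p))) :
    muS φ q ((Rep.res (primeLocalToGlobal q) (Fp1 p)).ρ g m) = (LqS S q).ρ g (muS φ q m) := by
  show locUnit S q (EsIncl S (φ ((Fp1 p).ρ (primeLocalToGlobal q g) m))) = _
  rw [hcomm]
  exact locUnit_comm S q g (EsIncl S (φ m))

include hinj in
lemma muS_injective : Function.Injective (muS φ q) := fun _ _ h =>
  hinj (subIncl_injective _ _ _ (locUnit_injective S q h))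

include hcomm in
lemma muA_comm (g : primeLocalGaloisGroup q) (m : ↥(Rep.res (primeLocalToGlobal q) (Fp1 p))) :
    muA φ q ((Rep.res (primeLocalToGlobal q) (Fp1 p)).ρ g m) = (LqAll q).ρ g (muA φ q m) := by
  rw [muA_apply, muS_comm φ q hcomm, inclSA_comm]
  rfl

include hinj in
lemma muA_injective : Function.Injective (muA φ q) := fun _ _ h =>
  muS_injective φ q hinj (inclSA_injective S q h)

/-- The value of `muA` in `Ω`. -/
def muVal (m : ZMod p) : PadicAlgCl (q : ℕ) :=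
  ((Fermat.Agent.F4.smUnits.val (muA φ q m) : (PadicAlgCl (q : ℕ))ˣ) : PadicAlgCl (q : ℕ))

lemma muVal_add (a b : ZMod p) : muVal φ q (a + b) = muVal φ q a * muVal φ q b := by
  unfold muVal
  rw [map_add, Fermat.Agent.F4.smUnits.val_add, Units.val_mul]

lemma muVal_zero : muVal φ q 0 = 1 := by
  unfold muVal
  rw [map_zero]
  rfl

lemma muVal_natCast (n : ℕ) : muVal φ q (n : ZMod p) = muVal φ q 1 ^ n := by
  induction n with
  | zero => rw [Nat.cast_zero, muVal_zero, pow_zero]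
  | succ n ih => rw [Nat.cast_succ, muVal_add, ih, pow_succ]

include hinj in
lemma muVal_one_isPrimitiveRoot : IsPrimitiveRoot (muVal φ q 1) p := by
  have hp : p.Prime := Fact.out
  have h1 : muVal φ q 1 ^ p = 1 := by
    rw [← muVal_natCast, ZMod.natCast_self, muVal_zero]
  have h2 : muVal φ q 1 ≠ 1 := by
    intro h
    have h3 : muA φ q (1 : ZMod p) = muA φ q (0 : ZMod p) := by
      apply Fermat.Agent.F4.smUnits.val_injective
      apply Units.ext
      show muVal φ q 1 = muVal φ q 0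
      rw [h, muVal_zero]
    have h4 := muA_injective φ q hinj h3
    have : Fact (1 < p) := ⟨hp.one_lt⟩
    exact one_ne_zero h4
  rw [IsPrimitiveRoot.iff_orderOf]
  exact orderOf_eq_prime h1 h2

include hinj in
/-- The image of `muA` is the `p`-torsion of `LqAll q`. -/
theorem muA_range (c : ↥(LqAll q)) (hc : (p : ℤ) • c = 0) : ∃ m, muA φ q m = c := by
  have hp : p.Prime := Fact.out
  have : NeZero p := ⟨hp.ne_zero⟩
  have h1 : ((Fermat.Agent.F4.smUnits.val c : (PadicAlgCl (q : ℕ))ˣ) : PadicAlgCl (q : ℕ)) ^ p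
      = 1 := by
    have := congrArg Fermat.Agent.F4.smUnits.val hc
    rw [Fermat.Agent.F4.smUnits.val_zsmul, zpow_natCast] at this
    rw [← Units.val_pow_eq_pow_val, this]
    rfl
  obtain ⟨i, -, hi⟩ := (muVal_one_isPrimitiveRoot φ q hinj).eq_pow_of_pow_eq_one h1
  refine ⟨((i : ZMod p) : ZMod p), ?_⟩
  apply Fermat.Agent.F4.smUnits.val_injective
  apply Units.ext
  show muVal φ q (i : ZMod p) = _
  rw [muVal_natCast, hi]

/-- **`ε : μ_p → K_q`.** -/
def locEps : CxHom (locMu p q) (locK p S q) :=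
  hullEps (Rep.res (primeLocalToGlobal q) (Fp1 p)) (muS φ q) (muS_comm φ q hcomm)

include hinj in
theorem locEps_injective : Function.Injective (locEps φ q hcomm).f0 :=
  hullEps_f0_injective _ _ _ (muS_injective φ q hinj)

lemma locEps_compat (m : Fp1 p) :
    (locHullData p S q).i0 ((locEps φ q hcomm).f0 m)
      = (locHullData p S q).ι (locUnit S q (EsIncl S (φ m))) := rfl

/-- **The universal-coefficient datum of `μ_p = Ωˣ[p]`.** -/
def muData : UCData p (locMu p q) (CAll q) (CAll q) (zeroRep (primeLocalGaloisGroup q)) where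
  ι := AddMonoidHom.id _
  π := 0
  i0 := muA φ q
  i1 := 0
  ι_inj := fun _ _ h => h
  π_surj := fun _ => ⟨0, Subsingleton.elim _ _⟩
  exact := fun x => ⟨fun _ => ⟨x, rfl⟩, fun _ => Subsingleton.elim _ _⟩
  ι_comm := fun _ _ => rfl
  π_comm := fun _ _ => Subsingleton.elim _ _
  i0_comm := muA_comm φ q hcomm
  i1_comm := fun _ _ => Subsingleton.elim _ _
  i0_inj := muA_injective φ q hinj
  i1_inj := fun a b _ => @Subsingleton.elim PUnit.{1} inferInstance a b
  i0_range := muA_range φ q hinj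
  i1_range := fun _ _ => ⟨0, Subsingleton.elim _ _⟩
  comm := fun _ => Subsingleton.elim _ _
  div := LqAll_div q p (Fact.out : p.Prime).ne_zero

end Root

end Fermat.Agent.F4.Loc

end
end MergeWrap_F4_Loc_Datum_Mu

section MergeWrap_F4_Loc_Datum_Compare -- from F4/Loc/Datum/Compare.lean

/-!
# F4 / Loc / Datum / Compare : comparison of `HH²` along an inclusion of formations
(DATUM, seat D-PHI — abstract universal-coefficient algebra, no number theory; sorry-free)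

`𝓤 ⊆ 𝓥` two level structures on `G`; `D : UCData p K C I Q` (smooth for `𝓤`),
`D' : UCData p K' C' I' Q'` (smooth for `𝓥`), `K'¹ = 0`; `j : C → C'` equivariant;
`ε : K' → K` a morphism of complexes with `ε⁰ = "φ"` on `p`-torsion
(`c1 : D.i0 (ε.f0 m) = D.ι (φ m)`, `c2 : D'.i0 m = D'.ι (j (φ m))`).

If `H¹(𝓤, C) = 0`, `H¹(𝓥, C') = 0` and `j_* : H²(𝓤, C) → H²(𝓥, C')` is injective (`hMA`), then
`Φ = β'₂⁻¹ ∘ j_* ∘ β₂ : HH²(𝓤, K) → HH²(𝓥, K')` is an injective linear map with `Φ ∘ ε_* = ` the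
change of levels.

Proof sketch.  `D.β2 hI : HH2 𝓤 K →+ H2sm 𝓤 C` and `D'.β2 hI'` are injective
(`UCData.β2_injective_of_H1`), with image the `p`-torsion (`β2_range`).  For `x : HH2 𝓤 K` choose
`z ∈ ZZ2 𝓤 K`, `w ∈ Z2 𝓤 C` with `Rel2 z w` (`Rel2.exists`); `j ∘ w ∈ Z2 𝓥 C'` is killed by `p`
modulo `B2` (`Rel2.p_smul_mem_B2`), so `Rel2.surj` gives `z' ∈ ZZ2 𝓥 K'` with
`D'.Rel2 𝓥 z' (j ∘ w)`; `Φ x := [z']`.  Well defined and additive by `mem_BB2_of_rel2` for `D'`;
injective by `hMA` + `mem_BB2_of_rel2` for `D`.  Compatibility: for `z : T2 K'`, `Rel2` holds for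
`(ε z, φ ∘ z.1)` and `(z, j ∘ φ ∘ z.1)` with `y = 0` (`c1`, `c2`, `K'.K1` subsingleton).
-/

set_option autoImplicit false

open CategoryTheory groupCohomology

namespace Fermat.Agent.F4.Loc

section Aux

variable {G : Type} [Group G] {𝓤 𝓥 : Levels G}

lemma cmp_isLC₁_mono (hUV : 𝓤.sets ⊆ 𝓥.sets) {X : Type*} {f : G → X} (h : IsLC₁ 𝓤 f) :
    IsLC₁ 𝓥 f := by
  obtain ⟨U, hU, hf⟩ := h
  exact ⟨U, hUV hU, hf⟩

lemma cmp_isLC₂_mono (hUV : 𝓤.sets ⊆ 𝓥.sets) {X : Type*} {f : G × G → X} (h : IsLC₂ 𝓤 f) :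
    IsLC₂ 𝓥 f := by
  obtain ⟨U, hU, hf⟩ := h
  exact ⟨U, hUV hU, hf⟩

variable {C C' : Rep.{0} ℤ G} (j : C →+ C')
  (hj : ∀ (g : G) (c : C), j (C.ρ g c) = C'.ρ g (j c))

include hj

lemma cmp_j_δ1 (c : G → C) (q : G × G) : j (δ1 C c q) = δ1 C' (fun g => j (c g)) q := by
  simp only [δ1_apply, map_sub, map_add, hj]

lemma cmp_j_δ2 (c : G × G → C) (q : G × G × G) :
    j (δ2 C c q) = δ2 C' (fun g => j (c g)) q := by
  simp only [δ2_apply, map_sub, map_add, hj]

lemma cmp_mem_Z2 (hUV : 𝓤.sets ⊆ 𝓥.sets) {w : G × G → C} (hw : w ∈ Z2 𝓤 C) :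
    (fun q => j (w q)) ∈ Z2 𝓥 C' := by
  obtain ⟨h1, h2⟩ := (UC.mem_Z2 𝓤 C w).1 hw
  refine (UC.mem_Z2 𝓥 C' _).2 ⟨?_, cmp_isLC₂_mono hUV (UC.isLC₂_map j h2)⟩
  funext q
  rw [← cmp_j_δ2 j hj, h1]
  simp only [Pi.zero_apply, map_zero]

lemma cmp_mem_B2 (hUV : 𝓤.sets ⊆ 𝓥.sets) {w : G × G → C} (hw : w ∈ B2 𝓤 C) :
    (fun q => j (w q)) ∈ B2 𝓥 C' := by
  obtain ⟨e, he, rfl⟩ := (UC.mem_B2 𝓤 C w).1 hw
  exact (UC.mem_B2 𝓥 C' _).2 ⟨fun g => j (e g), cmp_isLC₁_mono hUV (UC.isLC₁_map j he),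
    funext fun q => (cmp_j_δ1 j hj e q).symm⟩

/-- `j_*` on smooth 2-cocycles (with change of levels). -/
def cmpZ (hUV : 𝓤.sets ⊆ 𝓥.sets) : ↥(Z2 𝓤 C) →+ ↥(Z2 𝓥 C') where
  toFun w := ⟨fun q => j ((w : G × G → C) q), cmp_mem_Z2 j hj hUV w.2⟩
  map_zero' := Subtype.ext (funext fun _ => map_zero j)
  map_add' _ _ := Subtype.ext (funext fun _ => map_add j _ _)

/-- `j_* : H²(𝓤, C) → H²(𝓥, C')`. -/
def cmpH (hUV : 𝓤.sets ⊆ 𝓥.sets) : H2sm 𝓤 C →+ H2sm 𝓥 C' :=
  QuotientAddGroup.lift _ ((H2smπ 𝓥 C').toAddMonoidHom.comp (cmpZ j hj hUV)) (by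
    intro w hw
    have hw' : (w : G × G → C) ∈ B2 𝓤 C := hw
    rw [AddMonoidHom.mem_ker]
    show H2smπ 𝓥 C' _ = 0
    rw [UC.H2smπ_eq_zero_iff]
    exact cmp_mem_B2 j hj hUV hw')

lemma cmpH_mk (hUV : 𝓤.sets ⊆ 𝓥.sets) (w : ↥(Z2 𝓤 C)) :
    cmpH j hj hUV (H2smπ 𝓤 C w) = H2smπ 𝓥 C' (cmpZ j hj hUV w) := rfl

end Aux

/-- **D-PHI (abstract).**  Comparison of `HH²` along an inclusion of formations. -/
theorem exists_compare_HH2 {G : Type} [Group G] {p : ℕ} [Fact p.Prime]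
    {𝓤 𝓥 : Levels G} (hUV : 𝓤.sets ⊆ 𝓥.sets)
    {K K' : Cx (ZMod p) G} {C I Q C' I' Q' : Rep.{0} ℤ G}
    (D : UCData p K C I Q) (D' : UCData p K' C' I' Q')
    (hI : IsSmooth 𝓤 I) (hI' : IsSmooth 𝓥 I')
    (hK1 : Subsingleton K'.K1)
    (j : C →+ C') (hj : ∀ (g : G) (c : C), j (C.ρ g c) = C'.ρ g (j c))
    (ε : CxHom K' K) (φ : K'.K0 →+ C)
    (c1 : ∀ m : K'.K0, D.i0 (ε.f0 m) = D.ι (φ m))
    (c2 : ∀ m : K'.K0, D'.i0 m = D'.ι (j (φ m)))
    (h90 : UC.H90sm 𝓤 C) (h90' : UC.H90sm 𝓥 C')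
    (hMA : ∀ w : G × G → C, w ∈ Z2 𝓤 C → (fun x => j (w x)) ∈ B2 𝓥 C' → w ∈ B2 𝓤 C) :
    ∃ Φ : HH2 𝓤 K →ₗ[ZMod p] HH2 𝓥 K', Function.Injective Φ ∧
      ∀ (z : T2 K') (hz : z ∈ ZZ2 𝓤 K') (hz' : z ∈ ZZ2 𝓥 K'),
        Φ (HH2π 𝓤 K (ε.mapZZ2 𝓤 ⟨z, hz⟩)) = HH2π 𝓥 K' ⟨z, hz'⟩ := by
  classical
  have hβ : Function.Injective (D.β2 hI) := D.β2_injective_of_H1 hI h90
  have hβ' : Function.Injective (D'.β2 hI') := D'.β2_injective_of_H1 hI' h90'
  have hJinj : Function.Injective (cmpH j hj hUV) := by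
    rw [injective_iff_map_eq_zero]
    intro x hx
    obtain ⟨w, rfl⟩ := UC.H2smπ_surjective C x
    rw [cmpH_mk, UC.H2smπ_eq_zero_iff] at hx
    rw [UC.H2smπ_eq_zero_iff]
    exact hMA _ w.2 hx
  have hex : ∀ x : HH2 𝓤 K, ∃ y : HH2 𝓥 K', D'.β2 hI' y = cmpH j hj hUV (D.β2 hI x) := by
    intro x
    rw [D'.β2_range hI', ← map_zsmul, ← map_zsmul, UC.p_smul_eq_zero, map_zero, map_zero]
  choose Φ₀ hΦ₀ using hex
  have hadd : ∀ x y, Φ₀ (x + y) = Φ₀ x + Φ₀ y := fun x y =>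
    hβ' (by rw [hΦ₀, map_add, map_add, map_add, hΦ₀, hΦ₀])
  refine ⟨(AddMonoidHom.mk' Φ₀ hadd).toZModLinearMap p, ?_, ?_⟩
  · intro x y h
    have h' : Φ₀ x = Φ₀ y := h
    apply hβ
    apply hJinj
    rw [← hΦ₀, ← hΦ₀, h']
  · intro z hz hz'
    show Φ₀ _ = _
    apply hβ'
    rw [hΦ₀]
    have hzero : ∀ g, z.2 g = 0 := fun g => Subsingleton.elim _ _
    have hrel : D.Rel2 𝓤 (ε.onT2 z) (fun q => φ (z.1 q)) := by
      refine ⟨fun _ => 0, isLC₁_const 𝓤 (0 : I), fun g => ?_, fun q => ?_⟩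
      · show D.π 0 = D.i1 (ε.f1 (z.2 g))
        rw [hzero, map_zero, map_zero, map_zero]
      · show D.ι (φ (z.1 q)) = D.i0 (ε.f0 (z.1 q)) - δ1 I (fun _ => 0) q
        rw [c1]
        simp only [δ1_apply, map_zero, sub_self, add_zero, sub_zero]
    have hεz : ε.onT2 z ∈ ZZ2 𝓤 K := ε.onT2_mem_ZZ2 𝓤 hz
    have hw : (fun q => φ (z.1 q)) ∈ Z2 𝓤 C := hrel.mem_Z2 hI hεz
    have hrel' : D'.Rel2 𝓥 z (fun q => j (φ (z.1 q))) := by
      refine ⟨fun _ => 0, isLC₁_const 𝓥 (0 : I'), fun g => ?_, fun q => ?_⟩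
      · show D'.π 0 = D'.i1 (z.2 g)
        rw [hzero, map_zero, map_zero]
      · show D'.ι (j (φ (z.1 q))) = D'.i0 (z.1 q) - δ1 I' (fun _ => 0) q
        rw [c2]
        simp only [δ1_apply, map_zero, sub_self, add_zero, sub_zero]
    rw [D.β2_mk hI (ε.mapZZ2 𝓤 ⟨z, hz⟩) ⟨_, hw⟩ hrel, cmpH_mk]
    exact (D'.β2_mk hI' ⟨z, hz'⟩ (cmpZ j hj hUV ⟨_, hw⟩) hrel').symm

end Fermat.Agent.F4.Loc
end MergeWrap_F4_Loc_Datum_Compare

section MergeWrap_F4_Loc_CycloA -- from F4/Loc/CycloA.lean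

/-!
# F4 / Loc / CycloA : a local field contains finitely many `p`-power roots of unity (seat CYCLO-A)

`exists_bound_pPow_roots_aux` is the statement of `exists_bound_pPow_roots` (`Cyclo.lean`).
-/

set_option autoImplicit false

open scoped NNReal

namespace Fermat.Agent.F4.Loc

section Abstract

variable {E : Type*} [Field E] {Γ₀ : Type*} [LinearOrderedCommGroupWithZero Γ₀]
  (v : Valuation E Γ₀)

/-- A root of unity has valuation one. -/
lemma cycloA_val_eq_one {η : E} {m : ℕ} (hm : m ≠ 0) (h : η ^ m = 1) : v η = 1 := by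
  have h1 : v η ^ m = 1 := by rw [← map_pow, h, map_one]
  exact (pow_eq_one_iff_of_nonneg zero_le hm).1 h1

/-- Geometric sums of an integral element are integral. -/
lemma cycloA_val_geom_le {η : E} (hη : v η ≤ 1) (m : ℕ) :
    v (∑ i ∈ Finset.range m, η ^ i) ≤ 1 := by
  refine v.map_sum_le fun i _ => ?_
  rw [map_pow]
  exact pow_le_one₀ zero_le hη

/-- `v (η ^ m - 1) ≤ v (η - 1)` for integral `η`. -/
lemma cycloA_val_pow_sub_one_le {η : E} (hη : v η ≤ 1) (m : ℕ) :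
    v (η ^ m - 1) ≤ v (η - 1) := by
  have h : η ^ m - 1 = (∑ i ∈ Finset.range m, η ^ i) * (η - 1) := (geom_sum_mul η m).symm
  rw [h, map_mul]
  calc v (∑ i ∈ Finset.range m, η ^ i) * v (η - 1) ≤ 1 * v (η - 1) := by
        gcongr
        exact cycloA_val_geom_le v hη m
    _ = v (η - 1) := one_mul _

/-- A nontrivial `p`-th root of unity `η` has `v p ≤ v (η - 1)`. -/
lemma cycloA_val_p_le_of_pow_eq_one {p : ℕ} (hp : p ≠ 0) {η : E} (h : η ^ p = 1) (h1 : η ≠ 1) :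
    v (p : E) ≤ v (η - 1) := by
  have hη : v η ≤ 1 := (cycloA_val_eq_one v hp h).le
  have hsum : ∑ i ∈ Finset.range p, η ^ i = 0 := by
    have h2 : (∑ i ∈ Finset.range p, η ^ i) * (η - 1) = 0 := by rw [geom_sum_mul, h, sub_self]
    exact (mul_eq_zero.1 h2).resolve_right (sub_ne_zero.2 h1)
  have hp' : (p : E) = -∑ i ∈ Finset.range p, (η ^ i - 1) := by
    rw [Finset.sum_sub_distrib, hsum]
    simp
  rw [hp', Valuation.map_neg]
  refine v.map_sum_le fun i _ => ?_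
  exact cycloA_val_pow_sub_one_le v hη i

/-- A nontrivial `p`-power root of unity `η` has `v p ≤ v (η - 1)`. -/
lemma cycloA_val_p_le {p : ℕ} (hp : p.Prime) {η : E} (j : ℕ) (h : η ^ (p ^ j) = 1) (h1 : η ≠ 1) :
    v (p : E) ≤ v (η - 1) := by
  induction j generalizing η with
  | zero => exact absurd (by simpa using h) h1
  | succ j ih =>
    by_cases h2 : η ^ p = 1
    · exact cycloA_val_p_le_of_pow_eq_one v hp.ne_zero h2 h1
    · have h3 : (η ^ p) ^ (p ^ j) = 1 := by rw [← pow_mul, ← pow_succ', h]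
      have hη : v η ≤ 1 := (cycloA_val_eq_one v (pow_ne_zero _ hp.ne_zero) h).le
      exact (ih h3 h2).trans (cycloA_val_pow_sub_one_le v hη p)

/-- In a local field of characteristic zero the `p`-power roots of unity are finite in number. -/
lemma cycloA_finite [CharZero E] (hv : IsLocalVal v) {p : ℕ} (hp : p.Prime) :
    {z : E | ∃ j : ℕ, z ^ (p ^ j) = 1}.Finite := by
  classical
  have hp0 : (p : E) ≠ 0 := Nat.cast_ne_zero.2 hp.ne_zero
  obtain ⟨R, hR⟩ := finite_units_mod_close v hv (p : E) hp0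
  have hval : ∀ z : E, (∃ j : ℕ, z ^ (p ^ j) = 1) → v z = 1 := by
    rintro z ⟨j, hj⟩
    exact cycloA_val_eq_one v (pow_ne_zero _ hp.ne_zero) hj
  have hpv : v (p : E) ≤ 1 := val_natCast_le_one v p
  choose! r hrR hr0 hr using hR
  refine Set.Finite.of_injOn (f := r) (t := (R : Set E)) (fun z hz => hrR z (hval z hz))
    ?_ R.finite_toSet
  intro z hz z' hz' hzz'
  by_contra hne
  have hz1 := hr z (hval z hz)
  have hz1' := hr z' (hval z' hz')
  rw [← hzz'] at hz1'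
  have hr0' : r z ≠ 0 := hr0 z (hval z hz)
  have hz0 : z ≠ 0 := fun h => by
    have := hval z hz
    rw [h, map_zero] at this
    exact zero_ne_one this
  have hz0' : z' ≠ 0 := fun h => by
    have := hval z' hz'
    rw [h, map_zero] at this
    exact zero_ne_one this
  -- the quotient `z / z'` is a nontrivial `p`-power root of unity
  obtain ⟨j, hj⟩ := hz
  obtain ⟨j', hj'⟩ := hz'
  have hq : (z / z') ^ (p ^ (j + j')) = 1 := by
    rw [div_pow, pow_add, pow_mul, hj, one_pow, mul_comm, pow_mul, hj', one_pow, div_one]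
  have hq1 : z / z' ≠ 1 := fun h => hne (by rwa [div_eq_one_iff_eq hz0'] at h)
  have hle := cycloA_val_p_le v hp (j + j') hq hq1
  -- but `z / z'` is close to `1`
  have hkey : z / z' - 1 = ((z / r z - 1) - (z' / r z - 1)) / (z' / r z) := by
    field_simp
    ring
  have hv' : v (z' / r z) = 1 := by
    rw [map_div₀, hval z' ⟨j', hj'⟩]
    have h1 : v (z / r z) = 1 := by
      have h2 : v (z / r z - 1) < 1 := lt_of_lt_of_le hz1 hpv
      have h3 := Valuation.map_one_add_of_lt (v := v) h2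
      rwa [add_sub_cancel] at h3
    rw [map_div₀, hval z ⟨j, hj⟩] at h1
    rw [one_div] at h1 ⊢
    exact h1
  have hlt : v (z / z' - 1) < v (p : E) := by
    rw [hkey, map_div₀, hv', div_one]
    exact lt_of_le_of_lt (v.map_sub _ _) (max_lt hz1 hz1')
  exact absurd hle (not_le.2 hlt)

/-- A bound for the exponents of the `p`-power roots of unity of a local field. -/
lemma cycloA_bound [CharZero E] (hv : IsLocalVal v) {p : ℕ} (hp : p.Prime) :
    ∃ k : ℕ, ∀ z : E, (∃ j : ℕ, z ^ (p ^ j) = 1) → z ^ (p ^ k) = 1 := by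
  classical
  have hfin := cycloA_finite v hv hp
  choose! J hJ using fun (z : E) (hz : ∃ j : ℕ, z ^ (p ^ j) = 1) => hz
  refine ⟨hfin.toFinset.sup J, fun z hz => ?_⟩
  have hle : J z ≤ hfin.toFinset.sup J :=
    Finset.le_sup (f := J) ((Set.Finite.mem_toFinset hfin).2 hz)
  obtain ⟨d, hd⟩ := Nat.exists_eq_add_of_le hle
  rw [hd, pow_add, pow_mul, hJ z hz, one_pow]

end Abstract

variable {q : ℕ} [Fact q.Prime]
variable {Γ : Type} [Group Γ] [MulSemiringAction Γ (PadicAlgCl q)]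
  [MulDistribMulAction Γ (PadicAlgCl q)ˣ]

/-- **CYCLO-A.**  The fixed field of a local Galois group contains only finitely many `p`-power
roots of unity: they are all killed by one `p ^ k`. -/
theorem exists_bound_pPow_roots_aux (hΓ : IsLocalGal q Γ) (p : ℕ) [Fact p.Prime] :
    ∃ k : ℕ, ∀ ζ : PadicAlgCl q, (∃ j : ℕ, ζ ^ (p ^ j) = 1) → (∀ γ : Γ, γ • ζ = ζ) →
      ζ ^ (p ^ k) = 1 := by
  obtain ⟨-, E, e, hfin, he⟩ := hΓ
  obtain ⟨k, hk⟩ := cycloA_bound (resVal E (padicVal q)) (padicVal_isLocalVal q E)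
    (Fact.out : p.Prime)
  refine ⟨k, fun ζ hζ hfix => ?_⟩
  have hmem : ζ ∈ E := by
    rw [← InfiniteGalois.fixedField_fixingSubgroup E, IntermediateField.mem_fixedField_iff]
    intro σ hσ
    have h1 := hfix (e.symm ⟨σ, hσ⟩)
    rw [he, e.apply_symm_apply] at h1
    exact h1
  obtain ⟨j, hj⟩ := hζ
  have h2 := hk ⟨ζ, hmem⟩ ⟨j, Subtype.ext (by simpa using hj)⟩
  simpa using congrArg Subtype.val h2

end Fermat.Agent.F4.Loc
end MergeWrap_F4_Loc_CycloA

section MergeWrap_F4_Loc_CycloB -- from F4/Loc/CycloB.lean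

/-!
# F4 / Loc / CYCLO-B (helper90): a cyclotomic character of order `p` on a local Galois group

`cycloB_main` : from CYCLO-A for the open subgroups of `Γ` (hypothesis `hA`), there are `k` and a
surjective `χ : Γ →* ℤ/p` with open kernel, trivial on the stabiliser of `μ_{p^k}`.

Proof.  `η` a primitive `p`-th root of unity, `Γ₁` its stabiliser, `k₀` the bound of CYCLO-A for
`Γ₁`, `k = k₀ + 1`, `ζ` a primitive `p^k`-th root of unity, `ψ : Γ → (ℤ/p^k)ˣ` the action on `ζ`.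
For `γ ∈ Γ₁`: `ψ γ ≡ 1 mod p`, so `(ψ γ)^(p^k₀) = 1`.  If `p ∤ #im ψ` then `ψ γ = 1` for
`γ ∈ Γ₁`, i.e. `Γ₁` fixes `ζ`, against CYCLO-A.  So `p ∣ #im ψ`, and a finite abelian group of
order divisible by `p` surjects onto `ℤ/p`.
-/

set_option autoImplicit false
set_option linter.style.haveILetI false
set_option linter.unusedSectionVars false

namespace Fermat.Agent.F4.Loc

/-- a finite abelian group of order divisible by `p` surjects onto `ℤ/p`. -/
theorem cycloB_exists_surj_zmod (G : Type*) [CommGroup G] [Finite G] (p : ℕ) [Fact p.Prime]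
    (hp : p ∣ Nat.card G) : ∃ f : G →* Multiplicative (ZMod p), Function.Surjective f := by
  classical
  obtain ⟨ι, _, n, hn, ⟨e⟩⟩ := CommGroup.equiv_prod_multiplicative_zmod_of_finite G
  have hcard : Nat.card G = ∏ i, n i := by
    rw [Nat.card_congr e.toEquiv, Nat.card_pi]
    refine Finset.prod_congr rfl fun i _ => ?_
    rw [Nat.card_congr Multiplicative.toAdd, Nat.card_zmod]
  rw [hcard] at hp
  obtain ⟨i, -, hi⟩ := (Prime.dvd_finsetProd_iff (Nat.Prime.prime Fact.out) _).mp hp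
  let π : ((i : ι) → Multiplicative (ZMod (n i))) →* Multiplicative (ZMod (n i)) :=
    Pi.evalMonoidHom _ i
  let c : Multiplicative (ZMod (n i)) →* Multiplicative (ZMod p) :=
    AddMonoidHom.toMultiplicative (ZMod.castHom hi (ZMod p)).toAddMonoidHom
  refine ⟨c.comp (π.comp e.toMonoidHom), ?_⟩
  intro y
  obtain ⟨x, hx⟩ := ZMod.ringHom_surjective (ZMod.castHom hi (ZMod p)) (Multiplicative.toAdd y)
  refine ⟨e.symm (Pi.mulSingle i (Multiplicative.ofAdd x)), ?_⟩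
  simp only [MonoidHom.comp_apply, MulEquiv.coe_toMonoidHom, MulEquiv.apply_symm_apply, π, c,
    Pi.evalMonoidHom_apply, Pi.mulSingle_eq_same]
  exact congrArg Multiplicative.ofAdd hx

variable {q : ℕ} [Fact q.Prime]
variable {Γ : Type} [Group Γ] [MulSemiringAction Γ (PadicAlgCl q)]
  [MulDistribMulAction Γ (PadicAlgCl q)ˣ]

/-- the action of a local Galois group as a hom to `LG q`. -/
theorem cycloB_exists_hom (hΓ : IsLocalGal q Γ) :
    ∃ ρ : Γ →* LG q, ∀ (γ : Γ) (x : PadicAlgCl q), γ • x = ρ γ x := by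
  obtain ⟨-, E, e, -, he⟩ := hΓ
  exact ⟨(E.fixingSubgroup.subtype).comp e.toMonoidHom, fun γ x => he γ x⟩

/-- `a ≡ 1 mod p` implies `a ^ (p ^ k₀) = 1` in `ℤ / p ^ (k₀ + 1)`. -/
theorem cycloB_pow_eq_one {p k₀ a : ℕ} (ha : a ≡ 1 [MOD p]) :
    ((a : ZMod (p ^ (k₀ + 1))) ^ (p ^ k₀)) = 1 := by
  have h1 : (p : ℤ) ∣ (1 : ℤ) - (a : ℤ) := by
    have := (Nat.modEq_iff_dvd).mp ha
    simpa using this
  have h2 : (p : ZMod (p ^ (k₀ + 1))) ∣ (a : ZMod (p ^ (k₀ + 1))) - 1 := by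
    obtain ⟨t, ht⟩ := h1
    refine ⟨-(t : ZMod (p ^ (k₀ + 1))), ?_⟩
    have := congrArg (fun z : ℤ => (z : ZMod (p ^ (k₀ + 1)))) ht
    simp only [Int.cast_sub, Int.cast_one, Int.cast_natCast, Int.cast_mul] at this
    rw [mul_neg, ← this]
    ring
  have h3 := dvd_sub_pow_of_dvd_sub h2 k₀
  have h4 : ((p : ZMod (p ^ (k₀ + 1))) ^ (k₀ + 1)) = 0 := by
    rw [← Nat.cast_pow]
    exact ZMod.natCast_self _
  rw [h4, zero_dvd_iff, one_pow, sub_eq_zero] at h3
  exact h3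

/-- **CYCLO-B** from CYCLO-A for the open subgroups. -/
theorem cycloB_main (hΓ : IsLocalGal q Γ) (p : ℕ) [Fact p.Prime]
    (hA : ∀ H : Subgroup Γ, IsOpenSub q H → ∃ k : ℕ, ∀ ζ : PadicAlgCl q,
      (∃ j : ℕ, ζ ^ (p ^ j) = 1) → (∀ γ ∈ H, γ • ζ = ζ) → ζ ^ (p ^ k) = 1) :
    ∃ (k : ℕ) (χ : Γ →* Multiplicative (ZMod p)), Function.Surjective χ ∧ IsOpenSub q χ.ker ∧
      ∀ γ : Γ, (∀ ζ : PadicAlgCl q, ζ ^ (p ^ k) = 1 → γ • ζ = ζ) → χ γ = 1 := by
  classical
  have hp : p.Prime := Fact.out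
  obtain ⟨ρ, hρ⟩ := cycloB_exists_hom hΓ
  haveI : CharZero (PadicAlgCl q) :=
    charZero_of_injective_algebraMap (algebraMap ℚ_[q] (PadicAlgCl q)).injective
  haveI hne : ∀ n : ℕ, NeZero ((p ^ n : ℕ) : PadicAlgCl q) := fun n =>
    ⟨by exact_mod_cast (pow_pos hp.pos n).ne'⟩
  obtain ⟨η, hη⟩ := HasEnoughRootsOfUnity.exists_primitiveRoot (PadicAlgCl q) (p ^ 1)
  rw [pow_one] at hη
  obtain ⟨k₀, hk₀⟩ := hA (lgbStab {η}) (lgb_isOpenSub_stab _)
  obtain ⟨ζ, hζ⟩ := HasEnoughRootsOfUnity.exists_primitiveRoot (PadicAlgCl q) (p ^ (k₀ + 1))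
  haveI : NeZero (p ^ (k₀ + 1)) := ⟨(pow_pos hp.pos _).ne'⟩
  haveI : NeZero p := ⟨hp.pos.ne'⟩
  have h1lt : 1 < p ^ (k₀ + 1) := Nat.one_lt_pow (Nat.succ_ne_zero _) hp.one_lt
  haveI : Fact (1 < p ^ (k₀ + 1)) := ⟨h1lt⟩
  let ψ : Γ →* (ZMod (p ^ (k₀ + 1)))ˣ := (hζ.autToPow ℚ_[q]).comp ρ
  have hψ : ∀ γ : Γ, ζ ^ ((ψ γ : ZMod (p ^ (k₀ + 1))).val) = γ • ζ := fun γ => by
    rw [hρ]
    exact hζ.autToPow_spec ℚ_[q] (ρ γ)
  have hfin : IsOfFinOrder ζ :=
    isOfFinOrder_iff_pow_eq_one.mpr ⟨p ^ (k₀ + 1), pow_pos hp.pos _, hζ.pow_eq_one⟩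
  have hord : orderOf ζ = p ^ (k₀ + 1) := hζ.eq_orderOf.symm
  have hfix : ∀ γ : Γ, ψ γ = 1 ↔ γ • ζ = ζ := by
    intro γ
    constructor
    · intro h
      rw [← hψ γ, h, Units.val_one, ZMod.val_one, pow_one]
    · intro h
      have h2 : ζ ^ ((ψ γ : ZMod (p ^ (k₀ + 1))).val) = ζ ^ 1 := by rw [hψ, h, pow_one]
      have h3 := hζ.pow_inj (ZMod.val_lt _) h1lt h2
      apply Units.ext
      rw [Units.val_one, ← ZMod.natCast_zmod_val (ψ γ : ZMod (p ^ (k₀ + 1))), h3, Nat.cast_one]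
  -- elements of `Γ₁` act through units `≡ 1 mod p`
  have hpow : ∀ γ ∈ lgbStab (Γ := Γ) {η}, (ψ γ) ^ (p ^ k₀) = 1 := by
    intro γ hγ
    have hγη : γ • η = η := hγ η (Finset.mem_singleton_self η)
    set a := (ψ γ : ZMod (p ^ (k₀ + 1))).val with ha
    have hξ : (ζ ^ (p ^ k₀)) ^ p = 1 := by
      rw [← pow_mul, ← pow_succ]
      exact hζ.pow_eq_one
    obtain ⟨j, -, hj⟩ := hη.eq_pow_of_pow_eq_one hξ
    have h1 : γ • (ζ ^ (p ^ k₀)) = ζ ^ (p ^ k₀) := by
      rw [← hj, smul_pow', hγη]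
    have h2 : ζ ^ (a * p ^ k₀) = ζ ^ (1 * p ^ k₀) := by
      rw [one_mul, pow_mul, hψ γ, ← smul_pow', h1]
    have h3 : a * p ^ k₀ ≡ 1 * p ^ k₀ [MOD p * p ^ k₀] := by
      have := hfin.pow_eq_pow_iff_modEq.mp h2
      rwa [hord, pow_succ'] at this
    have h4 : a ≡ 1 [MOD p] := Nat.ModEq.mul_right_cancel' (pow_pos hp.pos _).ne' h3
    have h5 := cycloB_pow_eq_one (k₀ := k₀) h4
    apply Units.ext
    rw [Units.val_pow_eq_pow_val, Units.val_one, ← h5, ha, ZMod.natCast_zmod_val]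
  -- `p` divides the order of the image
  have hdiv : p ∣ Nat.card ψ.range := by
    by_contra hnd
    have hcop : Nat.Coprime (p ^ k₀) (Nat.card ψ.range) :=
      Nat.Coprime.pow_left _ ((Nat.Prime.coprime_iff_not_dvd hp).mpr hnd)
    have hall : ∀ γ ∈ lgbStab (Γ := Γ) {η}, γ • ζ = ζ := by
      intro γ hγ
      rw [← hfix]
      have h1 : orderOf (ψ γ) ∣ p ^ k₀ := orderOf_dvd_of_pow_eq_one (hpow γ hγ)
      have h2 : orderOf (ψ γ) ∣ Nat.card ψ.range := by
        have := orderOf_dvd_natCard (⟨ψ γ, ⟨γ, rfl⟩⟩ : ψ.range)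
        rwa [← Subgroup.orderOf_coe] at this
      have h3 : orderOf (ψ γ) ∣ 1 := by
        have := Nat.dvd_gcd h1 h2
        rwa [hcop.gcd_eq_one] at this
      exact orderOf_eq_one_iff.mp (Nat.dvd_one.mp h3)
    have h6 := hk₀ ζ ⟨k₀ + 1, hζ.pow_eq_one⟩ hall
    have h7 := (hζ.pow_eq_one_iff_dvd _).mp h6
    have h8 := Nat.le_of_dvd (pow_pos hp.pos _) h7
    have h9 : p ^ k₀ < p ^ (k₀ + 1) := Nat.pow_lt_pow_right hp.one_lt (Nat.lt_succ_self _)
    omega
  obtain ⟨f, hf⟩ := cycloB_exists_surj_zmod ψ.range p hdiv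
  refine ⟨k₀ + 1, f.comp ψ.rangeRestrict, ?_, ?_, ?_⟩
  · exact hf.comp ψ.rangeRestrict_surjective
  · refine IsOpenSub.of_le hΓ (lgb_isOpenSub_stab {ζ}) fun γ hγ => ?_
    have hγζ : γ • ζ = ζ := hγ ζ (Finset.mem_singleton_self ζ)
    have h1 : ψ γ = 1 := (hfix γ).mpr hγζ
    rw [MonoidHom.mem_ker, MonoidHom.comp_apply]
    have h2 : ψ.rangeRestrict γ = 1 := Subtype.ext h1
    rw [h2, map_one]
  · intro γ hγ
    have hγζ : γ • ζ = ζ := hγ ζ hζ.pow_eq_one
    have h1 : ψ γ = 1 := (hfix γ).mpr hγζ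
    rw [MonoidHom.comp_apply]
    have h2 : ψ.rangeRestrict γ = 1 := Subtype.ext h1
    rw [h2, map_one]

/-- **CYCLO-B**, unconditional (CYCLO-A = `exists_bound_pPow_roots_aux`, helper77). -/
theorem exists_cyclo_char_aux (hΓ : IsLocalGal q Γ) (p : ℕ) [Fact p.Prime] :
    ∃ (k : ℕ) (χ : Γ →* Multiplicative (ZMod p)), Function.Surjective χ ∧ IsOpenSub q χ.ker ∧
      ∀ γ : Γ, (∀ ζ : PadicAlgCl q, ζ ^ (p ^ k) = 1 → γ • ζ = ζ) → χ γ = 1 := by
  refine cycloB_main hΓ p fun H hH => ?_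
  obtain ⟨k, hk⟩ := exists_bound_pPow_roots_aux (hΓ.subgroup H hH) p
  exact ⟨k, fun ζ hζ hfix => hk ζ hζ fun γ => hfix γ.1 γ.2⟩

end Fermat.Agent.F4.Loc
end MergeWrap_F4_Loc_CycloB

section MergeWrap_F4_Loc_Cyclo -- from F4/Loc/Cyclo.lean

/-!
# F4 / Loc / Cyclo : a cyclotomic character of order `p` on a local Galois group  (CYCLO-A proved in `CycloA.lean`, helper77; CYCLO-B proved in `CycloB.lean`, helper90)

`Γ` a local Galois group (`IsLocalGal q Γ`: `Γ` acts on `Ω = PadicAlgCl q` as `Gal(Ω/E)`, `E/ℚ_q`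
finite), `p` any prime (`p = q` allowed).

CYCLO-A  `exists_bound_pPow_roots` : `E` contains only finitely many `p`-power roots of unity.
     Proof (uniform in `p = q`, `p ≠ q`): let `v` be the valuation of `E` (`IsLocalVal`, BASE/EF),
     `π` a uniformizer (`IsLocalGal.exists_unif`).  (1) a root of unity `η ≠ 1` of order `p`
     has `v (η - 1) ≥ v p` (`1 + η + ⋯ + η^(p-1) = 0` is `≡ p` modulo `η - 1`); (2) if `η ≠ 1` is a
     `p`-power root of unity, a `p`-power `η'` of it has order `p` and `v (η' - 1) ≤ v (η - 1)`;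
     (3) choose `N` with `v π ^ N < v p`; the units of `E` modulo `1 + π^N 𝒪` are finite
     (`finite_units_mod_close`, KFIN), so infinitely many `p`-power roots of unity in `E` would
     give two, `ζ ≠ ζ'`, with `v (ζ / ζ' - 1) ≤ v π ^ N < v p`, against (1), (2).
CYCLO-B  `exists_cyclo_char` : there are `k` and a surjective character `χ : Γ ↠ ℤ/p` which is
     trivial on the stabiliser of the `p^k`-th roots of unity.
     Proof: `Γ` acts on `μ_{p^k}(Ω)` (cyclic of order `p^k`) through `ψ_k : Γ → (ℤ/p^k)^×`.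
     If `p ∤ #im ψ_k` then `im ψ_k` injects into `(ℤ/p)^×` (the kernel of
     `(ℤ/p^k)^× → (ℤ/p)^×` is a `p`-group), so the stabiliser `Γ₁` of `μ_p` fixes `μ_{p^k}`;
     `Γ₁` is a local Galois group (`IsLocalGal.subgroup`), so by CYCLO-A this fails for `k` large.
     Hence `p ∣ #im ψ_k` for some `k`; a finite abelian group of order divisible by `p` surjects
     onto `ℤ/p`; compose.  `ker χ` contains the stabiliser of `μ_{p^k}`, which is open
     (finite set), hence is open (`IsOpenSub.of_le`).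

Use (SMOOTH/DATUM): `p ∈ S`, so the stabiliser of `μ_{p^k}` is (the pull-back of) an `S`-level and
`χ` is smooth for the `S`-levels; `exists_nontrivial_class` (F3) then gives a nonzero class of
order `p` in `H²` of the formation.
-/

set_option autoImplicit false

open scoped NNReal

namespace Fermat.Agent.F4.Loc

variable {q : ℕ} [Fact q.Prime]
variable {Γ : Type} [Group Γ] [MulSemiringAction Γ (PadicAlgCl q)]
  [MulDistribMulAction Γ (PadicAlgCl q)ˣ]

/-- **CYCLO-A.**  The fixed field of a local Galois group contains only finitely many `p`-power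
roots of unity: they are all killed by one `p ^ k`. -/
theorem exists_bound_pPow_roots (hΓ : IsLocalGal q Γ) (p : ℕ) [Fact p.Prime] :
    ∃ k : ℕ, ∀ ζ : PadicAlgCl q, (∃ j : ℕ, ζ ^ (p ^ j) = 1) → (∀ γ : Γ, γ • ζ = ζ) →
      ζ ^ (p ^ k) = 1 :=
  exists_bound_pPow_roots_aux hΓ p

/-- **CYCLO-B.**  A local Galois group has a surjective character onto `ℤ/p` with open kernel
which is trivial on the stabiliser of the `p^k`-th roots of unity, for some `k`. -/
theorem exists_cyclo_char (hΓ : IsLocalGal q Γ) (p : ℕ) [Fact p.Prime] :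
    ∃ (k : ℕ) (χ : Γ →* Multiplicative (ZMod p)), Function.Surjective χ ∧ IsOpenSub q χ.ker ∧
      ∀ γ : Γ, (∀ ζ : PadicAlgCl q, ζ ^ (p ^ k) = 1 → γ • ζ = ζ) → χ γ = 1 :=
  exists_cyclo_char_aux hΓ p

end Fermat.Agent.F4.Loc
end MergeWrap_F4_Loc_Cyclo

section MergeWrap_F4_Loc_Datum_Inv -- from F4/Loc/Datum/Inv.lean

/-!
# F4 / Loc / Datum / Inv : the invariant and a nonzero class  (DATUM, seat D-INV; proofs helper71)

* D-INV-1 `exists_injective_inv` : if any two classes of `HH²(𝓥, L)` are dependent (`DepHH2`), there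
  is an injective linear form on `HH²(𝓥, L)` (linear algebra: `dim ≤ 1`);
* D-INV-2 `exists_nonzero_class` : `KF3` and a nonzero smooth character give a nonzero class
  (`z ∪ χ`, `UC.cupχ_mem_ZZ2`);
* D-INV-3 `exists_smooth_char_S` : for `p ∈ S` the local group at `q` has a nonzero additive
  character to `𝔽_p` which is smooth for the `S`-levels: `exists_cyclo_char`
  (`F4/Loc/Cyclo.lean`) gives `χ : G_q ↠ ℤ/p` trivial on the stabiliser of `μ_{p^k}`, and
  `exists_locLevelsS_fixing_roots` gives an `S`-level fixing `μ_{p^k}`.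
-/

set_option autoImplicit false

open CategoryTheory groupCohomology ExtCitation

namespace Fermat.Agent.F4.Loc

/-- **D-INV-1.**  An injective linear form on a space in which any two vectors are dependent. -/
theorem exists_injective_inv {G : Type} [Group G] {p : ℕ} [Fact p.Prime] {𝓥 : Levels G}
    {L : Cx (ZMod p) G} (h : DepHH2 𝓥 L) :
    ∃ inv : HH2 𝓥 L →ₗ[ZMod p] ZMod p, Function.Injective inv := by
  by_cases h0 : ∀ v : HH2 𝓥 L, v = 0
  · exact ⟨0, fun a b _ => (h0 a).trans (h0 b).symm⟩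
  · obtain ⟨v, hv⟩ := not_forall.1 h0
    obtain ⟨c, rfl⟩ := Submodule.mkQ_surjective _ v
    have hspan : ∀ w : HH2 𝓥 L, ∃ a : ZMod p, w = a • HH2π 𝓥 L c := by
      intro w
      obtain ⟨c', rfl⟩ := Submodule.mkQ_surjective _ w
      obtain ⟨x, y, hxy, hB⟩ := h c c'
      have hsum : x • HH2π 𝓥 L c + y • HH2π 𝓥 L c' = 0 := by
        rw [← map_smul, ← map_smul, ← map_add]
        exact (HH2π_eq_zero_iff 𝓥 L _).2 hB
      have hy : y ≠ 0 := by
        rintro rfl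
        rw [zero_smul, add_zero] at hsum
        rcases hxy with hx | hy
        · exact hv ((smul_eq_zero.1 hsum).resolve_left hx)
        · exact hy rfl
      refine ⟨-(y⁻¹ * x), ?_⟩
      have h1 : y • HH2π 𝓥 L c' = -(x • HH2π 𝓥 L c) := eq_neg_of_add_eq_zero_right hsum
      calc HH2π 𝓥 L c' = y⁻¹ • (y • HH2π 𝓥 L c') := by
            rw [smul_smul, inv_mul_cancel₀ hy, one_smul]
        _ = -(y⁻¹ * x) • HH2π 𝓥 L c := by rw [h1, smul_neg, smul_smul, neg_smul]
    let f : ZMod p →ₗ[ZMod p] HH2 𝓥 L := LinearMap.toSpanSingleton (ZMod p) _ (HH2π 𝓥 L c)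
    have hf : LinearMap.ker f = ⊥ := by
      rw [LinearMap.ker_eq_bot']
      intro a ha
      exact (smul_eq_zero.1 ha).resolve_right hv
    obtain ⟨g, hg⟩ := LinearMap.exists_leftInverse_of_injective f hf
    refine ⟨g, (injective_iff_map_eq_zero g).2 fun w hw => ?_⟩
    obtain ⟨a, rfl⟩ := hspan w
    have h2 : g (f a) = a := by
      have := congrArg (fun φ : ZMod p →ₗ[ZMod p] ZMod p => φ a) hg
      simpa using this
    have h3 : f a = a • HH2π 𝓥 L c := rfl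
    rw [← h3, h2] at hw
    rw [hw, zero_smul]

/-- **D-INV-2.**  A nonzero class of `HH²` from `KF3` and a nonzero smooth character. -/
theorem exists_nonzero_class {G : Type} [Group G] {p : ℕ} [Fact p.Prime] {𝓤 : Levels G}
    {K : Cx (ZMod p) G} (hK3 : UC.KF3 𝓤 K)
    (χ : G → ZMod p) (hχ : ∀ g h, χ (g * h) = χ g + χ h) (hLC : IsLC₁ 𝓤 χ) (hne : χ ≠ 0) :
    ∃ c : ↥(ZZ2 𝓤 K), HH2π 𝓤 K c ≠ 0 := by
  have : NeZero p := ⟨(Fact.out : p.Prime).ne_zero⟩
  obtain ⟨z, hz, hzχ⟩ := hK3 χ hχ hLC hne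
  refine ⟨⟨UC.cupχ z χ, UCData.cupχ_mem_ZZ2 hz hχ hLC⟩, fun h0 => hzχ ?_⟩
  exact (HH2π_eq_zero_iff 𝓤 K _).1 h0

/-- **D-INV-3.**  A nonzero smooth character of the local group at `q`, for `p ∈ S`. -/
theorem exists_smooth_char_S (p : ℕ) [Fact p.Prime] (S : Finset Nat.Primes) (q : Nat.Primes)
    (hpS : pPrime p ∈ S) :
    ∃ χ : primeLocalGaloisGroup q → ZMod p, (∀ g h, χ (g * h) = χ g + χ h) ∧
      IsLC₁ (locLevelsS S q) χ ∧ χ ≠ 0 := by
  obtain ⟨k, χ, hsurj, -, hχ⟩ := exists_cyclo_char (isLocalGal_primeLocal q) p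
  obtain ⟨V, hV, hfix⟩ := exists_locLevelsS_fixing_roots S q p hpS k
  have hVker : ∀ s ∈ V, χ s = 1 := fun s hs => hχ s (fun ζ hζ => hfix ζ hζ s hs)
  refine ⟨fun g => Multiplicative.toAdd (χ g), fun g h => ?_, ⟨V, hV, fun g s hs => ?_⟩, ?_⟩
  · show Multiplicative.toAdd (χ (g * h)) = _
    rw [map_mul, toAdd_mul]
  · show Multiplicative.toAdd (χ (g * s)) = Multiplicative.toAdd (χ g)
    rw [map_mul, hVker s hs, mul_one]
  · intro h0
    obtain ⟨g, hg⟩ := hsurj (Multiplicative.ofAdd 1)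
    have h1 := congrFun h0 g
    have h2 : Multiplicative.toAdd (χ g) = (0 : ZMod p) := h1
    rw [hg, toAdd_ofAdd] at h2
    have : Fact (1 < p) := ⟨(Fact.out : p.Prime).one_lt⟩
    exact one_ne_zero h2

end Fermat.Agent.F4.Loc
end MergeWrap_F4_Loc_Datum_Inv

section MergeWrap_F4_Loc_Datum_Main -- from F4/Loc/Datum/Main.lean

/-!
# F4 / Loc / Datum / Main : the local datum at `q`  (DATUM, assembly)

`localDatumOf φ q hinj hcomm inv invAll … : LocalDatum p S q` with `K = hullK p (LqS S q)`,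
`ε = hullEps … (locUnit ∘ EsIncl ∘ φ)`; `exists_invs` : the two invariants; `nonempty_localDatum`.

Inputs: SMOOTH (`F4/Loc/Smooth/Main.lean`: `h90sm`, `f1sm`, `f3sm`, `maBridge`, `homFinite` for
every local formation), the glue `F4/UC/Bridge.lean`, `F4/Shapiro/R2.lean`, and the seats
D-PHI (`exists_compare_HH2`), D-INV (`exists_injective_inv`, `exists_smooth_char_S`).
-/

set_option autoImplicit false
set_option linter.unusedSectionVars false

open CategoryTheory groupCohomology ExtCitation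

noncomputable section

namespace Fermat.Agent.F4.Loc

variable {p : ℕ} [Fact p.Prime] {S : Finset Nat.Primes}

/-! ### generalities -/

lemma isLC₁_mono {G : Type} [Group G] {𝓤 𝓥 : Levels G} (h : 𝓤.sets ⊆ 𝓥.sets) {X : Type*}
    {f : G → X} (hf : IsLC₁ 𝓤 f) : IsLC₁ 𝓥 f := by
  obtain ⟨V, hV, hfV⟩ := hf
  exact ⟨V, h hV, hfV⟩

/-- The index condition in the form of `F4/Shapiro/R2.lean`. -/
lemma card_quot_ne_zero {G : Type} [Group G] (U : Subgroup G) [Fintype (G ⧸ U)]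
    (h : ¬ p ∣ U.index) : (Fintype.card (G ⧸ U) : ZMod p) ≠ 0 := by
  intro h0
  apply h
  rw [ZMod.natCast_eq_zero_iff] at h0
  rwa [Subgroup.index, Nat.card_eq_fintype_card]

/-- The two properties of a local datum over `U`, from the formation-level statements. -/
theorem a2Inj_a1Surj_of_formation {G : Type} [Group G] {𝓤 : Levels G} {K : Cx (ZMod p) G}
    {C I Q : Rep.{0} ℤ G} (D : UCData p K C I Q) (hI : IsSmooth 𝓤 I)
    (inv : HH2 𝓤 K →ₗ[ZMod p] ZMod p) (hinv : ∃ c : ↥(ZZ2 𝓤 K), inv (HH2π 𝓤 K c) ≠ 0)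
    (U : Subgroup G) (hU : 𝓤.IsOpen U) (hidx : ¬ p ∣ U.index)
    (h90 : UC.H90sm (𝓤.sub U) (Rep.res U.subtype C))
    (hF1 : UC.F1sm p (𝓤.sub U) (Rep.res U.subtype C))
    (hF3 : UC.F3sm p (𝓤.sub U) (Rep.res U.subtype C))
    (hfin : HomFinite p (𝓤.sub U)) :
    A2Inj 𝓤 K (permRep (ZMod p) U) inv ∧
      A1Surj 𝓤 K (permRep (ZMod p) U) inv (permRep_smooth _ hU) (permRep_finite _ hU) := by
  have := hU.finite_quotient
  let _ := Fintype.ofFinite (G ⧸ U)
  have hc := card_quot_ne_zero (p := p) U hidx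
  have hdep := D.depHH2_res hI U h90 hF1
  exact ⟨a2Inj_permRep_of_dep U K inv hU hc hdep hinv,
    a1Surj_permRep_of_nondeg U K inv hU (a2InjU_of_dep U K inv hU hc hdep hinv) hfin
      (D.cupNondegRight_res hI U hF3)⟩

/-! ### the local datum -/

section Datum

variable (φ : Fp1 p →+ EsRep S) (q : Nat.Primes) (hinj : Function.Injective φ)
  (hcomm : ∀ (g : GQ) (x : Fp1 p), φ ((Fp1 p).ρ g x) = (EsRep S).ρ g (φ x))
  (hpS : pPrime p ∈ S)

/-- The bridge `MA` as injectivity of `H²(𝓛_S, L_S) → H²(𝓛, L)`. -/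
theorem inclSA_B2 (w : primeLocalGaloisGroup q × primeLocalGaloisGroup q → ↥(CS S q))
    (hw : w ∈ Z2 (locLevelsS S q) (CS S q))
    (hB : (fun x => inclSA S q (w x)) ∈ B2 (locLevelsAll q) (CAll q)) :
    w ∈ B2 (locLevelsS S q) (CS S q) :=
  (formationSTop S q).maBridge w hw (f1_isSmCob2_of_mem_B2 (formationAllTop q) hB)

include hinj hcomm hpS in
/-- The two invariants, with their properties. -/
theorem exists_invs :
    ∃ (inv : HH2 (locLevelsS S q) (locK p S q) →ₗ[ZMod p] ZMod p)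
      (invAll : HH2 (locLevelsAll q) (locMu p q) →ₗ[ZMod p] ZMod p),
      (∃ c : ↥(ZZ2 (locLevelsS S q) (locK p S q)), inv (HH2π _ _ c) ≠ 0) ∧
      (∃ c : ↥(ZZ2 (locLevelsAll q) (locMu p q)), invAll (HH2π _ _ c) ≠ 0) ∧
      ∀ (z : T2 (locMu p q)) (hz : z ∈ ZZ2 (locLevelsS S q) (locMu p q))
        (hz' : z ∈ ZZ2 (locLevelsAll q) (locMu p q)),
        inv (HH2π _ _ ((locEps φ q hcomm).mapZZ2 _ ⟨z, hz⟩)) = invAll (HH2π _ _ ⟨z, hz'⟩) := by
  have : NeZero p := ⟨(Fact.out : p.Prime).ne_zero⟩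
  have hIS := hullI_CS_smooth S q
  have hIA := CAll_smooth q
  have hK1 : Subsingleton ↥(locMu p q).K1 := inferInstanceAs (Subsingleton PUnit.{1})
  obtain ⟨Φ, hΦinj, hΦ⟩ := exists_compare_HH2 (locLevelsS_subset S q) (locHullData p S q)
    (muData φ q hinj hcomm) hIS hIA hK1 (inclSA S q) (inclSA_comm S q) (locEps φ q hcomm)
    (muS φ q) (fun _ => rfl) (fun _ => rfl) (formationSTop S q).h90sm (formationAllTop q).h90sm
    (inclSA_B2 q)
  obtain ⟨invAll, hinvAll⟩ := exists_injective_inv (UC.depHH2_of_KF1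
    ((muData φ q hinj hcomm).kF1 hIA (formationAllTop q).h90sm ((formationAllTop q).f1sm p)))
  obtain ⟨χ, hχ, hχLC, hχ0⟩ := exists_smooth_char_S p S q hpS
  obtain ⟨cS, hcS⟩ := exists_nonzero_class
    ((locHullData p S q).kF3 hIS ((formationSTop S q).f3sm p)) χ hχ hχLC hχ0
  obtain ⟨cA, hcA⟩ := exists_nonzero_class
    ((muData φ q hinj hcomm).kF3 hIA ((formationAllTop q).f3sm p)) χ hχ
    (isLC₁_mono (locLevelsS_subset S q) hχLC) hχ0
  refine ⟨invAll ∘ₗ Φ, invAll, ⟨cS, fun h => hcS ?_⟩, ⟨cA, fun h => hcA ?_⟩, fun z hz hz' => ?_⟩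
  · apply hΦinj
    apply hinvAll
    rw [map_zero, map_zero]
    exact h
  · apply hinvAll
    rw [map_zero]
    exact h
  · rw [LinearMap.comp_apply, hΦ z hz hz']

include hinj in
/-- The local datum attached to a pair of compatible nonzero invariants. -/
def localDatumOf (inv : HH2 (locLevelsS S q) (locK p S q) →ₗ[ZMod p] ZMod p)
    (invAll : HH2 (locLevelsAll q) (locMu p q) →ₗ[ZMod p] ZMod p)
    (hinv : ∃ c : ↥(ZZ2 (locLevelsS S q) (locK p S q)), inv (HH2π _ _ c) ≠ 0)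
    (hinvAll : ∃ c : ↥(ZZ2 (locLevelsAll q) (locMu p q)), invAll (HH2π _ _ c) ≠ 0)
    (hcompat : ∀ (z : T2 (locMu p q)) (hz : z ∈ ZZ2 (locLevelsS S q) (locMu p q))
        (hz' : z ∈ ZZ2 (locLevelsAll q) (locMu p q)),
        inv (HH2π _ _ ((locEps φ q hcomm).mapZZ2 _ ⟨z, hz⟩)) = invAll (HH2π _ _ ⟨z, hz'⟩)) :
    LocalDatum p S q where
  K := locK p S q
  smooth := locK_smooth p S q
  ε := locEps φ q hcomm
  ε_inj := locEps_injective φ q hinj hcomm
  inv := inv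
  a2inj := fun U hU hidx =>
    (a2Inj_a1Surj_of_formation (locHullData p S q) (hullI_CS_smooth S q) inv hinv U hU hidx
      ((formationSTop S q).h90sm_res U hU) ((formationSTop S q).f1sm_res p U hU)
      ((formationSTop S q).f3sm_res p U hU) ((formationSTop S q).homFinite_res p U hU)).1
  a1surj := fun U hU hidx =>
    (a2Inj_a1Surj_of_formation (locHullData p S q) (hullI_CS_smooth S q) inv hinv U hU hidx
      ((formationSTop S q).h90sm_res U hU) ((formationSTop S q).f1sm_res p U hU)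
      ((formationSTop S q).f3sm_res p U hU) ((formationSTop S q).homFinite_res p U hU)).2
  invAll := invAll
  a2injAll := fun U hU hidx =>
    (a2Inj_a1Surj_of_formation (muData φ q hinj hcomm) (CAll_smooth q) invAll hinvAll U hU hidx
      ((formationAllTop q).h90sm_res U hU) ((formationAllTop q).f1sm_res p U hU)
      ((formationAllTop q).f3sm_res p U hU) ((formationAllTop q).homFinite_res p U hU)).1
  a1surjAll := fun U hU hidx =>
    (a2Inj_a1Surj_of_formation (muData φ q hinj hcomm) (CAll_smooth q) invAll hinvAll U hU hidx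
      ((formationAllTop q).h90sm_res U hU) ((formationAllTop q).f1sm_res p U hU)
      ((formationAllTop q).f3sm_res p U hU) ((formationAllTop q).homFinite_res p U hU)).2
  inv_ε := hcompat

include hinj hcomm hpS in
/-- **DATUM.**  The local datum at `q` exists. -/
theorem nonempty_localDatum : Nonempty (LocalDatum p S q) := by
  obtain ⟨inv, invAll, hinv, hinvAll, hcompat⟩ := exists_invs φ q hinj hcomm hpS
  exact ⟨localDatumOf φ q hinj hcomm inv invAll hinv hinvAll hcompat⟩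

end Datum

end Fermat.Agent.F4.Loc

end
end MergeWrap_F4_Loc_Datum_Main

section MergeWrap_F4_Loc_Datum_Pack -- from F4/Loc/Datum/Pack.lean

/-!
# F4 / Loc / Datum / Pack : the deliverable of LOC for GLOB  (`LocPack`, `F4/Cf/RecipDefs.lean`)

`nonempty_locPack hpS φ hφ q : Nonempty (LocPack p S φ q)` : the local datum at `q` with
`K = hullK p (LqS S q)`, its universal-coefficient datum `hullData p (LqS S q)`, and
`ε = "μ_p ⊂ L_q via φ"`.
-/

set_option autoImplicit false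

open CategoryTheory groupCohomology ExtCitation

namespace Fermat.Agent.F4.Loc

open Fermat.Agent.F4Cf

/-- **The deliverable of LOC.** -/
theorem nonempty_locPack {p : ℕ} [Fact p.Prime] {S : Finset Nat.Primes} (hpS : pPrime p ∈ S)
    (φ : Fp1 p →+ EsRep S) (hφ : IsRootMap φ) (q : Nat.Primes) : Nonempty (LocPack p S φ q) := by
  obtain ⟨inv, invAll, hinv, hinvAll, hcompat⟩ := exists_invs φ q hφ.inj hφ.comm hpS
  exact ⟨{ loc := localDatumOf φ q hφ.inj hφ.comm inv invAll hinv hinvAll hcompat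
           I := hullI (LqS S q)
           Q := hullQ (LqS S q)
           dat := locHullData p S q
           smoothI := hullI_CS_smooth S q
           compat := fun _ => rfl }⟩

end Fermat.Agent.F4.Loc
end MergeWrap_F4_Loc_Datum_Pack
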